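import Fermat.Agent.S48.Kum.M4b1

/-!
# S48 / RES, Kum leaf `norm` (helper548): coset representatives of `(Γ₁(M) ∩ Γ₀(p)) \ Γ₁(M)`
adapted to `repA`  (port of `S29/H452/NormCoset.lean` to `Γ₁(M)`)

For a prime `p ∤ M` and `x : OnePoint (ZMod p)` we construct `γ_x, δ_x ∈ Γ₁(M)` with

  `diag(p, 1) · γ_x = δ_x · repA x`      (`repA x = σ_p⁻¹ · heckeRep1 x`, `Kum/M4b1.lean`)

such that `γ_x γ_y⁻¹ ∈ Γ₀(p)` only for `x = y`.  (So `g ↦ (an g) ∘ γ_x` are the `p + 1` embeddings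
of the function field of `Γ₁(M) ∩ Γ₀(p)` over that of `Γ₁(M)`, and
`(an (β f)) ∘ γ_x = (an f) ∘ repA x`.)
-/

set_option autoImplicit false
set_option linter.unusedSectionVars false

noncomputable section

namespace Fermat.Agent.S48.H548

open CongruenceSubgroup ModularCurve UpperHalfPlane Matrix.SpecialLinearGroup ModularForm
open Fermat.Agent.S48.Kum
open scoped MatrixGroups OnePoint

variable {M : ℕ} [NeZero M] {p : ℕ} [Fact p.Prime]

/-- An inverse of `p` modulo `M`. -/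
theorem exists_inv_mod (hpM : ¬ p ∣ M) : ∃ e : ℤ, (((p : ℤ) * e : ℤ) : ZMod M) = 1 := by
  have hcop : IsCoprime (p : ℤ) (M : ℤ) :=
    Nat.isCoprime_iff_coprime.mpr ((Nat.Prime.coprime_iff_not_dvd Fact.out).mpr hpM)
  obtain ⟨a, b, hab⟩ := hcop
  refine ⟨a, ?_⟩
  have h := congrArg (Int.cast : ℤ → ZMod M) hab
  push_cast at h ⊢
  rw [ZMod.natCast_self, mul_zero, add_zero] at h
  rw [mul_comm]
  exact h

/-- The chosen inverse of `p` modulo `M`. -/
def invMod (M p : ℕ) [NeZero M] [Fact p.Prime] (hpM : ¬ p ∣ M) : ℤ :=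
  (exists_inv_mod (M := M) hpM).choose

theorem invMod_spec (hpM : ¬ p ∣ M) : (((p : ℤ) * invMod M p hpM : ℤ) : ZMod M) = 1 :=
  (exists_inv_mod (M := M) hpM).choose_spec

/-- The bottom row `(c, d)` of the representative `γ_x`. -/
def rep1Row (hpM : ¬ p ∣ M) (x : OnePoint (ZMod p)) : ℤ × ℤ :=
  x.elim (0, 1) (fun b ↦ ((M : ℤ), (M : ℤ) * (b.val : ℤ) + (p : ℤ) * invMod M p hpM))

@[simp] theorem rep1Row_infty (hpM : ¬ p ∣ M) : rep1Row hpM (∞ : OnePoint (ZMod p)) = (0, 1) :=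
  rfl

@[simp] theorem rep1Row_coe (hpM : ¬ p ∣ M) (b : ZMod p) :
    rep1Row hpM (b : OnePoint (ZMod p))
      = ((M : ℤ), (M : ℤ) * (b.val : ℤ) + (p : ℤ) * invMod M p hpM) := rfl

theorem repA_infty (hpM : ¬ p ∣ M) : repA hpM (∞ : OnePoint (ZMod p)) = heckeDiagMatrix p := by
  unfold repA heckeRep1
  rw [sigTw_infty, heckeRep_infty, ← mul_assoc, ← map_mul, inv_mul_cancel, map_one, one_mul]

theorem repA_coe (hpM : ¬ p ∣ M) (b : ZMod p) :
    repA hpM (b : OnePoint (ZMod p)) = mapGL ℝ (sigmaP M p hpM)⁻¹ * heckeMatrix p b.val := by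
  unfold repA heckeRep1
  rw [sigTw_coe, map_one, one_mul, heckeRep_coe]

theorem exists_rep1 (hpM : ¬ p ∣ M) (x : OnePoint (ZMod p)) :
    ∃ γ δ : SL(2, ℤ), γ 1 0 = (rep1Row hpM x).1 ∧ γ 1 1 = (rep1Row hpM x).2 ∧
      γ ∈ Gamma1 M ∧ δ ∈ Gamma1 M ∧
      heckeDiagMatrix p * mapGL ℝ γ = mapGL ℝ δ * repA hpM x := by
  induction x using OnePoint.rec with
  | infty =>
    refine ⟨1, 1, by simp, by simp, one_mem _, one_mem _, ?_⟩
    rw [repA_infty, map_one, mul_one, one_mul]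
  | coe b =>
    have he := invMod_spec (M := M) hpM
    set e := invMod M p hpM with hedef
    -- `gcd(M, M b + p e) = 1`
    have hc : IsCoprime (M : ℤ) ((M : ℤ) * (b.val : ℤ) + (p : ℤ) * e) := by
      have h1 : IsCoprime (M : ℤ) ((p : ℤ) * e) := by
        obtain ⟨k, hk⟩ : (M : ℤ) ∣ (p : ℤ) * e - 1 := by
          rw [← ZMod.intCast_zmod_eq_zero_iff_dvd]
          push_cast at he ⊢
          rw [he, sub_self]
        refine ⟨-k, 1, ?_⟩
        linear_combination hk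
      have := h1.add_mul_left_right (b.val : ℤ)
      rwa [add_comm] at this
    obtain ⟨s, t, hst⟩ := hc
    let γ : SL(2, ℤ) := ⟨!![t, -s; (M : ℤ), (M : ℤ) * (b.val : ℤ) + (p : ℤ) * e], by
      rw [Matrix.det_fin_two_of]; linear_combination hst⟩
    have hγ10 : γ 1 0 = (M : ℤ) := rfl
    have hγ11 : γ 1 1 = (M : ℤ) * (b.val : ℤ) + (p : ℤ) * e := rfl
    obtain ⟨δ', hδ10, hδ11, hmul⟩ := heckeDiagMatrix_mul_of_eq (Fact.out : p.Prime).ne_zero γ b.val e (by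
      rw [hγ10, hγ11])
    have hγmem : γ ∈ Gamma1 M := by
      apply mem_Gamma1_of_lower
      · rw [hγ10]; simp
      · rw [hγ11]
        push_cast at he ⊢
        rw [ZMod.natCast_self, zero_mul, zero_add, he]
    have hδ'0 : δ' ∈ Gamma0 M := by
      rw [Gamma0_mem, hδ10, hγ10]; simp
    have hδmem : δ' * sigmaP M p hpM ∈ Gamma1 M := by
      apply mem_Gamma1_of_lower
      · exact Gamma0_mem.mp ((Gamma0 M).mul_mem hδ'0 (sigmaP_mem hpM))
      · rw [lower_right_mul _ _ hδ'0, hδ11, sigmaP_lower hpM]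
        push_cast at he
        rw [mul_comm]
        exact he
    refine ⟨γ, δ' * sigmaP M p hpM, hγ10, hγ11, hγmem, hδmem, ?_⟩
    rw [repA_coe, hmul, map_mul, map_inv]
    group

/-- The chosen representatives `γ_x ∈ Γ₁(M)`. -/
def rep1γ (hpM : ¬ p ∣ M) (x : OnePoint (ZMod p)) : SL(2, ℤ) :=
  (exists_rep1 hpM x).choose

/-- The chosen `δ_x ∈ Γ₁(M)` with `diag(p,1) γ_x = δ_x · repA x`. -/
def rep1δ (hpM : ¬ p ∣ M) (x : OnePoint (ZMod p)) : SL(2, ℤ) :=
  (exists_rep1 hpM x).choose_spec.choose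

theorem rep1γ_spec (hpM : ¬ p ∣ M) (x : OnePoint (ZMod p)) :
    (rep1γ hpM x) 1 0 = (rep1Row hpM x).1 ∧ (rep1γ hpM x) 1 1 = (rep1Row hpM x).2 ∧
      rep1γ hpM x ∈ Gamma1 M ∧ rep1δ hpM x ∈ Gamma1 M ∧
      heckeDiagMatrix p * mapGL ℝ (rep1γ hpM x) = mapGL ℝ (rep1δ hpM x) * repA hpM x :=
  (exists_rep1 hpM x).choose_spec.choose_spec

theorem rep1γ_mem (hpM : ¬ p ∣ M) (x : OnePoint (ZMod p)) : rep1γ hpM x ∈ Gamma1 M :=
  (rep1γ_spec hpM x).2.2.1

theorem rep1δ_mem (hpM : ¬ p ∣ M) (x : OnePoint (ZMod p)) : rep1δ hpM x ∈ Gamma1 M :=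
  (rep1γ_spec hpM x).2.2.2.1

/-- `diag(p,1) · γ_x = δ_x · repA x`. -/
theorem rep1γ_mul (hpM : ¬ p ∣ M) (x : OnePoint (ZMod p)) :
    heckeDiagMatrix p * mapGL ℝ (rep1γ hpM x) = mapGL ℝ (rep1δ hpM x) * repA hpM x :=
  (rep1γ_spec hpM x).2.2.2.2

/-- On `ℍ`: `p · (γ_x τ) = δ_x (repA x • τ)`. -/
theorem heckeDiag_smul_rep1γ (hpM : ¬ p ∣ M) (x : OnePoint (ZMod p)) (τ : ℍ) :
    heckeDiagMatrix p • (rep1γ hpM x • τ) = rep1δ hpM x • (repA hpM x • τ) := by
  have h := congrArg (fun g : GL (Fin 2) ℝ => g • τ) (rep1γ_mul hpM x)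
  simp only [mul_smul] at h
  exact h

theorem mul_inv_apply_one_zero548 (γ γ' : SL(2, ℤ)) :
    (γ * γ'⁻¹) 1 0 = γ 1 0 * γ' 1 1 - γ 1 1 * γ' 1 0 := by
  rw [Matrix.SpecialLinearGroup.coe_mul, Matrix.mul_apply, Fin.sum_univ_two,
    Matrix.SpecialLinearGroup.SL2_inv_expl]
  simp
  ring

/-- The representatives are pairwise inequivalent modulo `Γ₀(p)`. -/
theorem rep1γ_injective (hpM : ¬ p ∣ M) {x y : OnePoint (ZMod p)}
    (h : rep1γ hpM x * (rep1γ hpM y)⁻¹ ∈ Gamma0 p) : x = y := by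
  have hp : p.Prime := Fact.out
  have hdvd : ((p : ℕ) : ℤ) ∣ (rep1γ hpM x * (rep1γ hpM y)⁻¹) 1 0 :=
    (ZMod.intCast_zmod_eq_zero_iff_dvd _ _).mp (Gamma0_mem.mp h)
  rw [mul_inv_apply_one_zero548, (rep1γ_spec hpM x).1, (rep1γ_spec hpM x).2.1,
    (rep1γ_spec hpM y).1, (rep1γ_spec hpM y).2.1] at hdvd
  have hpM' : ¬ (p : ℤ) ∣ (M : ℤ) := fun h1 => hpM (Int.natCast_dvd_natCast.mp h1)
  have hprime : Prime (p : ℤ) := Nat.prime_iff_prime_int.mp hp
  induction x using OnePoint.rec with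
  | infty =>
    induction y using OnePoint.rec with
    | infty => rfl
    | coe b =>
      exfalso
      simp only [rep1Row_infty, rep1Row_coe] at hdvd
      have h2 : (p : ℤ) ∣ (M : ℤ) := by
        have : (0 : ℤ) * ((M : ℤ) * (b.val : ℤ) + (p : ℤ) * invMod M p hpM) - 1 * (M : ℤ)
            = -(M : ℤ) := by ring
        rw [this] at hdvd
        exact (dvd_neg.mp hdvd)
      exact hpM' h2
  | coe a =>
    induction y using OnePoint.rec with
    | infty =>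
      exfalso
      simp only [rep1Row_infty, rep1Row_coe] at hdvd
      have h2 : (p : ℤ) ∣ (M : ℤ) := by
        have : (M : ℤ) * 1 - ((M : ℤ) * (a.val : ℤ) + (p : ℤ) * invMod M p hpM) * 0
            = (M : ℤ) := by ring
        rw [this] at hdvd
        exact hdvd
      exact hpM' h2
    | coe b =>
      simp only [rep1Row_coe] at hdvd
      have h2 : (p : ℤ) ∣ (M : ℤ) * ((M : ℤ) * ((b.val : ℤ) - (a.val : ℤ))) := by
        have : (M : ℤ) * ((M : ℤ) * (b.val : ℤ) + (p : ℤ) * invMod M p hpM)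
            - ((M : ℤ) * (a.val : ℤ) + (p : ℤ) * invMod M p hpM) * (M : ℤ)
            = (M : ℤ) * ((M : ℤ) * ((b.val : ℤ) - (a.val : ℤ))) := by ring
        rw [this] at hdvd
        exact hdvd
      have h3 : (p : ℤ) ∣ (b.val : ℤ) - (a.val : ℤ) := by
        rcases hprime.dvd_or_dvd h2 with h | h
        · exact absurd h hpM'
        · rcases hprime.dvd_or_dvd h with h | h
          · exact absurd h hpM'
          · exact h
      have h5 : (((b.val : ℤ) - (a.val : ℤ) : ℤ) : ZMod p) = 0 :=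
        (ZMod.intCast_zmod_eq_zero_iff_dvd _ _).mpr h3
      have : NeZero p := ⟨hp.ne_zero⟩
      push_cast at h5
      rw [ZMod.natCast_zmod_val, ZMod.natCast_zmod_val] at h5
      have : b = a := sub_eq_zero.mp h5
      rw [this]

end Fermat.Agent.S48.H548
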