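import Fermat.Agent.S48.H548.Chi0Ops

/-!
# S48 / RES, node M4a1 input PER1 (helper548): the Hecke operator `T_p` on `Hom(Γ₁(M), A)`

Coset representatives of `T_p` on `Γ₁(M)`: `heckeRep1 x = σ_x β_x`, with `β_x` the standard
representatives (`(1 j; 0 p)`, `(p 0; 0 1)`), `σ_∞ = σ_p ∈ Γ₀(M)` (lower right entry `≡ p`),
`σ_j = 1`.  For `γ ∈ Γ₁(M)`: `heckeRep1 x * γ = t * heckeRep1 (γ • x)` with a unique
`t = trf1 γ x ∈ Γ₁(M)`, and `(heckeHom1 p φ) γ = ∑ x, φ (trf1 γ x)`.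
(Port of S29/H201/Transfer to `Γ₁(M)`.)
-/

set_option autoImplicit false
set_option linter.unusedSectionVars false

noncomputable section

namespace Fermat.Agent.S48.H548

open CongruenceSubgroup Matrix.SpecialLinearGroup UpperHalfPlane ModularForm
open scoped MatrixGroups OnePoint

variable {M : ℕ} [NeZero M] {p : ℕ} [Fact p.Prime]

/-- The twisting elements `σ_x`. -/
def sigTw (hpM : ¬ p ∣ M) (x : OnePoint (ZMod p)) : SL(2, ℤ) :=
  x.elim (sigmaP M p hpM) (fun _ ↦ 1)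

@[simp] theorem sigTw_infty (hpM : ¬ p ∣ M) : sigTw hpM (∞ : OnePoint (ZMod p)) = sigmaP M p hpM :=
  rfl

@[simp] theorem sigTw_coe (hpM : ¬ p ∣ M) (j : ZMod p) :
    sigTw hpM (j : OnePoint (ZMod p)) = 1 := rfl

theorem sigTw_mem (hpM : ¬ p ∣ M) (x : OnePoint (ZMod p)) : sigTw hpM x ∈ Gamma0 M := by
  induction x using OnePoint.rec with
  | infty => exact sigmaP_mem hpM
  | coe j => exact (Gamma0 M).one_mem

/-- `(σ_x)₁₁ w(x) = p`. -/
theorem sigTw_lower_mul_wt (hpM : ¬ p ∣ M) (x : OnePoint (ZMod p)) :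
    (((sigTw hpM x) 1 1 : ℤ) : ZMod M) * wt M p x = (p : ZMod M) := by
  induction x using OnePoint.rec with
  | infty => rw [sigTw_infty, wt_infty, mul_one, sigmaP_lower]
  | coe j => simp

/-- The coset representatives of `T_p` for `Γ₁(M)`. -/
def heckeRep1 (hpM : ¬ p ∣ M) (x : OnePoint (ZMod p)) : GL (Fin 2) ℝ :=
  mapGL ℝ (sigTw hpM x) * heckeRep p x

theorem wt_isUnit (hpM : ¬ p ∣ M) (x : OnePoint (ZMod p)) : IsUnit (wt M p x) := by
  have hpu : IsUnit ((p : ℕ) : ZMod M) :=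
    (ZMod.isUnit_iff_coprime p M).mpr ((Nat.Prime.coprime_iff_not_dvd Fact.out).mpr hpM)
  induction x using OnePoint.rec with
  | infty => exact isUnit_one
  | coe j => exact hpu

theorem exists_trf1 (hpM : ¬ p ∣ M) (γ : Gamma1 M) (x : OnePoint (ZMod p)) :
    ∃ t : Gamma1 M, heckeRep1 hpM x * mapGL ℝ (γ : SL(2, ℤ))
      = mapGL ℝ (t : SL(2, ℤ)) * heckeRep1 hpM (redMatrix p (γ : SL(2, ℤ)) • x) := by
  have hγ := (Gamma1_mem M (γ : SL(2, ℤ))).mp γ.2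
  have hγN : (M : ℤ) ∣ (γ : SL(2, ℤ)) 1 0 := (ZMod.intCast_zmod_eq_zero_iff_dvd _ _).mp hγ.2.2
  obtain ⟨g', hg'N, hw, hmul⟩ := heckeRep_mul hpM (γ : SL(2, ℤ)) hγN x
  have hg'0 : g' ∈ Gamma0 M := Gamma0_mem.mpr ((ZMod.intCast_zmod_eq_zero_iff_dvd _ _).mpr hg'N)
  rw [hγ.2.1, one_mul] at hw
  set x' := redMatrix p (γ : SL(2, ℤ)) • x with hx'
  have hmem0 : sigTw hpM x * g' * (sigTw hpM x')⁻¹ ∈ Gamma0 M :=
    (Gamma0 M).mul_mem ((Gamma0 M).mul_mem (sigTw_mem hpM x) hg'0)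
      ((Gamma0 M).inv_mem (sigTw_mem hpM x'))
  have hmem : sigTw hpM x * g' * (sigTw hpM x')⁻¹ ∈ Gamma1 M := by
    refine mem_Gamma1_of_lower _ (Gamma0_mem.mp hmem0) ?_
    rw [lower_right_mul _ _ ((Gamma0 M).mul_mem (sigTw_mem hpM x) hg'0),
      lower_right_mul _ _ (sigTw_mem hpM x), lower_right_inv]
    -- `s(x) g' s(x')⁻¹ = 1`
    have h1 := sigTw_lower_mul_wt hpM x
    have h2 := sigTw_lower_mul_wt hpM x'
    have h3 := lower_right_isUnit (sigTw hpM x') (sigTw_mem hpM x')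
    have hu := wt_isUnit hpM x
    have hu' := wt_isUnit hpM x'
    -- multiply by the unit `s(x') w(x) w(x')`
    have h4 : (((sigTw hpM x) 1 1 : ℤ) : ZMod M) * ((g' 1 1 : ℤ) : ZMod M) =
        (((sigTw hpM x') 1 1 : ℤ) : ZMod M) := by
      apply (hu.mul hu').mul_left_injective
      show _ * (wt M p x * wt M p x') = _ * (wt M p x * wt M p x')
      calc (((sigTw hpM x) 1 1 : ℤ) : ZMod M) * ((g' 1 1 : ℤ) : ZMod M) *
            (wt M p x * wt M p x')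
          = ((((sigTw hpM x) 1 1 : ℤ) : ZMod M) * wt M p x) *
              (((g' 1 1 : ℤ) : ZMod M) * wt M p x') := by ring
        _ = (p : ZMod M) * wt M p x := by rw [h1, hw]
        _ = ((((sigTw hpM x') 1 1 : ℤ) : ZMod M) * wt M p x') * wt M p x := by rw [h2]
        _ = _ := by ring
    rw [h4, mul_comm]
    exact h3
  refine ⟨⟨_, hmem⟩, ?_⟩
  show mapGL ℝ (sigTw hpM x) * heckeRep p x * mapGL ℝ (γ : SL(2, ℤ)) =
    mapGL ℝ (sigTw hpM x * g' * (sigTw hpM x')⁻¹) * (mapGL ℝ (sigTw hpM x') * heckeRep p x')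
  rw [mul_assoc, hmul, map_mul, map_mul, map_inv]
  group

/-- The transfer element: `heckeRep1 x * γ = trf1 γ x * heckeRep1 (γ • x)`. -/
def trf1 (hpM : ¬ p ∣ M) (γ : Gamma1 M) (x : OnePoint (ZMod p)) : Gamma1 M :=
  (exists_trf1 hpM γ x).choose

theorem trf1_spec (hpM : ¬ p ∣ M) (γ : Gamma1 M) (x : OnePoint (ZMod p)) :
    heckeRep1 hpM x * mapGL ℝ (γ : SL(2, ℤ))
      = mapGL ℝ ((trf1 hpM γ x : Gamma1 M) : SL(2, ℤ))
        * heckeRep1 hpM (redMatrix p (γ : SL(2, ℤ)) • x) :=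
  (exists_trf1 hpM γ x).choose_spec

theorem trf1_unique (hpM : ¬ p ∣ M) (γ t : Gamma1 M) (x : OnePoint (ZMod p))
    (h : heckeRep1 hpM x * mapGL ℝ (γ : SL(2, ℤ))
      = mapGL ℝ (t : SL(2, ℤ)) * heckeRep1 hpM (redMatrix p (γ : SL(2, ℤ)) • x)) :
    t = trf1 hpM γ x := by
  have h2 := trf1_spec hpM γ x
  rw [h] at h2
  have h3 := mul_right_cancel h2
  exact Subtype.ext (mapGL_injective h3)

theorem redMatrix_mul548 (g g' : SL(2, ℤ)) :
    redMatrix p (g * g') = redMatrix p g' * redMatrix p g := by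
  apply Matrix.GeneralLinearGroup.ext
  intro i j
  rw [Matrix.GeneralLinearGroup.coe_mul]
  fin_cases i <;> fin_cases j <;>
    simp [redMatrix, Matrix.mul_apply, Fin.sum_univ_two] <;> ring

theorem redMatrix_one548 : redMatrix p (1 : SL(2, ℤ)) = 1 := by
  apply Matrix.GeneralLinearGroup.ext
  intro i j
  fin_cases i <;> fin_cases j <;> simp [redMatrix]

theorem trf1_one (hpM : ¬ p ∣ M) (x : OnePoint (ZMod p)) : trf1 hpM (1 : Gamma1 M) x = 1 := by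
  symm
  apply trf1_unique
  simp [redMatrix_one548]

theorem trf1_mul (hpM : ¬ p ∣ M) (γ γ' : Gamma1 M) (x : OnePoint (ZMod p)) :
    trf1 hpM (γ * γ') x
      = trf1 hpM γ x * trf1 hpM γ' (redMatrix p (γ : SL(2, ℤ)) • x) := by
  symm
  apply trf1_unique
  have h1 := trf1_spec hpM γ x
  have h2 := trf1_spec hpM γ' (redMatrix p (γ : SL(2, ℤ)) • x)
  calc heckeRep1 hpM x * mapGL ℝ ((γ * γ' : Gamma1 M) : SL(2, ℤ))
      = (heckeRep1 hpM x * mapGL ℝ (γ : SL(2, ℤ))) * mapGL ℝ (γ' : SL(2, ℤ)) := by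
        rw [Subgroup.coe_mul, map_mul, mul_assoc]
    _ = mapGL ℝ ((trf1 hpM γ x : Gamma1 M) : SL(2, ℤ)) *
          (heckeRep1 hpM (redMatrix p (γ : SL(2, ℤ)) • x) * mapGL ℝ (γ' : SL(2, ℤ))) := by
        rw [h1, mul_assoc]
    _ = mapGL ℝ ((trf1 hpM γ x : Gamma1 M) : SL(2, ℤ)) *
          (mapGL ℝ ((trf1 hpM γ' (redMatrix p (γ : SL(2, ℤ)) • x) : Gamma1 M) : SL(2, ℤ)) *
            heckeRep1 hpM (redMatrix p (γ' : SL(2, ℤ)) • redMatrix p (γ : SL(2, ℤ)) • x)) := by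
        rw [h2]
    _ = _ := by
        rw [Subgroup.coe_mul, map_mul, Subgroup.coe_mul, redMatrix_mul548, mul_smul, mul_assoc]

/-- The permutation of `ℙ¹(𝔽_p)` induced by `γ`. -/
def permOf1 (γ : Gamma1 M) : Equiv.Perm (OnePoint (ZMod p)) :=
  MulAction.toPerm (redMatrix p (γ : SL(2, ℤ)))

theorem permOf1_apply (γ : Gamma1 M) (x : OnePoint (ZMod p)) :
    permOf1 γ x = redMatrix p (γ : SL(2, ℤ)) • x := rfl

/-- The Hecke operator `T_p` on `Hom(Γ₁(M), A)` defined by the transfer formula. -/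
def heckeHom1 (p : ℕ) [Fact p.Prime] (hpM : ¬ p ∣ M) (A : Type*) [AddCommGroup A] :
    (Additive (Gamma1 M) →+ A) →+ (Additive (Gamma1 M) →+ A) where
  toFun φ :=
    { toFun := fun γ ↦ ∑ x : OnePoint (ZMod p), φ (Additive.ofMul (trf1 hpM (Additive.toMul γ) x))
      map_zero' := by
        show ∑ x : OnePoint (ZMod p), φ (Additive.ofMul (trf1 hpM (1 : Gamma1 M) x)) = 0
        simp [trf1_one]
      map_add' := fun γ γ' ↦ by
        show ∑ x : OnePoint (ZMod p),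
            φ (Additive.ofMul (trf1 hpM (Additive.toMul γ * Additive.toMul γ') x)) = _
        simp only [trf1_mul, ofMul_mul, map_add, Finset.sum_add_distrib]
        congr 1
        exact Equiv.sum_comp (permOf1 (Additive.toMul γ))
          (fun y ↦ φ (Additive.ofMul (trf1 hpM (Additive.toMul γ') y))) }
  map_zero' := by
    ext γ
    simp
  map_add' φ ψ := by
    ext γ
    simp [Finset.sum_add_distrib]

theorem heckeHom1_apply (hpM : ¬ p ∣ M) {A : Type*} [AddCommGroup A]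
    (φ : Additive (Gamma1 M) →+ A) (γ : Gamma1 M) :
    heckeHom1 p hpM A φ (Additive.ofMul γ)
      = ∑ x : OnePoint (ZMod p), φ (Additive.ofMul (trf1 hpM γ x)) := rfl

/-- Functoriality of `heckeHom1` in the coefficient group. -/
theorem heckeHom1_comp (hpM : ¬ p ∣ M) {A B : Type*} [AddCommGroup A] [AddCommGroup B]
    (u : A →+ B) (φ : Additive (Gamma1 M) →+ A) :
    heckeHom1 p hpM B (u.comp φ) = u.comp (heckeHom1 p hpM A φ) := by
  ext γ
  show ∑ x : OnePoint (ZMod p), u (φ _) = u (∑ x : OnePoint (ZMod p), φ _)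
  rw [map_sum]

/-! ### The diamond operators on `Hom(Γ₁(M), A)` -/

theorem conj_mem_Gamma1 (a : SL(2, ℤ)) (ha : a ∈ Gamma0 M) (γ : Gamma1 M) :
    a * (γ : SL(2, ℤ)) * a⁻¹ ∈ Gamma1 M := by
  have hγ0 : (γ : SL(2, ℤ)) ∈ Gamma0 M := Gamma1_le_Gamma0' M γ.2
  refine mem_Gamma1_of_lower _ (Gamma0_mem.mp ((Gamma0 M).mul_mem ((Gamma0 M).mul_mem ha hγ0)
    ((Gamma0 M).inv_mem ha))) ?_
  rw [lower_right_mul _ _ ((Gamma0 M).mul_mem ha hγ0), lower_right_mul _ _ ha, lower_right_inv,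
    ((Gamma1_mem M (γ : SL(2, ℤ))).mp γ.2).2.1, mul_one, mul_comm]
  exact lower_right_isUnit a ha

/-- Conjugation by `a ∈ Γ₀(M)` on `Γ₁(M)`. -/
def conj1 (a : SL(2, ℤ)) (ha : a ∈ Gamma0 M) : Gamma1 M →* Gamma1 M where
  toFun γ := ⟨a * (γ : SL(2, ℤ)) * a⁻¹, conj_mem_Gamma1 a ha γ⟩
  map_one' := by
    apply Subtype.ext
    simp
  map_mul' γ γ' := by
    apply Subtype.ext
    simp only [Subgroup.coe_mul]
    group

@[simp] theorem coe_conj1 (a : SL(2, ℤ)) (ha : a ∈ Gamma0 M) (γ : Gamma1 M) :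
    ((conj1 a ha γ : Gamma1 M) : SL(2, ℤ)) = a * (γ : SL(2, ℤ)) * a⁻¹ := rfl

/-- The diamond operator on `Hom(Γ₁(M), A)`: `(⟨a⟩ φ)(γ) = φ(a γ a⁻¹)`. -/
def diaHom1 (a : SL(2, ℤ)) (ha : a ∈ Gamma0 M) (A : Type*) [AddCommGroup A] :
    (Additive (Gamma1 M) →+ A) →+ (Additive (Gamma1 M) →+ A) where
  toFun φ := φ.comp (MonoidHom.toAdditive (conj1 a ha))
  map_zero' := rfl
  map_add' _ _ := rfl

theorem diaHom1_apply (a : SL(2, ℤ)) (ha : a ∈ Gamma0 M) {A : Type*} [AddCommGroup A]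
    (φ : Additive (Gamma1 M) →+ A) (γ : Gamma1 M) :
    diaHom1 a ha A φ (Additive.ofMul γ) = φ (Additive.ofMul (conj1 a ha γ)) := rfl

end Fermat.Agent.S48.H548
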