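import Fermat.Agent.S48.H548.Per1Inj
import Fermat.Agent.S48.H548.Per1Transfer
import Fermat.Agent.S29.H201.PeriodHecke

/-!
# S48 / RES, node M4a1 input PER1 (helper548): Hecke equivariance of the period map on `Γ₁(M)`

* `per1_TpL` : `per1 (T_p f) = heckeHom1 p (per1 f)` for primes `p ∤ M`;
* `per1_diaL` : `per1 (⟨a⟩ f) = diaHom1 a (per1 f)` for `a ∈ Γ₀(M)`.
-/

set_option autoImplicit false
set_option linter.unusedSectionVars false
set_option linter.deprecated false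

noncomputable section

namespace Fermat.Agent.S48.H548

open CongruenceSubgroup ModularCurve ModularCurve.Period Filter Topology Function Complex
open UpperHalfPlane hiding I
open Matrix.SpecialLinearGroup ModularForm
open scoped Manifold MatrixGroups ModularForm OnePoint

variable {M : ℕ} [NeZero M] {p : ℕ} [Fact p.Prime]

/-- The Hecke transform of a primitive. -/
def heckePrim1 (hpM : ¬ p ∣ M) (F : ℍ → ℂ) : ℍ → ℂ :=
  fun τ ↦ ∑ x : OnePoint (ZMod p), F (heckeRep1 hpM x • τ)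

theorem det_heckeRep_pos548 (x : OnePoint (ZMod p)) :
    0 < ((heckeRep p x : GL (Fin 2) ℝ) : Matrix (Fin 2) (Fin 2) ℝ).det := by
  induction x using OnePoint.rec with
  | infty =>
    have := ModularForm.det_heckeDiagMatrix_pos p
    rwa [Matrix.GeneralLinearGroup.val_det_apply] at this
  | coe j =>
    have := ModularForm.det_heckeMatrix_pos p j.val
    rwa [Matrix.GeneralLinearGroup.val_det_apply] at this

theorem det_heckeRep1_pos (hpM : ¬ p ∣ M) (x : OnePoint (ZMod p)) :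
    0 < ((heckeRep1 hpM x : GL (Fin 2) ℝ) : Matrix (Fin 2) (Fin 2) ℝ).det := by
  unfold heckeRep1
  rw [Matrix.GeneralLinearGroup.coe_mul, Matrix.det_mul]
  have h1 : ((mapGL ℝ (sigTw hpM x) : GL (Fin 2) ℝ) : Matrix (Fin 2) (Fin 2) ℝ).det = 1 :=
    Fermat.Agent.S21.H381.det_coe_SL _
  rw [h1, one_mul]
  exact det_heckeRep_pos548 x

/-- `T_p f = ∑ₓ f ∣ heckeRep1 x`. -/
theorem coe_TpL_eq_sum (hpM : ¬ p ∣ M) (f : CuspForm (Gamma1 M) 2) :
    (⇑(TpL p hpM f) : ℍ → ℂ) =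
      ∑ x : OnePoint (ZMod p), (⇑f : ℍ → ℂ) ∣[(2 : ℤ)] heckeRep1 hpM x := by
  rw [coe_TpL hpM f _ (sigmaP_mem hpM) (sigmaP_lower hpM), heckeT1_eq_sum]
  refine Finset.sum_congr rfl fun x _ ↦ ?_
  unfold heckeRep1
  rw [SlashAction.slash_mul]
  congr 1
  induction x using OnePoint.rec with
  | infty => rfl
  | coe j =>
    simp only [OnePoint.elim_some, sigTw_coe, map_one, SlashAction.slash_one]

theorem isPrim_heckePrim1 (hpM : ¬ p ∣ M) (f : CuspForm (Gamma1 M) 2) {F : ℍ → ℂ}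
    (hF : IsPrim (⇑f) F) : IsPrim (⇑(TpL p hpM f)) (heckePrim1 hpM F) := by
  intro τ
  have hsum : (heckePrim1 hpM F ∘ ofComplex)
      = fun z ↦ ∑ x : OnePoint (ZMod p),
          ((fun w : ℍ ↦ F (heckeRep1 hpM x • w)) ∘ ofComplex) z := by
    funext z
    rfl
  rw [hsum, coe_TpL_eq_sum, Finset.sum_apply]
  exact HasDerivAt.fun_sum fun x _ ↦
    Fermat.Agent.S29.H201.hasDerivAt_comp_smul_GL hF (heckeRep1 hpM x) (det_heckeRep1_pos hpM x) τ

theorem SL_smul_eq_mapGL_smul548 (γ : SL(2, ℤ)) (τ : ℍ) : γ • τ = (mapGL ℝ γ) • τ := rfl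

theorem heckePrim1_smul_sub (hpM : ¬ p ∣ M) (f : CuspForm (Gamma1 M) 2) {F : ℍ → ℂ}
    (hF : IsPrim (⇑f) F) (γ : Gamma1 M) (τ : ℍ) :
    heckePrim1 hpM F ((γ : SL(2, ℤ)) • τ) - heckePrim1 hpM F τ
      = ∑ x : OnePoint (ZMod p), per1 f (Additive.ofMul (trf1 hpM γ x)) := by
  have key : ∀ x : OnePoint (ZMod p), F (heckeRep1 hpM x • ((γ : SL(2, ℤ)) • τ))
      = F (heckeRep1 hpM (permOf1 γ x) • τ) + per1 f (Additive.ofMul (trf1 hpM γ x)) := by
    intro x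
    have h1 : heckeRep1 hpM x • ((γ : SL(2, ℤ)) • τ)
        = ((trf1 hpM γ x : Gamma1 M) : SL(2, ℤ)) • (heckeRep1 hpM (permOf1 γ x) • τ) := by
      rw [SL_smul_eq_mapGL_smul548, SL_smul_eq_mapGL_smul548, ← mul_smul, ← mul_smul,
        trf1_spec hpM γ x]
      rfl
    rw [h1, per1_apply f hF (trf1 hpM γ x) (heckeRep1 hpM (permOf1 γ x) • τ)]
    ring
  unfold heckePrim1
  simp only [key, Finset.sum_add_distrib]
  rw [Equiv.sum_comp (permOf1 γ) (fun y ↦ F (heckeRep1 hpM y • τ))]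
  ring

/-- **Hecke equivariance of the period map.** -/
theorem per1_TpL (hpM : ¬ p ∣ M) (f : CuspForm (Gamma1 M) 2) :
    per1 (TpL p hpM f) = heckeHom1 p hpM ℂ (per1 f) := by
  obtain ⟨F, hF⟩ := exists_isPrim f
  refine AddMonoidHom.ext fun γ ↦ ?_
  obtain ⟨γ, rfl⟩ : ∃ γ' : Gamma1 M, Additive.ofMul γ' = γ := ⟨Additive.toMul γ, rfl⟩
  rw [per1_apply (TpL p hpM f) (isPrim_heckePrim1 hpM f hF) γ UpperHalfPlane.I,
    heckePrim1_smul_sub hpM f hF γ UpperHalfPlane.I, heckeHom1_apply]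

/-- **Diamond equivariance of the period map.** -/
theorem per1_diaL (a : SL(2, ℤ)) (ha : a ∈ Gamma0 M) (f : CuspForm (Gamma1 M) 2) :
    per1 (diaL a ha f) = diaHom1 a ha ℂ (per1 f) := by
  obtain ⟨F, hF⟩ := exists_isPrim f
  refine AddMonoidHom.ext fun γ ↦ ?_
  obtain ⟨γ, rfl⟩ : ∃ γ' : Gamma1 M, Additive.ofMul γ' = γ := ⟨Additive.toMul γ, rfl⟩
  have hFa : IsPrim (⇑(diaL a ha f)) (fun w : ℍ ↦ F (a • w)) := by
    rw [coe_diaL, ← SL_slash_eq]
    exact hF.comp_smul a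
  rw [per1_apply (diaL a ha f) hFa γ UpperHalfPlane.I, diaHom1_apply,
    per1_apply f hF (conj1 a ha γ) (a • UpperHalfPlane.I)]
  have h1 : ((conj1 a ha γ : Gamma1 M) : SL(2, ℤ)) • (a • UpperHalfPlane.I) =
      a • ((γ : SL(2, ℤ)) • UpperHalfPlane.I) := by
    rw [coe_conj1, ← mul_smul, ← mul_smul]
    congr 1
    group
  rw [h1]

end Fermat.Agent.S48.H548
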