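import Fermat.Agent.S48.H548.Chi0Ops

/-!
# S48 / RES piece CHI0 (helper548): nebentypus, products of forms of levels `N` and `L`

* `HasNeb χ f k` : `f ∣[k] γ = χ(γ₁₁) • f` for `γ ∈ Γ₀(N)`;
* `mulCusp h E : CuspForm (Gamma1 (N * L)) (k₁ + k₂)` for `h : CuspForm (Gamma1 N) k₁`,
  `E : ModularForm (Gamma1 L) k₂`, with its `q`-expansion (Cauchy product) and nebentypus.
-/

set_option autoImplicit false
set_option linter.unusedSectionVars false
set_option linter.deprecated false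

noncomputable section

namespace Fermat.Agent.S48.H548

open Matrix.SpecialLinearGroup UpperHalfPlane ModularForm CongruenceSubgroup ModularFormClass
open scoped MatrixGroups ModularForm OnePoint Manifold

/-! ### Nebentypus -/

/-- `f` has nebentypus `χ` (a function on `ZMod N`) in weight `k`. -/
def HasNeb {N : ℕ} (χ : ZMod N → ℂ) (f : ℍ → ℂ) (k : ℤ) : Prop :=
  ∀ γ ∈ Gamma0 N, f ∣[k] mapGL ℝ γ = χ ((γ 1 1 : ℤ) : ZMod N) • f

section Neb

variable {N : ℕ} {k : ℤ} {χ : ZMod N → ℂ} {f g : ℍ → ℂ}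

theorem HasNeb.zero : HasNeb χ (0 : ℍ → ℂ) k := fun γ _ ↦ by
  rw [SlashAction.zero_slash, smul_zero]

theorem HasNeb.add (hf : HasNeb χ f k) (hg : HasNeb χ g k) : HasNeb χ (f + g) k := fun γ hγ ↦ by
  rw [SlashAction.add_slash, hf γ hγ, hg γ hγ, smul_add]

theorem HasNeb.neg (hf : HasNeb χ f k) : HasNeb χ (-f) k := fun γ hγ ↦ by
  rw [SlashAction.neg_slash, hf γ hγ, smul_neg]

theorem HasNeb.smul (c : ℂ) (hf : HasNeb χ f k) : HasNeb χ (c • f) k := fun γ hγ ↦ by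
  rw [smul_slash_mapGL, hf γ hγ, smul_comm]

/-- A function with nebentypus `χ`, `χ 1 = 1`, is `Γ₁(N)`-invariant. -/
theorem HasNeb.inv1 (hχ : χ 1 = 1) (hf : HasNeb χ f k) : Inv1 N k f := fun γ hγ ↦ by
  rw [hf γ (Gamma1_le_Gamma0' N hγ), ((Gamma1_mem N γ).mp hγ).2.1, hχ, one_smul]

end Neb

/-! ### Change of level -/

section Level

variable (N L : ℕ)

theorem intCast_eq_of_mul_left {a b : ℤ} (h : ((a : ℤ) : ZMod (N * L)) = ((b : ℤ) : ZMod (N * L))) :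
    ((a : ℤ) : ZMod N) = ((b : ℤ) : ZMod N) := by
  have := congrArg (ZMod.castHom (dvd_mul_right N L) (ZMod N)) h
  simpa using this

theorem intCast_eq_of_mul_right {a b : ℤ}
    (h : ((a : ℤ) : ZMod (N * L)) = ((b : ℤ) : ZMod (N * L))) :
    ((a : ℤ) : ZMod L) = ((b : ℤ) : ZMod L) := by
  have := congrArg (ZMod.castHom (dvd_mul_left L N) (ZMod L)) h
  simpa using this

theorem Gamma1_mul_le_left : Gamma1 (N * L) ≤ Gamma1 N := fun g hg ↦ by
  rw [Gamma1_mem] at hg ⊢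
  exact ⟨by simpa using intCast_eq_of_mul_left N L (a := g 0 0) (b := 1) (by simpa using hg.1),
    by simpa using intCast_eq_of_mul_left N L (a := g 1 1) (b := 1) (by simpa using hg.2.1),
    by simpa using intCast_eq_of_mul_left N L (a := g 1 0) (b := 0) (by simpa using hg.2.2)⟩

theorem Gamma1_mul_le_right : Gamma1 (N * L) ≤ Gamma1 L := fun g hg ↦ by
  rw [Gamma1_mem] at hg ⊢
  exact ⟨by simpa using intCast_eq_of_mul_right N L (a := g 0 0) (b := 1) (by simpa using hg.1),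
    by simpa using intCast_eq_of_mul_right N L (a := g 1 1) (b := 1) (by simpa using hg.2.1),
    by simpa using intCast_eq_of_mul_right N L (a := g 1 0) (b := 0) (by simpa using hg.2.2)⟩

theorem Gamma0_mul_le_left : Gamma0 (N * L) ≤ Gamma0 N := fun g hg ↦ by
  rw [Gamma0_mem] at hg ⊢
  simpa using intCast_eq_of_mul_left N L (a := g 1 0) (b := 0) (by simpa using hg)

theorem Gamma0_mul_le_right : Gamma0 (N * L) ≤ Gamma0 L := fun g hg ↦ by
  rw [Gamma0_mem] at hg ⊢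
  simpa using intCast_eq_of_mul_right N L (a := g 1 0) (b := 0) (by simpa using hg)

end Level

/-! ### Products -/

section Prod

variable {N L : ℕ} {k₁ k₂ : ℤ}

theorem mul_slash_mapGL (k₁ k₂ : ℤ) (γ : SL(2, ℤ)) (f g : ℍ → ℂ) :
    (f * g) ∣[k₁ + k₂] mapGL ℝ γ = (f ∣[k₁] mapGL ℝ γ) * (g ∣[k₂] mapGL ℝ γ) := by
  have := ModularForm.mul_slash_SL2 k₁ k₂ γ f g
  rwa [ModularForm.SL_slash, ModularForm.SL_slash, ModularForm.SL_slash] at this

/-- The product of nebentypus characters of levels `N` and `L`, as a function on `ZMod (N * L)`. -/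
def mulChar (χ₁ : ZMod N → ℂ) (χ₂ : ZMod L → ℂ) : ZMod (N * L) → ℂ := fun x ↦
  χ₁ (ZMod.castHom (dvd_mul_right N L) (ZMod N) x) *
    χ₂ (ZMod.castHom (dvd_mul_left L N) (ZMod L) x)

theorem mulChar_intCast (χ₁ : ZMod N → ℂ) (χ₂ : ZMod L → ℂ) (a : ℤ) :
    mulChar χ₁ χ₂ (a : ZMod (N * L)) = χ₁ (a : ZMod N) * χ₂ (a : ZMod L) := by
  simp [mulChar]

theorem mulChar_natCast (χ₁ : ZMod N → ℂ) (χ₂ : ZMod L → ℂ) (a : ℕ) :
    mulChar χ₁ χ₂ (a : ZMod (N * L)) = χ₁ (a : ZMod N) * χ₂ (a : ZMod L) := by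
  simp [mulChar]

theorem HasNeb.mul {χ₁ : ZMod N → ℂ} {χ₂ : ZMod L → ℂ} {f g : ℍ → ℂ}
    (hf : HasNeb χ₁ f k₁) (hg : HasNeb χ₂ g k₂) :
    HasNeb (mulChar χ₁ χ₂) (f * g) (k₁ + k₂) := fun γ hγ ↦ by
  rw [mul_slash_mapGL, hf γ (Gamma0_mul_le_left N L hγ), hg γ (Gamma0_mul_le_right N L hγ),
    mulChar_intCast, smul_mul_smul_comm]

theorem Inv1.mul {f g : ℍ → ℂ} (hf : Inv1 N k₁ f) (hg : Inv1 L k₂ g) :
    Inv1 (N * L) (k₁ + k₂) (f * g) := fun γ hγ ↦ by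
  rw [mul_slash_mapGL, hf γ (Gamma1_mul_le_left N L hγ), hg γ (Gamma1_mul_le_right N L hγ)]

variable [NeZero N] [NeZero L]

theorem coe_inv1' (E : ModularForm (Gamma1 L) k₂) : Inv1 L k₂ ⇑E := fun γ hγ ↦
  SlashInvariantFormClass.slash_action_eq E _ (Subgroup.mem_map_of_mem (mapGL ℝ) hγ)

theorem coe_nice' (E : ModularForm (Gamma1 L) k₂) : Nice (⇑E : ℍ → ℂ) where
  per := SlashInvariantFormClass.periodic_comp_ofComplex E (one_mem_strictPeriods_Gamma1 L)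
  hol := ModularFormClass.holo E
  bdd := ModularFormClass.bdd_at_infty E

instance neZero_mul548 : NeZero (N * L) := ⟨Nat.mul_ne_zero (NeZero.ne N) (NeZero.ne L)⟩

theorem isCusp_of_isCusp_mul {c : OnePoint ℝ} (M M' : ℕ) [NeZero M] [NeZero M']
    (hc : IsCusp c ((Gamma1 M).map (mapGL ℝ))) : IsCusp c ((Gamma1 M').map (mapGL ℝ)) := by
  rw [Subgroup.IsArithmetic.isCusp_iff_isCusp_SL2Z] at hc ⊢
  exact hc

/-- The product of a cusp form of level `Γ₁(N)` and a modular form of level `Γ₁(L)`, as a cusp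
form of level `Γ₁(N L)`. -/
def mulCusp (h : CuspForm (Gamma1 N) k₁) (E : ModularForm (Gamma1 L) k₂) :
    CuspForm (Gamma1 (N * L)) (k₁ + k₂) :=
  mkCusp (⇑h * ⇑E) ((coe_inv1 h).mul (coe_inv1' E))
    ((ModularFormClass.holo h).mul (ModularFormClass.holo E))
    (fun {c} hc ↦ by
      have hc1 : IsCusp c ((Gamma1 N).map (mapGL ℝ)) := isCusp_of_isCusp_mul (N * L) N hc
      have hc2 : IsCusp c ((Gamma1 L).map (mapGL ℝ)) := isCusp_of_isCusp_mul (N * L) L hc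
      have hz : c.IsZeroAt (⇑h) k₁ := CuspFormClass.zero_at_cusps h hc1
      have hb : c.IsBoundedAt (⇑E) k₂ := ModularFormClass.bdd_at_cusps E hc2
      have hcSL : IsCusp c 𝒮ℒ := by
        rwa [Subgroup.IsArithmetic.isCusp_iff_isCusp_SL2Z] at hc
      obtain ⟨γ, hγ⟩ := isCusp_SL2Z_iff'.mp hcSL
      rw [OnePoint.isZeroAt_iff hγ.symm, mul_slash_mapGL]
      exact (hz _ hγ.symm).mul_boundedAtFilter (hb _ hγ.symm))

@[simp] theorem coe_mulCusp (h : CuspForm (Gamma1 N) k₁) (E : ModularForm (Gamma1 L) k₂) :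
    (⇑(mulCusp h E) : ℍ → ℂ) = ⇑h * ⇑E := rfl

theorem qCoeff_mulCusp (h : CuspForm (Gamma1 N) k₁) (E : ModularForm (Gamma1 L) k₂) (n : ℕ) :
    qCoeff (⇑(mulCusp h E) : ℍ → ℂ) n =
      ∑ x ∈ Finset.HasAntidiagonal.antidiagonal n,
        qCoeff (⇑h : ℍ → ℂ) x.1 * qCoeff (⇑E : ℍ → ℂ) x.2 := by
  unfold qCoeff
  rw [coe_mulCusp, qExpansion_mul (coe_nice h).analyticAt (coe_nice' E).analyticAt,
    PowerSeries.coeff_mul]

theorem hasNeb_mulCusp {χ₁ : ZMod N → ℂ} {χ₂ : ZMod L → ℂ} (h : CuspForm (Gamma1 N) k₁)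
    (E : ModularForm (Gamma1 L) k₂) (hh : HasNeb χ₁ ⇑h k₁) (hE : HasNeb χ₂ ⇑E k₂) :
    HasNeb (mulChar χ₁ χ₂) (⇑(mulCusp h E)) (k₁ + k₂) :=
  hh.mul hE

end Prod

end Fermat.Agent.S48.H548
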