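import Fermat.Agent.S48.H548.Chi0Alg
import Fermat.Agent.S48.H548.Chi0Prod

/-!
# S48 / RES piece CHI0 (helper548): the character of the Hecke algebra attached to a
mod-`λ` eigenvector

`exists_chi0` : let `g₀ ∈ S_2(Γ₁(M))` have nebentypus `χ₀` and `R`-integral `q`-expansion `c`
(`ι : R → ℂ` injective, `φ : R → k` a ring homomorphism to a field), with `φ ∘ c ≠ 0` a
simultaneous eigenvector of the formal Hecke operators:
`φ c(np) + φ(χ₀(p)) p [p ∣ n] φ c(n/p) = φ(α_p) φ c(n)` for all primes `p ∤ M`.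
Then there is a ring homomorphism `χ₀ : heckeAlg1 M 2 → k` with `χ₀(T_p) = φ(α_p)` and
`χ₀(⟨a⟩) = φ(χ₀(a₁₁))`.  No characteristic-zero eigenform is needed.
-/

set_option autoImplicit false
set_option linter.unusedSectionVars false
set_option linter.deprecated false

noncomputable section

namespace Fermat.Agent.S48.H548

open Matrix.SpecialLinearGroup UpperHalfPlane ModularForm CongruenceSubgroup ModularFormClass
open scoped MatrixGroups ModularForm OnePoint Manifold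

variable {M : ℕ} [NeZero M] {wt : ℤ}

/-! ### `q`-coefficients of cusp forms -/

theorem qCoeff_add548 (f g : CuspForm (Gamma1 M) wt) (n : ℕ) :
    qCoeff (⇑(f + g) : ℍ → ℂ) n = qCoeff (⇑f : ℍ → ℂ) n + qCoeff (⇑g : ℍ → ℂ) n :=
  (coe_nice (f + g)).qCoeff_eq (c := fun n ↦ qCoeff (⇑f : ℍ → ℂ) n + qCoeff (⇑g : ℍ → ℂ) n)
    (by rw [CuspForm.coe_add]; exact (coe_nice f).hasQ.add (coe_nice g).hasQ) n

theorem qCoeff_smul548 (a : ℂ) (f : CuspForm (Gamma1 M) wt) (n : ℕ) :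
    qCoeff (⇑(a • f) : ℍ → ℂ) n = a * qCoeff (⇑f : ℍ → ℂ) n :=
  (coe_nice (a • f)).qCoeff_eq (c := fun n ↦ a * qCoeff (⇑f : ℍ → ℂ) n)
    (by rw [CuspForm.IsGLPos.coe_smul]; exact (coe_nice f).hasQ.smul a) n

theorem qCoeff_neg548 (f : CuspForm (Gamma1 M) wt) (n : ℕ) :
    qCoeff (⇑(-f) : ℍ → ℂ) n = -qCoeff (⇑f : ℍ → ℂ) n := by
  have h : -f = (-1 : ℂ) • f := (neg_one_smul ℂ f).symm
  rw [h, qCoeff_smul548, neg_mul, one_mul]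

theorem qCoeff_zero548 (n : ℕ) : qCoeff (⇑(0 : CuspForm (Gamma1 M) wt) : ℍ → ℂ) n = 0 := by
  have h : (0 : CuspForm (Gamma1 M) wt) = (0 : ℂ) • (0 : CuspForm (Gamma1 M) wt) := by
    rw [zero_smul]
  rw [h, qCoeff_smul548, zero_mul]

/-! ### The Hecke operators on forms with nebentypus -/

section Hecke

variable {p : ℕ} [Fact p.Prime] {χ₀ : ZMod M → ℂ}

theorem dia_eq_smul_of_hasNeb (g : CuspForm (Gamma1 M) wt) (hch : HasNeb χ₀ ⇑g wt)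
    (a : SL(2, ℤ)) (ha : a ∈ Gamma0 M) : diaL a ha g = χ₀ ((a 1 1 : ℤ) : ZMod M) • g := by
  apply DFunLike.coe_injective
  rw [coe_diaL, CuspForm.IsGLPos.coe_smul]
  exact hch a ha

/-- `T_p` preserves the nebentypus. -/
theorem hasNeb_TpL (hpM : ¬ p ∣ M) (g : CuspForm (Gamma1 M) wt) (hch : HasNeb χ₀ ⇑g wt) :
    HasNeb χ₀ (⇑(TpL p hpM g)) wt := fun a ha ↦ by
  rw [← coe_diaL a ha, diaL_TpL hpM a ha g, dia_eq_smul_of_hasNeb g hch a ha, map_smul,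
    CuspForm.IsGLPos.coe_smul]

theorem coe_TpL_of_hasNeb (hpM : ¬ p ∣ M) (g : CuspForm (Gamma1 M) wt) (hch : HasNeb χ₀ ⇑g wt) :
    (⇑(TpL p hpM g) : ℍ → ℂ) =
      heckeU wt p ⇑g + χ₀ (p : ZMod M) • ((⇑g : ℍ → ℂ) ∣[wt] heckeDiagMatrix p) := by
  rw [coe_TpL hpM g _ (sigmaP_mem hpM) (sigmaP_lower hpM), hch _ (sigmaP_mem hpM),
    sigmaP_lower hpM, smul_slash_diag']

/-- The `q`-expansion of `T_p g`, `g` with nebentypus `χ₀`. -/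
theorem qCoeff_TpL (hpM : ¬ p ∣ M) (g : CuspForm (Gamma1 M) wt) (hch : HasNeb χ₀ ⇑g wt) (n : ℕ) :
    qCoeff (⇑(TpL p hpM g) : ℍ → ℂ) n =
      qCoeff (⇑g : ℍ → ℂ) (n * p) + χ₀ (p : ZMod M) *
        (if p ∣ n then (p : ℂ) ^ (wt - 1) * qCoeff (⇑g : ℍ → ℂ) (n / p) else 0) := by
  have hp : p ≠ 0 := (Fact.out : p.Prime).ne_zero
  refine (coe_nice (TpL p hpM g)).qCoeff_eq
    (c := fun n ↦ qCoeff (⇑g : ℍ → ℂ) (n * p) + χ₀ (p : ZMod M) *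
        (if p ∣ n then (p : ℂ) ^ (wt - 1) * qCoeff (⇑g : ℍ → ℂ) (n / p) else 0)) ?_ n
  rw [coe_TpL_of_hasNeb hpM g hch]
  exact ((coe_nice g).hasQ_heckeU hp wt).add (((coe_nice g).hasQ_diag hp wt).smul _)

end Hecke

/-! ### Integral `q`-expansions and their reductions -/

section Red

variable {R : Type*} [CommRing R] {k : Type*} [Field k] (ι : R →+* ℂ) (φ : R →+* k)

/-- The family `W b` : forms with nebentypus `χ₀` and integral `q`-expansion reducing to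
`b • c₀`. -/
def famW (χ₀ : ZMod M → ℂ) (c₀ : ℕ → k) (b : k) : Set (CuspForm (Gamma1 M) 2) :=
  {g | HasNeb χ₀ (⇑g) 2 ∧ ∃ c : ℕ → R, (∀ n, qCoeff (⇑g : ℍ → ℂ) n = ι (c n)) ∧
    ∀ n, φ (c n) = b * c₀ n}

variable {ι φ} {χ₀ : ZMod M → ℂ} {c₀ : ℕ → k}

theorem famW_zero : (0 : CuspForm (Gamma1 M) 2) ∈ famW ι φ χ₀ c₀ 0 :=
  ⟨by rw [CuspForm.coe_zero]; exact HasNeb.zero,
    ⟨fun _ ↦ 0, fun n ↦ by rw [qCoeff_zero548, map_zero], fun n ↦ by rw [map_zero, zero_mul]⟩⟩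

theorem famW_add (b b' : k) (g g' : CuspForm (Gamma1 M) 2) (hg : g ∈ famW ι φ χ₀ c₀ b)
    (hg' : g' ∈ famW ι φ χ₀ c₀ b') : g + g' ∈ famW ι φ χ₀ c₀ (b + b') := by
  obtain ⟨h1, c, hc, hr⟩ := hg
  obtain ⟨h1', c', hc', hr'⟩ := hg'
  refine ⟨by rw [CuspForm.coe_add]; exact h1.add h1', fun n ↦ c n + c' n, fun n ↦ ?_, fun n ↦ ?_⟩
  · rw [qCoeff_add548, hc, hc', map_add]
  · rw [map_add, hr, hr', add_mul]

theorem famW_neg (b : k) (g : CuspForm (Gamma1 M) 2) (hg : g ∈ famW ι φ χ₀ c₀ b) :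
    -g ∈ famW ι φ χ₀ c₀ (-b) := by
  obtain ⟨h1, c, hc, hr⟩ := hg
  refine ⟨by rw [CuspForm.coe_neg]; exact h1.neg, fun n ↦ -c n, fun n ↦ ?_, fun n ↦ ?_⟩
  · rw [qCoeff_neg548, hc, map_neg]
  · rw [map_neg, hr, neg_mul]

theorem famW_sep (hι : Function.Injective ι) (hc₀ : ∃ n, c₀ n ≠ 0) (b b' : k)
    (g : CuspForm (Gamma1 M) 2) (hg : g ∈ famW ι φ χ₀ c₀ b) (hg' : g ∈ famW ι φ χ₀ c₀ b') :
    b = b' := by
  obtain ⟨n, hn⟩ := hc₀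
  obtain ⟨-, c, hc, hr⟩ := hg
  obtain ⟨-, c', hc', hr'⟩ := hg'
  have h1 : c n = c' n := hι ((hc n).symm.trans (hc' n))
  have h2 : b * c₀ n = b' * c₀ n := by rw [← hr, ← hr', h1]
  exact mul_right_cancel₀ hn h2

/-- The diamond operators act on `W` through `φ(χ₀(a₁₁))`. -/
theorem actsBy_diaL (chR : ZMod M → R) (hchR : ∀ x, ι (chR x) = χ₀ x) (a : SL(2, ℤ))
    (ha : a ∈ Gamma0 M) :
    ActsBy (famW ι φ χ₀ c₀) (diaL a ha) (φ (chR ((a 1 1 : ℤ) : ZMod M))) := by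
  rintro b g ⟨h1, c, hc, hr⟩
  have hd := dia_eq_smul_of_hasNeb g h1 a ha
  refine ⟨?_, fun n ↦ chR ((a 1 1 : ℤ) : ZMod M) * c n, fun n ↦ ?_, fun n ↦ ?_⟩
  · rw [hd, CuspForm.IsGLPos.coe_smul]
    exact h1.smul _
  · rw [hd, qCoeff_smul548, hc, map_mul, hchR]
  · rw [map_mul, hr, mul_assoc]

/-- `T_p` acts on `W` through `φ(α_p)` if `c₀` is a formal eigenvector. -/
theorem actsBy_TpL (chR : ZMod M → R) (hchR : ∀ x, ι (chR x) = χ₀ x) {p : ℕ} [Fact p.Prime]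
    (hpM : ¬ p ∣ M) (ap : k)
    (hrel : ∀ n, c₀ (n * p) + φ (chR (p : ZMod M)) * (p : k) *
      (if p ∣ n then c₀ (n / p) else 0) = ap * c₀ n) :
    ActsBy (famW ι φ χ₀ c₀) (TpL p hpM) ap := by
  rintro b g ⟨h1, c, hc, hr⟩
  refine ⟨hasNeb_TpL hpM g h1, fun n ↦ c (n * p) + chR (p : ZMod M) *
    (if p ∣ n then (p : R) * c (n / p) else 0), fun n ↦ ?_, fun n ↦ ?_⟩
  · rw [qCoeff_TpL hpM g h1, hc, map_add, map_mul, hchR]
    congr 2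
    split_ifs
    · rw [map_mul, hc, map_natCast]
      norm_num
    · rw [map_zero]
  · have h2 : ap * b * c₀ n = b * (ap * c₀ n) := by ring
    rw [map_add, map_mul, hr, h2, ← hrel n]
    split_ifs
    · rw [map_mul, hr, map_natCast]
      ring
    · rw [map_zero]
      ring

end Red

/-! ### The character -/

section Main

variable {R : Type*} [CommRing R] {k : Type*} [Field k] {ι : R →+* ℂ} {φ : R →+* k}

/-- **CHI0, abstract level `M`.** -/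
theorem exists_chi0 (hι : Function.Injective ι) (χ₀ : ZMod M → ℂ) (chR : ZMod M → R)
    (hchR : ∀ x, ι (chR x) = χ₀ x) (α : ℕ → k) (g₀ : CuspForm (Gamma1 M) 2)
    (hneb : HasNeb χ₀ (⇑g₀) 2) (c : ℕ → R) (hc : ∀ n, qCoeff (⇑g₀ : ℍ → ℂ) n = ι (c n))
    (hne : ∃ n, φ (c n) ≠ 0)
    (hrel : ∀ p : ℕ, p.Prime → ¬ p ∣ M → ∀ n : ℕ,
      φ (c (n * p)) + φ (chR (p : ZMod M)) * (p : k) * (if p ∣ n then φ (c (n / p)) else 0) =
        α p * φ (c n)) :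
    ∃ χ : heckeAlg1 M 2 →+* k,
      (∀ (p : ℕ) [Fact p.Prime] (hpM : ¬ p ∣ M), χ ⟨TpL p hpM, TpL_mem_heckeAlg1 hpM⟩ = α p) ∧
      (∀ (a : SL(2, ℤ)) (ha : a ∈ Gamma0 M),
        χ ⟨diaL a ha, diaL_mem_heckeAlg1 a ha⟩ = φ (chR ((a 1 1 : ℤ) : ZMod M))) ∧
      ∀ t : heckeAlg1 M 2, ActsBy (famW ι φ χ₀ (fun n ↦ φ (c n))) (t : Module.End ℂ _) (χ t) := by
  set c₀ : ℕ → k := fun n ↦ φ (c n) with hc₀
  have hg₀ : g₀ ∈ famW ι φ χ₀ c₀ 1 := ⟨hneb, c, hc, fun n ↦ by rw [one_mul]⟩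
  have hsep := famW_sep (M := M) (χ₀ := χ₀) (φ := φ) hι (c₀ := c₀) hne
  have hG : ∀ t ∈ heckeGens M 2, ∃ b : k, ActsBy (famW ι φ χ₀ c₀) t b := by
    rintro t (⟨p, hp, hpM, rfl⟩ | ⟨a, ha, rfl⟩)
    · exact ⟨α p, actsBy_TpL chR hchR hpM (α p) (hrel p hp.out hpM)⟩
    · exact ⟨_, actsBy_diaL chR hchR a ha⟩
  obtain ⟨χ, hχ⟩ := exists_ringHom_actsBy (W := famW ι φ χ₀ c₀) famW_zero famW_add famW_neg
    hsep hg₀ hG
  refine ⟨χ, fun p _ hpM ↦ ?_, fun a ha ↦ ?_, hχ⟩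
  · exact (hχ ⟨TpL p hpM, TpL_mem_heckeAlg1 hpM⟩).unique hsep hg₀
      (actsBy_TpL chR hchR hpM (α p) (hrel p Fact.out hpM))
  · exact (hχ ⟨diaL a ha, diaL_mem_heckeAlg1 a ha⟩).unique hsep hg₀ (actsBy_diaL chR hchR a ha)

end Main

end Fermat.Agent.S48.H548
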