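import Fermat.Agent.S48.H548.Forms

/-!
# S48 / RES piece CHI0 (helper548): the Hecke algebra of `S_k(Γ₁(M))`

* `Inv1.heckeT1_slash` : `T_p` commutes with the slash action of `Γ₀(M)` (diamond operators);
* `diaL`, `TpL` : the diamond and Hecke operators as `ℂ`-linear endomorphisms of
  `CuspForm (Gamma1 M) k`;
* `heckeGens M k`, `heckeAlg1 M k` : generators and the `ℤ`-algebra they generate.
-/

set_option autoImplicit false
set_option linter.unusedSectionVars false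
set_option linter.deprecated false

noncomputable section

namespace Fermat.Agent.S48.H548

open Matrix.SpecialLinearGroup UpperHalfPlane ModularForm CongruenceSubgroup ModularFormClass
open scoped MatrixGroups ModularForm OnePoint Manifold

variable {N : ℕ} {k : ℤ}

section Comm

variable {p : ℕ} [Fact p.Prime] {f : ℍ → ℂ}

/-- `T_p` commutes with the action of `Γ₀(N)`. -/
theorem Inv1.heckeT1_slash (hpN : ¬ p ∣ N) (hf : Inv1 N k f) (σ : SL(2, ℤ)) (hσ : σ ∈ Gamma0 N)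
    (hσp : ((σ 1 1 : ℤ) : ZMod N) = (p : ZMod N)) (g : SL(2, ℤ)) (hg : g ∈ Gamma0 N) :
    (heckeU k p f + (f ∣[k] mapGL ℝ σ) ∣[k] heckeDiagMatrix p) ∣[k] mapGL ℝ g =
      heckeU k p (f ∣[k] mapGL ℝ g) +
        ((f ∣[k] mapGL ℝ g) ∣[k] mapGL ℝ σ) ∣[k] heckeDiagMatrix p := by
  have hpu : IsUnit ((p : ℕ) : ZMod N) :=
    (ZMod.isUnit_iff_coprime p N).mpr ((Nat.Prime.coprime_iff_not_dvd Fact.out).mpr hpN)
  have hg10 : ((g 1 0 : ℤ) : ZMod N) = 0 := Gamma0_mem.mp hg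
  have hgN : (N : ℤ) ∣ g 1 0 := (ZMod.intCast_zmod_eq_zero_iff_dvd _ _).mp hg10
  rw [heckeT1_eq_sum, heckeT1_eq_sum, SlashAction.sum_slash]
  calc ∑ x : OnePoint (ZMod p),
        ((x.elim (f ∣[k] mapGL ℝ σ) (fun _ ↦ f)) ∣[k] heckeRep p x) ∣[k] mapGL ℝ g
      = ∑ x : OnePoint (ZMod p),
          ((redMatrix p g • x).elim ((f ∣[k] mapGL ℝ g) ∣[k] mapGL ℝ σ)
            (fun _ ↦ f ∣[k] mapGL ℝ g)) ∣[k] heckeRep p (redMatrix p g • x) := by
        refine Finset.sum_congr rfl fun x _ ↦ ?_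
        obtain ⟨g', hg'N, hw, hmul⟩ := heckeRep_mul hpN g hgN x
        have hg'0 : g' ∈ Gamma0 N :=
          Gamma0_mem.mpr ((ZMod.intCast_zmod_eq_zero_iff_dvd _ _).mpr hg'N)
        rw [← SlashAction.slash_mul, hmul, SlashAction.slash_mul]
        congr 1
        -- `hw : g' 1 1 * w(x') = g 1 1 * w(x)`
        generalize redMatrix p g • x = x' at hw ⊢
        induction x using OnePoint.rec with
        | infty =>
          induction x' using OnePoint.rec with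
          | infty =>
            simp only [wt_infty, mul_one] at hw
            simp only [OnePoint.elim_infty]
            rw [← slash_mapGL_mul, ← slash_mapGL_mul]
            refine hf.slash_eq_of_lower_eq _ _ ((Gamma0 N).mul_mem hσ hg'0)
              ((Gamma0 N).mul_mem hg hσ) ?_
            rw [lower_right_mul σ g' hσ, lower_right_mul g σ hg, hw, mul_comm]
          | coe j' =>
            simp only [wt_infty, wt_coe, mul_one] at hw
            simp only [OnePoint.elim_infty, OnePoint.elim_some]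
            rw [← slash_mapGL_mul]
            refine hf.slash_eq_of_lower_eq _ _ ((Gamma0 N).mul_mem hσ hg'0) hg ?_
            rw [lower_right_mul σ g' hσ, hσp, mul_comm, hw]
        | coe j =>
          induction x' using OnePoint.rec with
          | infty =>
            simp only [wt_infty, wt_coe, mul_one] at hw
            simp only [OnePoint.elim_infty, OnePoint.elim_some]
            rw [← slash_mapGL_mul]
            refine hf.slash_eq_of_lower_eq _ _ hg'0 ((Gamma0 N).mul_mem hg hσ) ?_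
            rw [lower_right_mul g σ hg, hσp, hw]
          | coe j' =>
            simp only [wt_coe] at hw
            simp only [OnePoint.elim_some]
            exact hf.slash_eq_of_lower_eq _ _ hg'0 hg (hpu.mul_left_injective hw)
    _ = ∑ x : OnePoint (ZMod p),
          (x.elim ((f ∣[k] mapGL ℝ g) ∣[k] mapGL ℝ σ) (fun _ ↦ f ∣[k] mapGL ℝ g))
            ∣[k] heckeRep p x :=
        Equiv.sum_comp (MulAction.toPerm (redMatrix p g))
          (fun x ↦ (x.elim ((f ∣[k] mapGL ℝ g) ∣[k] mapGL ℝ σ) (fun _ ↦ f ∣[k] mapGL ℝ g))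
            ∣[k] heckeRep p x)

end Comm

/-! ### Linear operators -/

section Lin

variable [NeZero N]

/-- The diamond operator `f ↦ f ∣ a` (`a ∈ Γ₀(N)`) as a linear map. -/
def diaL (a : SL(2, ℤ)) (ha : a ∈ Gamma0 N) :
    CuspForm (Gamma1 N) k →ₗ[ℂ] CuspForm (Gamma1 N) k where
  toFun := dia a ha
  map_add' f g := by
    apply DFunLike.coe_injective
    rw [CuspForm.coe_add, coe_dia, coe_dia, coe_dia, CuspForm.coe_add, SlashAction.add_slash]
  map_smul' c f := by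
    apply DFunLike.coe_injective
    rw [RingHom.id_apply, CuspForm.IsGLPos.coe_smul, coe_dia, coe_dia,
      CuspForm.IsGLPos.coe_smul, smul_slash_mapGL]

@[simp] theorem coe_diaL (a : SL(2, ℤ)) (ha : a ∈ Gamma0 N) (f : CuspForm (Gamma1 N) k) :
    (⇑(diaL a ha f) : ℍ → ℂ) = ⇑f ∣[k] mapGL ℝ a := rfl

theorem smul_slash_diag' (k : ℤ) (p : ℕ) (c : ℂ) (F : ℍ → ℂ) :
    (c • F) ∣[k] heckeDiagMatrix p = c • (F ∣[k] heckeDiagMatrix p) := by
  rw [ModularForm.smul_slash, σ_heckeDiagMatrix]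
  rfl

variable {p : ℕ} [Fact p.Prime]

/-- A chosen element of `Γ₀(N)` with lower right entry `≡ p`. -/
def sigmaP (N p : ℕ) [Fact p.Prime] (hpN : ¬ p ∣ N) : SL(2, ℤ) :=
  (exists_Gamma0_lower N p ((Nat.Prime.coprime_iff_not_dvd Fact.out).mpr hpN)).choose

theorem sigmaP_mem (hpN : ¬ p ∣ N) : sigmaP N p hpN ∈ Gamma0 N :=
  (exists_Gamma0_lower N p ((Nat.Prime.coprime_iff_not_dvd Fact.out).mpr hpN)).choose_spec.1

theorem sigmaP_lower (hpN : ¬ p ∣ N) : (((sigmaP N p hpN) 1 1 : ℤ) : ZMod N) = (p : ZMod N) := by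
  have := (exists_Gamma0_lower N p
    ((Nat.Prime.coprime_iff_not_dvd Fact.out).mpr hpN)).choose_spec.2.2
  unfold sigmaP
  rw [this]
  simp

/-- The Hecke operator `T_p` (`p ∤ N`) as a linear map on `S_k(Γ₁(N))`. -/
def TpL (p : ℕ) [Fact p.Prime] (hpN : ¬ p ∣ N) :
    CuspForm (Gamma1 N) k →ₗ[ℂ] CuspForm (Gamma1 N) k where
  toFun := Tp hpN (sigmaP N p hpN) (sigmaP_mem hpN) (sigmaP_lower hpN)
  map_add' f g := by
    apply DFunLike.coe_injective
    rw [CuspForm.coe_add, coe_Tp, coe_Tp, coe_Tp, CuspForm.coe_add, heckeU_add,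
      SlashAction.add_slash, SlashAction.add_slash]
    abel
  map_smul' c f := by
    apply DFunLike.coe_injective
    rw [RingHom.id_apply, CuspForm.IsGLPos.coe_smul, coe_Tp, coe_Tp,
      CuspForm.IsGLPos.coe_smul, heckeU_smul, smul_slash_mapGL, smul_slash_diag', smul_add]

/-- `T_p f = U_p f + (f ∣ σ) ∣ diag(p, 1)` for ANY `σ ∈ Γ₀(N)` with lower right entry `≡ p`. -/
theorem coe_TpL (hpN : ¬ p ∣ N) (f : CuspForm (Gamma1 N) k) (σ : SL(2, ℤ)) (hσ : σ ∈ Gamma0 N)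
    (hσp : ((σ 1 1 : ℤ) : ZMod N) = (p : ZMod N)) :
    (⇑(TpL p hpN f) : ℍ → ℂ) =
      heckeU k p ⇑f + (⇑f ∣[k] mapGL ℝ σ) ∣[k] heckeDiagMatrix p := by
  show (⇑(Tp hpN (sigmaP N p hpN) (sigmaP_mem hpN) (sigmaP_lower hpN) f) : ℍ → ℂ) = _
  rw [coe_Tp, (coe_inv1 f).slash_eq_of_lower_eq _ σ (sigmaP_mem hpN) hσ
    ((sigmaP_lower hpN).trans hσp.symm)]

/-- `T_p` commutes with the diamond operators. -/
theorem diaL_TpL (hpN : ¬ p ∣ N) (a : SL(2, ℤ)) (ha : a ∈ Gamma0 N)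
    (f : CuspForm (Gamma1 N) k) : diaL a ha (TpL p hpN f) = TpL p hpN (diaL a ha f) := by
  apply DFunLike.coe_injective
  rw [coe_diaL, coe_TpL hpN f _ (sigmaP_mem hpN) (sigmaP_lower hpN),
    coe_TpL hpN _ _ (sigmaP_mem hpN) (sigmaP_lower hpN), coe_diaL]
  exact (coe_inv1 f).heckeT1_slash hpN _ (sigmaP_mem hpN) (sigmaP_lower hpN) a ha

/-- The generators of the Hecke algebra: `T_p` (`p ∤ N` prime) and the diamond operators. -/
def heckeGens (N : ℕ) [NeZero N] (k : ℤ) : Set (Module.End ℂ (CuspForm (Gamma1 N) k)) :=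
  {t | (∃ (p : ℕ) (_ : Fact p.Prime) (hpN : ¬ p ∣ N), t = TpL p hpN) ∨
    ∃ (a : SL(2, ℤ)) (ha : a ∈ Gamma0 N), t = diaL a ha}

/-- The Hecke algebra `ℤ[T_p, ⟨d⟩ : p ∤ N] ⊆ End_ℂ S_k(Γ₁(N))`. -/
def heckeAlg1 (N : ℕ) [NeZero N] (k : ℤ) : Subalgebra ℤ (Module.End ℂ (CuspForm (Gamma1 N) k)) :=
  Algebra.adjoin ℤ (heckeGens N k)

theorem TpL_mem_heckeGens (hpN : ¬ p ∣ N) : (TpL p hpN : Module.End ℂ _) ∈ heckeGens N k :=
  Or.inl ⟨p, inferInstance, hpN, rfl⟩

theorem diaL_mem_heckeGens (a : SL(2, ℤ)) (ha : a ∈ Gamma0 N) :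
    (diaL a ha : Module.End ℂ _) ∈ heckeGens N k :=
  Or.inr ⟨a, ha, rfl⟩

theorem TpL_mem_heckeAlg1 (hpN : ¬ p ∣ N) : (TpL p hpN : Module.End ℂ _) ∈ heckeAlg1 N k :=
  Algebra.subset_adjoin (TpL_mem_heckeGens hpN)

theorem diaL_mem_heckeAlg1 (a : SL(2, ℤ)) (ha : a ∈ Gamma0 N) :
    (diaL a ha : Module.End ℂ _) ∈ heckeAlg1 N k :=
  Algebra.subset_adjoin (diaL_mem_heckeGens a ha)

end Lin

end Fermat.Agent.S48.H548
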