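import Fermat.Agent.S48.H548.Chi0

/-!
# S48 / RES piece CHI0 (helper548): the character `χ₀` from `h · E`

`h ∈ S_1(Γ₁(N))` with nebentypus `ε` and `R`-integral `q`-expansion whose reduction mod `φ` is a
nonzero eigenvector of the formal Hecke operators (eigenvalues `α_p`, character `ε`);
`E ∈ M_1(Γ₁(L))` with nebentypus `ψ`, `R`-integral `q`-expansion, `E ≡ 1 mod φ`, and
`φ(ψ(p)) p = 1` (`ψ` = inverse Teichmüller character).  Then `g₀ = h E ∈ S_2(Γ₁(N L))` gives a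
ring homomorphism `χ₀ : heckeAlg1 (N L) 2 → k` with `χ₀(T_p) = α_p`,
`χ₀(⟨a⟩) = φ(ε(a₁₁)) φ(ψ(a₁₁))`; in particular `χ₀(⟨p⟩) p = φ(ε(p))`.
-/

set_option autoImplicit false
set_option linter.unusedSectionVars false
set_option linter.deprecated false

noncomputable section

namespace Fermat.Agent.S48.H548

open Matrix.SpecialLinearGroup UpperHalfPlane ModularForm CongruenceSubgroup ModularFormClass
open scoped MatrixGroups ModularForm OnePoint Manifold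

variable {N L : ℕ} [NeZero N] [NeZero L]
variable {R : Type*} [CommRing R] {k : Type*} [Field k] {ι : R →+* ℂ} {φ : R →+* k}

/-- The product `h E` in weight `2`. -/
def mulCusp2 (h : CuspForm (Gamma1 N) 1) (E : ModularForm (Gamma1 L) 1) :
    CuspForm (Gamma1 (N * L)) 2 :=
  mulCusp h E

@[simp] theorem coe_mulCusp2 (h : CuspForm (Gamma1 N) 1) (E : ModularForm (Gamma1 L) 1) :
    (⇑(mulCusp2 h E) : ℍ → ℂ) = ⇑h * ⇑E := rfl

/-- Reduction of the Cauchy product with a series `≡ 1`. -/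
theorem map_sum_antidiagonal_eq (c e : ℕ → R) (he0 : φ (e 0) = 1)
    (he1 : ∀ n, 1 ≤ n → φ (e n) = 0) (n : ℕ) :
    φ (∑ x ∈ Finset.HasAntidiagonal.antidiagonal n, c x.1 * e x.2) = φ (c n) := by
  rw [map_sum, Finset.sum_eq_single (n, 0)]
  · rw [map_mul, he0, mul_one]
  · rintro ⟨i, j⟩ hij hne
    rw [Finset.HasAntidiagonal.mem_antidiagonal] at hij
    have hj : 1 ≤ j := by
      rcases Nat.eq_zero_or_pos j with rfl | hj
      · exfalso
        apply hne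
        simp only [add_zero] at hij
        rw [hij]
      · exact hj
    rw [map_mul, he1 j hj, mul_zero]
  · intro h
    exact absurd (Finset.HasAntidiagonal.mem_antidiagonal.mpr (add_zero n)) h

/-- **CHI0** for `g₀ = h E`. -/
theorem exists_chi0_mul (hι : Function.Injective ι)
    (ε : ZMod N → ℂ) (εR : ZMod N → R) (hεR : ∀ x, ι (εR x) = ε x)
    (ψ : ZMod L → ℂ) (ψR : ZMod L → R) (hψR : ∀ x, ι (ψR x) = ψ x)
    (hteich : ∀ p : ℕ, p.Prime → ¬ p ∣ N * L → φ (ψR (p : ZMod L)) * (p : k) = 1)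
    (α : ℕ → k)
    (h : CuspForm (Gamma1 N) 1) (hh : HasNeb ε (⇑h) 1)
    (c : ℕ → R) (hc : ∀ n, qCoeff (⇑h : ℍ → ℂ) n = ι (c n)) (hne : ∃ n, φ (c n) ≠ 0)
    (hrel : ∀ p : ℕ, p.Prime → ¬ p ∣ N * L → ∀ n : ℕ,
      φ (c (p * n)) + φ (εR (p : ZMod N)) * (if p ∣ n then φ (c (n / p)) else 0) =
        α p * φ (c n))
    (E : ModularForm (Gamma1 L) 1) (hE : HasNeb ψ (⇑E) 1)
    (e : ℕ → R) (he : ∀ n, qCoeff (⇑E : ℍ → ℂ) n = ι (e n)) (he0 : φ (e 0) = 1)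
    (he1 : ∀ n, 1 ≤ n → φ (e n) = 0) :
    ∃ χ : heckeAlg1 (N * L) 2 →+* k,
      (∀ (p : ℕ) [Fact p.Prime] (hpM : ¬ p ∣ N * L),
        χ ⟨TpL p hpM, TpL_mem_heckeAlg1 hpM⟩ = α p) ∧
      (∀ (a : SL(2, ℤ)) (ha : a ∈ Gamma0 (N * L)),
        χ ⟨diaL a ha, diaL_mem_heckeAlg1 a ha⟩ =
          φ (εR ((a 1 1 : ℤ) : ZMod N)) * φ (ψR ((a 1 1 : ℤ) : ZMod L))) ∧
      (∀ (p : ℕ) [Fact p.Prime] (hpM : ¬ p ∣ N * L) (a : SL(2, ℤ)) (ha : a ∈ Gamma0 (N * L)),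
        ((a 1 1 : ℤ) : ZMod (N * L)) = (p : ZMod (N * L)) →
        χ ⟨diaL a ha, diaL_mem_heckeAlg1 a ha⟩ * (p : k) = φ (εR (p : ZMod N))) := by
  set chR : ZMod (N * L) → R := fun x ↦
    εR (ZMod.castHom (dvd_mul_right N L) (ZMod N) x) *
      ψR (ZMod.castHom (dvd_mul_left L N) (ZMod L) x) with hchR
  have hchR' : ∀ x, ι (chR x) = mulChar ε ψ x := fun x ↦ by
    rw [hchR, map_mul, hεR, hψR]
    rfl
  have hchR_int : ∀ a : ℤ, chR (a : ZMod (N * L)) = εR (a : ZMod N) * ψR (a : ZMod L) :=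
    fun a ↦ by simp [hchR]
  have hchR_nat : ∀ a : ℕ, chR (a : ZMod (N * L)) = εR (a : ZMod N) * ψR (a : ZMod L) :=
    fun a ↦ by simp [hchR]
  set c' : ℕ → R := fun n ↦ ∑ x ∈ Finset.HasAntidiagonal.antidiagonal n, c x.1 * e x.2 with hc'
  have hφc' : ∀ n, φ (c' n) = φ (c n) := fun n ↦ map_sum_antidiagonal_eq c e he0 he1 n
  obtain ⟨χ, h1, h2, -⟩ := exists_chi0 (M := N * L) (φ := φ) hι (mulChar ε ψ) chR hchR' α
    (mulCusp2 h E) (hasNeb_mulCusp h E hh hE) c'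
    (fun n ↦ by
      show qCoeff (⇑(mulCusp h E) : ℍ → ℂ) n = _
      rw [qCoeff_mulCusp, hc', map_sum]
      refine Finset.sum_congr rfl fun x _ ↦ ?_
      rw [map_mul, hc, he])
    (by
      obtain ⟨n, hn⟩ := hne
      exact ⟨n, by rwa [hφc']⟩)
    (fun p hp hpM n ↦ by
      have h3 : φ (chR (p : ZMod (N * L))) * (p : k) = φ (εR (p : ZMod N)) := by
        rw [hchR_nat, map_mul, mul_assoc, hteich p hp hpM, mul_one]
      rw [hφc', hφc', hφc', h3, mul_comm n p]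
      exact hrel p hp hpM n)
  refine ⟨χ, h1, fun a ha ↦ ?_, fun p _ hpM a ha hap ↦ ?_⟩
  · rw [h2 a ha, hchR_int, map_mul]
  · rw [h2 a ha, hap, hchR_nat, map_mul, mul_assoc, hteich p Fact.out hpM, mul_one]

end Fermat.Agent.S48.H548
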