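import Fermat.Agent.S48.H548.Chi0

/-!
# S48 / RES (helper548): the Hecke algebra `heckeAlg1 M k` is commutative

* `diaU d` : the diamond operator `⟨d⟩`, `d ∈ (ℤ/M)ˣ`; `diaL a = diaU d` if `a₁₁ ≡ d`;
* `neProj χ` : the projector onto the nebentypus-`χ` part; `sum_neProj : ∑ χ, neProj χ g = g`;
* `TpL_comm` : `T_p T_q = T_q T_p` on `S_k(Γ₁(M))` (via `q`-expansions on each `χ`-part);
* `heckeGens_comm`, `heckeAlg1_comm` : commutativity of the generators / of the algebra.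
-/

set_option autoImplicit false
set_option linter.unusedSectionVars false
set_option linter.deprecated false

noncomputable section

namespace Fermat.Agent.S48.H548

open Matrix.SpecialLinearGroup UpperHalfPlane ModularForm CongruenceSubgroup ModularFormClass
open scoped MatrixGroups ModularForm OnePoint Manifold

variable {M : ℕ} [NeZero M] {wt : ℤ}

/-! ### Diamond operators indexed by units -/

theorem exists_diaRep (M : ℕ) [NeZero M] (d : (ZMod M)ˣ) :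
    ∃ σ : SL(2, ℤ), σ ∈ Gamma0 M ∧ ((σ 1 1 : ℤ) : ZMod M) = (d : ZMod M) := by
  obtain ⟨σ, hσ, -, h1⟩ := exists_Gamma0_lower M (d : ZMod M).val (ZMod.val_coe_unit_coprime d)
  refine ⟨σ, hσ, ?_⟩
  rw [h1, Int.cast_natCast, ZMod.natCast_zmod_val]

/-- A representative in `Γ₀(M)` of the unit `d`. -/
def diaRep (M : ℕ) [NeZero M] (d : (ZMod M)ˣ) : SL(2, ℤ) := (exists_diaRep M d).choose

theorem diaRep_mem (d : (ZMod M)ˣ) : diaRep M d ∈ Gamma0 M := (exists_diaRep M d).choose_spec.1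

theorem diaRep_lower (d : (ZMod M)ˣ) : (((diaRep M d) 1 1 : ℤ) : ZMod M) = (d : ZMod M) :=
  (exists_diaRep M d).choose_spec.2

/-- The diamond operator `⟨d⟩`. -/
def diaU (d : (ZMod M)ˣ) : CuspForm (Gamma1 M) wt →ₗ[ℂ] CuspForm (Gamma1 M) wt :=
  diaL (diaRep M d) (diaRep_mem d)

theorem diaL_eq_of_lower_eq (a b : SL(2, ℤ)) (ha : a ∈ Gamma0 M) (hb : b ∈ Gamma0 M)
    (h : ((a 1 1 : ℤ) : ZMod M) = ((b 1 1 : ℤ) : ZMod M)) :
    (diaL a ha : CuspForm (Gamma1 M) wt →ₗ[ℂ] CuspForm (Gamma1 M) wt) = diaL b hb := by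
  ext1 g
  apply DFunLike.coe_injective
  rw [coe_diaL, coe_diaL]
  exact (coe_inv1 g).slash_eq_of_lower_eq a b ha hb h

theorem diaL_eq_diaU (a : SL(2, ℤ)) (ha : a ∈ Gamma0 M) (d : (ZMod M)ˣ)
    (h : ((a 1 1 : ℤ) : ZMod M) = (d : ZMod M)) :
    (diaL a ha : CuspForm (Gamma1 M) wt →ₗ[ℂ] CuspForm (Gamma1 M) wt) = diaU d :=
  diaL_eq_of_lower_eq a _ ha (diaRep_mem d) (h.trans (diaRep_lower d).symm)

theorem diaL_mul (a b : SL(2, ℤ)) (ha : a ∈ Gamma0 M) (hb : b ∈ Gamma0 M)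
    (g : CuspForm (Gamma1 M) wt) :
    diaL b hb (diaL a ha g) = diaL (a * b) ((Gamma0 M).mul_mem ha hb) g := by
  apply DFunLike.coe_injective
  rw [coe_diaL, coe_diaL, coe_diaL, slash_mapGL_mul]

theorem diaL_comm (a b : SL(2, ℤ)) (ha : a ∈ Gamma0 M) (hb : b ∈ Gamma0 M)
    (g : CuspForm (Gamma1 M) wt) :
    diaL b hb (diaL a ha g) = diaL a ha (diaL b hb g) := by
  rw [diaL_mul, diaL_mul]
  refine LinearMap.congr_fun (diaL_eq_of_lower_eq _ _ _ _ ?_) g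
  rw [lower_right_mul a b ha, lower_right_mul b a hb, mul_comm]

theorem diaU_one (g : CuspForm (Gamma1 M) wt) : diaU (1 : (ZMod M)ˣ) g = g := by
  apply DFunLike.coe_injective
  show (⇑(diaL _ _ g) : ℍ → ℂ) = _
  rw [coe_diaL]
  refine coe_inv1 g _ (mem_Gamma1_of_lower _ (Gamma0_mem.mp (diaRep_mem 1)) ?_)
  rw [diaRep_lower]
  rfl

/-- The unit of `ℤ/M` given by the lower right entry of `a ∈ Γ₀(M)`. -/
def lowerUnit (a : SL(2, ℤ)) (ha : a ∈ Gamma0 M) : (ZMod M)ˣ :=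
  ⟨((a 1 1 : ℤ) : ZMod M), ((a 0 0 : ℤ) : ZMod M),
    by rw [mul_comm]; exact lower_right_isUnit a ha, lower_right_isUnit a ha⟩

@[simp] theorem coe_lowerUnit (a : SL(2, ℤ)) (ha : a ∈ Gamma0 M) :
    ((lowerUnit a ha : (ZMod M)ˣ) : ZMod M) = ((a 1 1 : ℤ) : ZMod M) := rfl

theorem diaL_diaU (a : SL(2, ℤ)) (ha : a ∈ Gamma0 M) (d : (ZMod M)ˣ)
    (g : CuspForm (Gamma1 M) wt) : diaL a ha (diaU d g) = diaU (d * lowerUnit a ha) g := by
  show diaL a ha (diaL _ _ g) = _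
  rw [diaL_mul]
  refine LinearMap.congr_fun (diaL_eq_diaU _ _ _ ?_) g
  rw [lower_right_mul _ a (diaRep_mem d), diaRep_lower, Units.val_mul, coe_lowerUnit]

/-! ### Decomposition into nebentypus components -/

/-- The projector onto the nebentypus-`χ` component. -/
def neProj (χ : DirichletCharacter ℂ M) :
    CuspForm (Gamma1 M) wt →ₗ[ℂ] CuspForm (Gamma1 M) wt :=
  ((M.totient : ℂ)⁻¹) • ∑ d : (ZMod M)ˣ, χ ((d⁻¹ : (ZMod M)ˣ) : ZMod M) • diaU d

theorem neProj_apply (χ : DirichletCharacter ℂ M) (g : CuspForm (Gamma1 M) wt) :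
    neProj χ g =
      ((M.totient : ℂ)⁻¹) • ∑ d : (ZMod M)ˣ, χ ((d⁻¹ : (ZMod M)ˣ) : ZMod M) • diaU d g := by
  simp [neProj, LinearMap.sum_apply]

theorem diaL_neProj (χ : DirichletCharacter ℂ M) (a : SL(2, ℤ)) (ha : a ∈ Gamma0 M)
    (g : CuspForm (Gamma1 M) wt) :
    diaL a ha (neProj χ g) = χ ((a 1 1 : ℤ) : ZMod M) • neProj χ g := by
  set u := lowerUnit a ha with hu
  have h1 : diaL a ha (neProj χ g) = ((M.totient : ℂ)⁻¹) •
      ∑ d : (ZMod M)ˣ, χ ((d⁻¹ : (ZMod M)ˣ) : ZMod M) • diaU (d * u) g := by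
    rw [neProj_apply, map_smul, map_sum]
    congr 1
    refine Finset.sum_congr rfl fun d _ ↦ ?_
    rw [map_smul, diaL_diaU]
  have h2 : ∑ d : (ZMod M)ˣ, χ ((d⁻¹ : (ZMod M)ˣ) : ZMod M) • diaU (d * u) g =
      ∑ d : (ZMod M)ˣ, χ (((d * u⁻¹)⁻¹ : (ZMod M)ˣ) : ZMod M) • diaU d g := by
    refine Fintype.sum_equiv (Equiv.mulRight u) _ _ fun d ↦ ?_
    rw [Equiv.coe_mulRight, mul_inv_cancel_right]
  have h3 : ∀ d : (ZMod M)ˣ, χ (((d * u⁻¹)⁻¹ : (ZMod M)ˣ) : ZMod M) =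
      χ ((a 1 1 : ℤ) : ZMod M) * χ ((d⁻¹ : (ZMod M)ˣ) : ZMod M) := by
    intro d
    rw [mul_inv_rev, inv_inv, Units.val_mul, map_mul]
    rfl
  rw [h1, h2, neProj_apply, smul_comm (χ ((a 1 1 : ℤ) : ZMod M)) ((M.totient : ℂ)⁻¹)]
  congr 1
  rw [Finset.smul_sum]
  refine Finset.sum_congr rfl fun d _ ↦ ?_
  rw [h3, mul_smul]

theorem hasNeb_neProj (χ : DirichletCharacter ℂ M) (g : CuspForm (Gamma1 M) wt) :
    HasNeb (⇑χ) (⇑(neProj χ g)) wt := fun a ha ↦ by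
  rw [← coe_diaL a ha, diaL_neProj, CuspForm.IsGLPos.coe_smul]

theorem sum_neProj (g : CuspForm (Gamma1 M) wt) :
    ∑ χ : DirichletCharacter ℂ M, neProj χ g = g := by
  simp only [neProj_apply]
  rw [← Finset.smul_sum, Finset.sum_comm]
  simp only [← Finset.sum_smul]
  have h1 : ∀ d : (ZMod M)ˣ,
      (∑ χ : DirichletCharacter ℂ M, χ ((d⁻¹ : (ZMod M)ˣ) : ZMod M)) =
        if d = 1 then (M.totient : ℂ) else 0 := by
    intro d
    rw [DirichletCharacter.sum_characters_eq]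
    congr 1
    rw [eq_iff_iff]
    constructor
    · intro h
      have : (d⁻¹ : (ZMod M)ˣ) = 1 := Units.ext h
      simpa using this
    · rintro rfl
      simp
  simp only [h1]
  rw [Finset.sum_eq_single (1 : (ZMod M)ˣ)]
  · rw [if_pos rfl, smul_smul, diaU_one, inv_mul_cancel₀, one_smul]
    exact_mod_cast (Nat.totient_pos.mpr (NeZero.pos M)).ne'
  · intro d _ hd
    rw [if_neg hd, zero_smul]
  · intro h
    exact absurd (Finset.mem_univ _) h

/-! ### Commutativity of the `T_p` -/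

section TT

variable {p q : ℕ} [Fact p.Prime] [Fact q.Prime]

theorem eq_of_qCoeff_eq (f g : CuspForm (Gamma1 M) wt)
    (h : ∀ n, qCoeff (⇑f : ℍ → ℂ) n = qCoeff (⇑g : ℍ → ℂ) n) : f = g := by
  apply DFunLike.coe_injective
  exact HasQ.unique ((coe_nice f).hasQ.congr h) (coe_nice g).hasQ

/-- The `q`-expansion of `T_p T_q g` (symmetric in `p`, `q`). -/
theorem qCoeff_TpL_TpL (hpq : p ≠ q) (hpM : ¬ p ∣ M) (hqM : ¬ q ∣ M) {χ : ZMod M → ℂ}
    (g : CuspForm (Gamma1 M) wt) (hχ : HasNeb χ ⇑g wt) (n : ℕ) :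
    qCoeff (⇑(TpL p hpM (TpL q hqM g)) : ℍ → ℂ) n =
      qCoeff (⇑g : ℍ → ℂ) (n * p * q) +
      (if q ∣ n then χ q * (q : ℂ) ^ (wt - 1) * qCoeff (⇑g : ℍ → ℂ) (n / q * p) else 0) +
      (if p ∣ n then χ p * (p : ℂ) ^ (wt - 1) * qCoeff (⇑g : ℍ → ℂ) (n / p * q) else 0) +
      (if p ∣ n ∧ q ∣ n then χ p * (p : ℂ) ^ (wt - 1) * (χ q * (q : ℂ) ^ (wt - 1)) *
        qCoeff (⇑g : ℍ → ℂ) (n / (p * q)) else 0) := by
  have hp : p.Prime := Fact.out
  have hq : q.Prime := Fact.out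
  have hcop : Nat.Coprime q p := (Nat.coprime_primes hq hp).mpr (Ne.symm hpq)
  rw [qCoeff_TpL hpM _ (hasNeb_TpL hqM g hχ), qCoeff_TpL hqM g hχ, qCoeff_TpL hqM g hχ]
  have h1 : q ∣ n * p ↔ q ∣ n := hcop.dvd_mul_right
  by_cases hqn : q ∣ n
  · have h2 : n * p / q = n / q * p := (Nat.div_mul_right_comm hqn p).symm
    by_cases hpn : p ∣ n
    · have h3 : q ∣ n / p := by
        obtain ⟨m, rfl⟩ := hpn
        rw [Nat.mul_div_cancel_left m hp.pos]
        exact (hcop.dvd_mul_left).mp hqn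
      have h4 : n / p / q = n / (p * q) := Nat.div_div_eq_div_mul n p q
      rw [if_pos (h1.mpr hqn), if_pos hpn, if_pos h3, if_pos hqn, if_pos hpn,
        if_pos ⟨hpn, hqn⟩, h2, h4]
      ring
    · rw [if_pos (h1.mpr hqn), if_neg hpn, if_pos hqn, if_neg hpn,
        if_neg (fun h ↦ hpn h.1), h2]
      ring
  · by_cases hpn : p ∣ n
    · have h3 : ¬ q ∣ n / p := fun h ↦ hqn (h.trans (Nat.div_dvd_of_dvd hpn))
      rw [if_neg (fun h ↦ hqn (h1.mp h)), if_pos hpn, if_neg h3, if_neg hqn, if_pos hpn,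
        if_neg (fun h ↦ hqn h.2)]
      ring
    · rw [if_neg (fun h ↦ hqn (h1.mp h)), if_neg hpn, if_neg hqn, if_neg hpn,
        if_neg (fun h ↦ hqn h.2)]
      ring

theorem TpL_comm_of_hasNeb (hpM : ¬ p ∣ M) (hqM : ¬ q ∣ M) {χ : ZMod M → ℂ}
    (g : CuspForm (Gamma1 M) wt) (hχ : HasNeb χ ⇑g wt) :
    TpL p hpM (TpL q hqM g) = TpL q hqM (TpL p hpM g) := by
  by_cases hpq : p = q
  · subst hpq
    have : (inferInstance : Fact p.Prime) = ‹Fact p.Prime› := Subsingleton.elim _ _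
    congr!
  · refine eq_of_qCoeff_eq _ _ fun n ↦ ?_
    rw [qCoeff_TpL_TpL hpq hpM hqM g hχ, qCoeff_TpL_TpL (Ne.symm hpq) hqM hpM g hχ]
    have e1 : n * p * q = n * q * p := by ring
    have e2 : n / (p * q) = n / (q * p) := by rw [mul_comm]
    have e3 : (p ∣ n ∧ q ∣ n) ↔ (q ∣ n ∧ p ∣ n) := and_comm
    rw [e1, e2]
    simp only [e3]
    ring_nf

/-- `T_p T_q = T_q T_p`. -/
theorem TpL_comm (hpM : ¬ p ∣ M) (hqM : ¬ q ∣ M) (g : CuspForm (Gamma1 M) wt) :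
    TpL p hpM (TpL q hqM g) = TpL q hqM (TpL p hpM g) := by
  conv_lhs => rw [← sum_neProj g]
  conv_rhs => rw [← sum_neProj g]
  rw [map_sum, map_sum, map_sum, map_sum]
  exact Finset.sum_congr rfl fun χ _ ↦ TpL_comm_of_hasNeb hpM hqM _ (hasNeb_neProj χ g)

end TT

/-! ### Commutativity of the algebra -/

theorem heckeGens_comm (s t : Module.End ℂ (CuspForm (Gamma1 M) wt)) (hs : s ∈ heckeGens M wt)
    (ht : t ∈ heckeGens M wt) : s * t = t * s := by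
  ext1 g
  rw [Module.End.mul_apply, Module.End.mul_apply]
  rcases hs with ⟨p, hp, hpM, rfl⟩ | ⟨a, ha, rfl⟩ <;>
    rcases ht with ⟨q, hq, hqM, rfl⟩ | ⟨b, hb, rfl⟩
  · exact TpL_comm hpM hqM g
  · exact (diaL_TpL hpM b hb g).symm
  · exact diaL_TpL hqM a ha g
  · exact diaL_comm b a hb ha g

/-- The Hecke algebra is commutative. -/
theorem heckeAlg1_comm (s t : heckeAlg1 M wt) : s * t = t * s := by
  exact (Algebra.adjoinCommRingOfComm ℤ (s := heckeGens M wt)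
    (fun a ha b hb ↦ heckeGens_comm a b ha hb)).mul_comm s t

/-- The Hecke algebra as a commutative ring. -/
instance heckeAlg1.instCommRing : CommRing (heckeAlg1 M wt) :=
  { (inferInstance : Ring (heckeAlg1 M wt)) with mul_comm := heckeAlg1_comm }

end Fermat.Agent.S48.H548
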