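import Fermat.Agent.S48.H188.M4a1
import Fermat.Agent.S48.H548.Per1Hecke
import Fermat.Agent.S48.H548.Comm
import Fermat.Agent.S48.H548.Chi0Main

/-!
# S48 / RES, node M4a1 CLOSED (helper548 + helper188): the parabolic eigenclass on `Γ₁(M)`

* `periodInputs M : H188.PeriodInputs M` — the inputs PER1 + COMM of helper188's abstract
  Nakayama argument, from `H548/Per1*.lean` and `H548/Comm.lean`;
* `exists_eigenclass1` : for every ring homomorphism `χ : heckeAlg1 M 2 →+* F` (`F` a field of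
  characteristic `ℓ > 0`) a nonzero parabolic `c : Γ₁(M) → F` with `T_p c = χ(T_p) c`,
  `⟨a⟩ c = χ(⟨a⟩) c` (`heckeHom1`, `diaHom1` of `H548/Per1Transfer.lean`);
* `exists_eigenclass_mul` : the same with `χ = χ₀` coming from the mod-`φ` eigenvector `h · E`
  (`exists_chi0_mul`): eigenvalues `α_p`, `φ(ε(a)) φ(ψ(a))`.  NO characteristic-zero lift.
-/

set_option autoImplicit false
set_option linter.unusedSectionVars false
set_option linter.deprecated false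

noncomputable section

namespace Fermat.Agent.S48.H548

open CongruenceSubgroup Matrix.SpecialLinearGroup ModularCurve.Period UpperHalfPlane
open ModularFormClass
open scoped MatrixGroups OnePoint

variable {M : ℕ} [NeZero M]

/-- The inputs PER1 + COMM of node M4a1. -/
def periodInputs (M : ℕ) [NeZero M] : Fermat.Agent.S48.H188.PeriodInputs M where
  per := per1L M
  inj := per1L_injective
  par := per1_parabolic
  comm := fun x hx y hy ↦ heckeGens_comm x y hx hy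
  transfer := by
    rintro t (⟨p, hp, hpM, rfl⟩ | ⟨a, ha, rfl⟩) γ
    · refine ⟨OnePoint (ZMod p), Finset.univ,
        fun x ↦ Additive.ofMul (trf1 hpM (Additive.toMul γ) x), fun g ↦ ?_⟩
      rw [per1L_apply, per1_TpL]
      rfl
    · refine ⟨Unit, Finset.univ, fun _ ↦ Additive.ofMul (conj1 a ha (Additive.toMul γ)),
        fun g ↦ ?_⟩
      rw [per1L_apply, per1_diaL, Finset.sum_const, Finset.card_univ, Fintype.card_unit,
        one_smul]
      rfl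

/-- **Node M4a1.** The parabolic `χ`-eigenclass on `Γ₁(M)`. -/
theorem exists_eigenclass1 {F : Type*} [Field F] (ℓ : ℕ) [Fact ℓ.Prime] [CharP F ℓ]
    (χ : heckeAlg1 M 2 →+* F) :
    ∃ c : Additive (Gamma1 M) →+ F, c ≠ 0 ∧ IsParabolicHom (Gamma1 M) c ∧
      (∀ γ : Gamma1 M, IsOfFinOrder γ → c (Additive.ofMul γ) = 0) ∧
      (∀ (p : ℕ) [Fact p.Prime] (hpM : ¬ p ∣ M) (γ : Additive (Gamma1 M)),
        heckeHom1 p hpM F c γ = χ ⟨TpL p hpM, TpL_mem_heckeAlg1 hpM⟩ * c γ) ∧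
      (∀ (a : SL(2, ℤ)) (ha : a ∈ Gamma0 M) (γ : Additive (Gamma1 M)),
        diaHom1 a ha F c γ = χ ⟨diaL a ha, diaL_mem_heckeAlg1 a ha⟩ * c γ) := by
  obtain ⟨c, hc0, hpar, hfin, -, heig⟩ :=
    Fermat.Agent.S48.H188.exists_eigenclass (periodInputs M) ℓ χ
  refine ⟨c, hc0, hpar, hfin, fun p _ hpM γ ↦ ?_, fun a ha γ ↦ ?_⟩
  · have h := heig ⟨TpL p hpM, TpL_mem_heckeAlg1 hpM⟩ γ (OnePoint (ZMod p)) Finset.univ
      (fun x ↦ Additive.ofMul (trf1 hpM (Additive.toMul γ) x)) (fun g ↦ by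
        show per1L M (TpL p hpM g) γ = _
        rw [per1L_apply, per1_TpL]
        rfl)
    rw [← h]
    rfl
  · have h := heig ⟨diaL a ha, diaL_mem_heckeAlg1 a ha⟩ γ Unit Finset.univ
      (fun _ ↦ Additive.ofMul (conj1 a ha (Additive.toMul γ))) (fun g ↦ by
        show per1L M (diaL a ha g) γ = _
        rw [per1L_apply, per1_diaL, Finset.sum_const, Finset.card_univ, Fintype.card_unit,
          one_smul]
        rfl)
    rw [← h, Finset.sum_const, Finset.card_univ, Fintype.card_unit, one_smul]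
    rfl

/-- **Node M4a1 for `g₀ = h E`**: the parabolic eigenclass with eigenvalues `α_p` and nebentypus
`φ(ε ψ)`; hypotheses as in `exists_chi0_mul`. -/
theorem exists_eigenclass_mul {N L : ℕ} [NeZero N] [NeZero L]
    {R : Type*} [CommRing R] {k : Type*} [Field k] (ℓ : ℕ) [Fact ℓ.Prime] [CharP k ℓ]
    {ι : R →+* ℂ} {φ : R →+* k} (hι : Function.Injective ι)
    (ε : ZMod N → ℂ) (εR : ZMod N → R) (hεR : ∀ x, ι (εR x) = ε x)
    (ψ : ZMod L → ℂ) (ψR : ZMod L → R) (hψR : ∀ x, ι (ψR x) = ψ x)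
    (hteich : ∀ p : ℕ, p.Prime → ¬ p ∣ N * L → φ (ψR (p : ZMod L)) * (p : k) = 1)
    (α : ℕ → k)
    (h : CuspForm (Gamma1 N) 1) (hh : HasNeb ε (⇑h) 1)
    (c : ℕ → R) (hc : ∀ n, qCoeff (⇑h : ℍ → ℂ) n = ι (c n)) (hne : ∃ n, φ (c n) ≠ 0)
    (hrel : ∀ p : ℕ, p.Prime → ¬ p ∣ N * L → ∀ n : ℕ,
      φ (c (p * n)) + φ (εR (p : ZMod N)) * (if p ∣ n then φ (c (n / p)) else 0) =
        α p * φ (c n))
    (E : ModularForm (Gamma1 L) 1) (hE : HasNeb ψ (⇑E) 1)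
    (e : ℕ → R) (he : ∀ n, qCoeff (⇑E : ℍ → ℂ) n = ι (e n)) (he0 : φ (e 0) = 1)
    (he1 : ∀ n, 1 ≤ n → φ (e n) = 0) :
    ∃ cl : Additive (Gamma1 (N * L)) →+ k, cl ≠ 0 ∧ IsParabolicHom (Gamma1 (N * L)) cl ∧
      (∀ γ : Gamma1 (N * L), IsOfFinOrder γ → cl (Additive.ofMul γ) = 0) ∧
      (∀ (p : ℕ) [Fact p.Prime] (hpM : ¬ p ∣ N * L) (γ : Additive (Gamma1 (N * L))),
        heckeHom1 p hpM k cl γ = α p * cl γ) ∧
      (∀ (a : SL(2, ℤ)) (ha : a ∈ Gamma0 (N * L)) (γ : Additive (Gamma1 (N * L))),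
        diaHom1 a ha k cl γ =
          φ (εR ((a 1 1 : ℤ) : ZMod N)) * φ (ψR ((a 1 1 : ℤ) : ZMod L)) * cl γ) ∧
      (∀ (p : ℕ) [Fact p.Prime] (_ : ¬ p ∣ N * L) (a : SL(2, ℤ)) (ha : a ∈ Gamma0 (N * L)),
        ((a 1 1 : ℤ) : ZMod (N * L)) = (p : ZMod (N * L)) → ∀ γ : Additive (Gamma1 (N * L)),
        (p : k) * diaHom1 a ha k cl γ = φ (εR (p : ZMod N)) * cl γ) := by
  obtain ⟨χ, h1, h2, h3⟩ := exists_chi0_mul (φ := φ) hι ε εR hεR ψ ψR hψR hteich α h hh c hc hne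
    hrel E hE e he he0 he1
  obtain ⟨cl, hc0, hpar, hfin, hT, hD⟩ := exists_eigenclass1 (M := N * L) ℓ χ
  refine ⟨cl, hc0, hpar, hfin, fun p _ hpM γ ↦ ?_, fun a ha γ ↦ ?_, fun p _ hpM a ha hap γ ↦ ?_⟩
  · rw [hT p hpM γ, h1 p hpM]
  · rw [hD a ha γ, h2 a ha]
  · rw [hD a ha γ, ← mul_assoc, mul_comm (p : k), h3 p hpM a ha hap]

end Fermat.Agent.S48.H548
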