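import Mathlib

/-!
# S48 / RES piece CHI0 (helper548): abstract construction of a character of a Hecke algebra
from a "graded" family of subsets

`S` is a module, `W b ⊆ S` (`b ∈ k`) a family of subsets with `W b + W b' ⊆ W (b + b')`,
`-W b ⊆ W (-b)`, `0 ∈ W 0`, pairwise disjoint, `g₀ ∈ W 1`.  If every generator `t ∈ G` of a ring of
operators maps `W b` to `W (c b)` for some `c = c(t)`, then there is a ring homomorphism
`χ : Algebra.adjoin ℤ G → k` such that every `t` in the algebra maps `W b` to `W (χ(t) b)`.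

(Application: `W b` = forms with integral `q`-expansion whose reduction is `b • c₀`, `c₀` a
simultaneous eigenvector mod `λ`.)
-/

set_option autoImplicit false

namespace Fermat.Agent.S48.H548

section

variable {S : Type*} [AddCommGroup S] [Module ℂ S] {k : Type*} [CommRing k]

/-- `t` maps `W b` to `W (c * b)` for all `b`. -/
def ActsBy (W : k → Set S) (t : Module.End ℂ S) (c : k) : Prop :=
  ∀ b g, g ∈ W b → t g ∈ W (c * b)

variable {W : k → Set S}

theorem ActsBy.unique (hsep : ∀ b b' g, g ∈ W b → g ∈ W b' → b = b') {g₀ : S} (hg₀ : g₀ ∈ W 1)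
    {t : Module.End ℂ S} {c c' : k} (h : ActsBy W t c) (h' : ActsBy W t c') : c = c' := by
  have h1 := hsep _ _ _ (h 1 g₀ hg₀) (h' 1 g₀ hg₀)
  simpa using h1

theorem ActsBy.add (hadd : ∀ b b' g g', g ∈ W b → g' ∈ W b' → g + g' ∈ W (b + b'))
    {t t' : Module.End ℂ S} {c c' : k} (h : ActsBy W t c) (h' : ActsBy W t' c') :
    ActsBy W (t + t') (c + c') := by
  intro b g hg
  rw [LinearMap.add_apply, add_mul]
  exact hadd _ _ _ _ (h b g hg) (h' b g hg)

theorem ActsBy.mul {t t' : Module.End ℂ S} {c c' : k} (h : ActsBy W t c) (h' : ActsBy W t' c') :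
    ActsBy W (t * t') (c * c') := by
  intro b g hg
  rw [Module.End.mul_apply, mul_assoc]
  exact h _ _ (h' b g hg)

theorem ActsBy.one : ActsBy W (1 : Module.End ℂ S) 1 := by
  intro b g hg
  rw [Module.End.one_apply, one_mul]
  exact hg

theorem ActsBy.neg (hneg : ∀ b g, g ∈ W b → -g ∈ W (-b))
    {t : Module.End ℂ S} {c : k} (h : ActsBy W t c) : ActsBy W (-t) (-c) := by
  intro b g hg
  rw [LinearMap.neg_apply, neg_mul]
  exact hneg _ _ (h b g hg)

theorem ActsBy.zero (h0 : (0 : S) ∈ W 0) : ActsBy W (0 : Module.End ℂ S) 0 := by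
  intro b g _
  rw [LinearMap.zero_apply, zero_mul]
  exact h0

theorem ActsBy.intCast (h0 : (0 : S) ∈ W 0)
    (hadd : ∀ b b' g g', g ∈ W b → g' ∈ W b' → g + g' ∈ W (b + b'))
    (hneg : ∀ b g, g ∈ W b → -g ∈ W (-b)) (n : ℤ) :
    ActsBy W ((n : Module.End ℂ S)) (n : k) := by
  induction n using Int.induction_on with
  | zero => simpa using ActsBy.zero h0
  | succ i ih =>
    rw [Int.cast_add, Int.cast_add, Int.cast_one, Int.cast_one]
    exact ih.add hadd ActsBy.one
  | pred i ih =>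
    rw [Int.cast_sub, Int.cast_sub, Int.cast_one, Int.cast_one, sub_eq_add_neg, sub_eq_add_neg]
    exact ih.add hadd (ActsBy.one.neg hneg)

/-- Every element of the algebra generated by `G` acts through a scalar. -/
theorem exists_actsBy_of_mem_adjoin (h0 : (0 : S) ∈ W 0)
    (hadd : ∀ b b' g g', g ∈ W b → g' ∈ W b' → g + g' ∈ W (b + b'))
    (hneg : ∀ b g, g ∈ W b → -g ∈ W (-b))
    {G : Set (Module.End ℂ S)} (hG : ∀ t ∈ G, ∃ c : k, ActsBy W t c)
    {t : Module.End ℂ S} (ht : t ∈ Algebra.adjoin ℤ G) : ∃ c : k, ActsBy W t c := by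
  induction ht using Algebra.adjoin_induction with
  | mem x hx => exact hG x hx
  | algebraMap r =>
    refine ⟨(r : k), ?_⟩
    have : (algebraMap ℤ (Module.End ℂ S)) r = (r : Module.End ℂ S) := rfl
    rw [this]
    exact ActsBy.intCast h0 hadd hneg r
  | add x y _ _ hx hy =>
    obtain ⟨c, hc⟩ := hx
    obtain ⟨c', hc'⟩ := hy
    exact ⟨c + c', hc.add hadd hc'⟩
  | mul x y _ _ hx hy =>
    obtain ⟨c, hc⟩ := hx
    obtain ⟨c', hc'⟩ := hy
    exact ⟨c * c', hc.mul hc'⟩

/-- **Abstract CHI0.** -/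
theorem exists_ringHom_actsBy (h0 : (0 : S) ∈ W 0)
    (hadd : ∀ b b' g g', g ∈ W b → g' ∈ W b' → g + g' ∈ W (b + b'))
    (hneg : ∀ b g, g ∈ W b → -g ∈ W (-b))
    (hsep : ∀ b b' g, g ∈ W b → g ∈ W b' → b = b') {g₀ : S} (hg₀ : g₀ ∈ W 1)
    {G : Set (Module.End ℂ S)} (hG : ∀ t ∈ G, ∃ c : k, ActsBy W t c) :
    ∃ χ : Algebra.adjoin ℤ G →+* k, ∀ t : Algebra.adjoin ℤ G, ActsBy W (t : Module.End ℂ S) (χ t) := by
  have key : ∀ t : Algebra.adjoin ℤ G, ∃ c : k, ActsBy W (t : Module.End ℂ S) c := fun t ↦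
    exists_actsBy_of_mem_adjoin h0 hadd hneg hG t.2
  choose χ hχ using key
  have huniq : ∀ (t : Algebra.adjoin ℤ G) (c : k), ActsBy W (t : Module.End ℂ S) c → χ t = c :=
    fun t c hc ↦ (hχ t).unique hsep hg₀ hc
  refine ⟨{ toFun := χ, map_one' := ?_, map_mul' := ?_, map_zero' := ?_, map_add' := ?_ }, hχ⟩
  · exact huniq 1 1 ActsBy.one
  · intro x y
    exact huniq (x * y) _ ((hχ x).mul (hχ y))
  · exact huniq 0 0 (ActsBy.zero h0)
  · intro x y
    exact huniq (x + y) _ ((hχ x).add hadd (hχ y))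

end

end Fermat.Agent.S48.H548
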