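import Mathlib
import Fermat.Prelude.Def_ModularForm_HeckeOperator

/-!
# S48 / P0 (helper548): coset computations for `T_p` on `Γ₁(N)`

Matrix identities `β_x * g = g' * β_{x'}` for the Hecke representatives
`β_j = [[1, j], [0, p]]`, `β_∞ = [[p, 0], [0, 1]]`, `x ∈ ℙ¹(𝔽_p)`, with control of the lower row
of `g'` modulo `N` (adapted from the Prelude proof of `heckeT_slash_eq_self_of_mem_Gamma0`,
which only tracks `g' 1 0`).
-/

set_option autoImplicit false

noncomputable section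

namespace Fermat.Agent.S48.H548

open Matrix.SpecialLinearGroup UpperHalfPlane ModularForm CongruenceSubgroup
open scoped MatrixGroups ModularForm OnePoint

theorem det_eq' (g : SL(2, ℤ)) : g 0 0 * g 1 1 - g 0 1 * g 1 0 = 1 := by
  have h := g.det_coe
  rwa [Matrix.det_fin_two] at h

theorem mapGL_apply' (g : SL(2, ℤ)) (i j : Fin 2) :
    (mapGL ℝ g : GL (Fin 2) ℝ) i j = ((g i j : ℤ) : ℝ) := by
  simp

/-! ### Membership in `Γ₁(N)` from the lower row -/

theorem mem_Gamma1_of_lower {N : ℕ} (g : SL(2, ℤ)) (h10 : ((g 1 0 : ℤ) : ZMod N) = 0)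
    (h11 : ((g 1 1 : ℤ) : ZMod N) = 1) : g ∈ Gamma1 N := by
  rw [Gamma1_mem]
  refine ⟨?_, h11, h10⟩
  have := congrArg (Int.cast : ℤ → ZMod N) (det_eq' g)
  push_cast at this
  rw [h10, h11] at this
  simpa using this

theorem Gamma1_le_Gamma0' (N : ℕ) : Gamma1 N ≤ Gamma0 N := fun g hg =>
  Gamma0_mem.mpr ((Gamma1_mem N g).mp hg).2.2

theorem lower_right_mul {N : ℕ} (a b : SL(2, ℤ)) (ha : a ∈ Gamma0 N) :
    (((a * b) 1 1 : ℤ) : ZMod N) = ((a 1 1 : ℤ) : ZMod N) * ((b 1 1 : ℤ) : ZMod N) := by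
  have h0 : ((a 1 0 : ℤ) : ZMod N) = 0 := Gamma0_mem.mp ha
  rw [Matrix.SpecialLinearGroup.coe_mul, Matrix.mul_apply, Fin.sum_univ_two]
  push_cast
  rw [h0, zero_mul, zero_add]

theorem lower_right_isUnit {N : ℕ} (a : SL(2, ℤ)) (ha : a ∈ Gamma0 N) :
    ((a 0 0 : ℤ) : ZMod N) * ((a 1 1 : ℤ) : ZMod N) = 1 := by
  have h0 : ((a 1 0 : ℤ) : ZMod N) = 0 := Gamma0_mem.mp ha
  have := congrArg (Int.cast : ℤ → ZMod N) (det_eq' a)
  push_cast at this
  rw [h0, mul_zero, sub_zero] at this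
  exact this

theorem lower_right_inv {N : ℕ} (a : SL(2, ℤ)) :
    (((a⁻¹) 1 1 : ℤ) : ZMod N) = ((a 0 0 : ℤ) : ZMod N) := by
  rw [Matrix.SpecialLinearGroup.coe_inv, Matrix.adjugate_fin_two]
  simp

/-- Two elements of `Γ₀(N)` with the same lower right entry mod `N` differ by `Γ₁(N)`. -/
theorem mul_inv_mem_Gamma1 {N : ℕ} (a b : SL(2, ℤ)) (ha : a ∈ Gamma0 N) (hb : b ∈ Gamma0 N)
    (h : ((a 1 1 : ℤ) : ZMod N) = ((b 1 1 : ℤ) : ZMod N)) : a * b⁻¹ ∈ Gamma1 N := by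
  apply mem_Gamma1_of_lower
  · exact Gamma0_mem.mp ((Gamma0 N).mul_mem ha ((Gamma0 N).inv_mem hb))
  · rw [lower_right_mul a b⁻¹ ha, lower_right_inv, h, mul_comm]
    exact lower_right_isUnit b hb

/-! ### Existence of representatives -/

/-- For `d` prime to `N` there is `σ ∈ Γ₀(N)` with lower row `(N, d)`. -/
theorem exists_Gamma0_lower (N d : ℕ) (h : Nat.Coprime d N) :
    ∃ σ : SL(2, ℤ), σ ∈ Gamma0 N ∧ σ 1 0 = (N : ℤ) ∧ σ 1 1 = (d : ℤ) := by
  have hcop : IsCoprime (d : ℤ) (N : ℤ) := Nat.isCoprime_iff_coprime.mpr h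
  obtain ⟨a, b, hab⟩ := hcop
  refine ⟨⟨!![a, -b; (N : ℤ), (d : ℤ)], ?_⟩, ?_, rfl, rfl⟩
  · rw [Matrix.det_fin_two_of]
    linear_combination hab
  · exact Gamma0_mem.mpr (by simp)

/-- For `d` prime to `N p` there is `τ ∈ Γ₀(N)` with lower row `(N p, d)`. -/
theorem exists_Gamma0_lower_dvd (N p d : ℕ) (h : Nat.Coprime d (N * p)) :
    ∃ τ : SL(2, ℤ), τ ∈ Gamma0 N ∧ τ 1 0 = (N : ℤ) * (p : ℤ) ∧ τ 1 1 = (d : ℤ) := by
  have hcop : IsCoprime (d : ℤ) ((N * p : ℕ) : ℤ) := Nat.isCoprime_iff_coprime.mpr h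
  obtain ⟨a, b, hab⟩ := hcop
  refine ⟨⟨!![a, -b; (N : ℤ) * (p : ℤ), (d : ℤ)], ?_⟩, ?_, rfl, rfl⟩
  · rw [Matrix.det_fin_two_of]
    push_cast at hab
    linear_combination hab
  · exact Gamma0_mem.mpr (by simp)

/-! ### Commutation of the Hecke representatives with `SL(2, ℤ)` -/

section commutation

variable {p : ℕ} (hp : p ≠ 0)
include hp

theorem heckeMatrix_mul_of_eq (g : SL(2, ℤ)) (j j' : ℕ) (e : ℤ)
    (he : g 0 1 + j * g 1 1 = j' * (g 0 0 + j * g 1 0) + p * e) :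
    ∃ g' : SL(2, ℤ), g' 1 0 = p * g 1 0 ∧ g' 1 1 = g 1 1 - g 1 0 * j' ∧
      heckeMatrix p j * mapGL ℝ g = mapGL ℝ g' * heckeMatrix p j' := by
  have hdet := det_eq' g
  refine ⟨⟨!![g 0 0 + j * g 1 0, e; p * g 1 0, g 1 1 - g 1 0 * j'], ?_⟩, rfl, rfl, ?_⟩
  · rw [Matrix.det_fin_two_of]
    linear_combination hdet + (g 1 0) * he
  · ext i j
    fin_cases i <;> fin_cases j <;>
      simp [hp, Matrix.mul_apply, Fin.sum_univ_two]
    all_goals first
      | (have := congrArg (Int.cast : ℤ → ℝ) he; push_cast at this ⊢; linear_combination this)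
      | (have := congrArg (Int.cast : ℤ → ℝ) he; push_cast at this ⊢; linear_combination -this)
      | ring1

theorem heckeMatrix_mul_of_eq' (g : SL(2, ℤ)) (j : ℕ) (e : ℤ)
    (he : g 0 0 + j * g 1 0 = p * e) :
    ∃ g' : SL(2, ℤ), g' 1 0 = g 1 0 ∧ g' 1 1 = p * g 1 1 ∧
      heckeMatrix p j * mapGL ℝ g = mapGL ℝ g' * heckeDiagMatrix p := by
  have hdet := det_eq' g
  refine ⟨⟨!![e, g 0 1 + j * g 1 1; g 1 0, p * g 1 1], ?_⟩, rfl, rfl, ?_⟩
  · rw [Matrix.det_fin_two_of]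
    linear_combination hdet - (g 1 1) * he
  · ext i j
    fin_cases i <;> fin_cases j <;>
      simp [hp, Matrix.mul_apply, Fin.sum_univ_two]
    all_goals first
      | (have := congrArg (Int.cast : ℤ → ℝ) he; push_cast at this ⊢; linear_combination this)
      | (have := congrArg (Int.cast : ℤ → ℝ) he; push_cast at this ⊢; linear_combination -this)
      | ring1

theorem heckeDiagMatrix_mul_of_eq (g : SL(2, ℤ)) (j' : ℕ) (e : ℤ)
    (he : g 1 1 = g 1 0 * j' + p * e) :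
    ∃ g' : SL(2, ℤ), g' 1 0 = g 1 0 ∧ g' 1 1 = e ∧
      heckeDiagMatrix p * mapGL ℝ g = mapGL ℝ g' * heckeMatrix p j' := by
  have hdet := det_eq' g
  refine ⟨⟨!![p * g 0 0, g 0 1 - g 0 0 * j'; g 1 0, e], ?_⟩, rfl, rfl, ?_⟩
  · rw [Matrix.det_fin_two_of]
    linear_combination hdet - (g 0 0) * he
  · ext i j
    fin_cases i <;> fin_cases j <;>
      simp [hp, Matrix.mul_apply, Fin.sum_univ_two]
    all_goals first
      | (have := congrArg (Int.cast : ℤ → ℝ) he; push_cast at this ⊢; linear_combination this)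
      | (have := congrArg (Int.cast : ℤ → ℝ) he; push_cast at this ⊢; linear_combination -this)
      | ring1

theorem heckeDiagMatrix_mul_of_eq' (g : SL(2, ℤ)) (e : ℤ) (he : g 1 0 = p * e) :
    ∃ g' : SL(2, ℤ), g' 1 0 = e ∧ g' 1 1 = g 1 1 ∧
      heckeDiagMatrix p * mapGL ℝ g = mapGL ℝ g' * heckeDiagMatrix p := by
  have hdet := det_eq' g
  refine ⟨⟨!![g 0 0, p * g 0 1; e, g 1 1], ?_⟩, rfl, rfl, ?_⟩
  · rw [Matrix.det_fin_two_of]
    linear_combination hdet + (g 0 1) * he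
  · ext i j
    fin_cases i <;> fin_cases j <;>
      simp [hp, Matrix.mul_apply, Fin.sum_univ_two]
    all_goals first
      | (have := congrArg (Int.cast : ℤ → ℝ) he; push_cast at this ⊢; linear_combination this)
      | (have := congrArg (Int.cast : ℤ → ℝ) he; push_cast at this ⊢; linear_combination -this)
      | ring1

end commutation

/-! ### The action on `ℙ¹(𝔽_p)` -/

section onePoint

variable {p : ℕ}

/-- The Hecke representatives indexed by `ℙ¹(𝔽_p)`. -/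
def heckeRep (p : ℕ) (x : OnePoint (ZMod p)) : GL (Fin 2) ℝ :=
  x.elim (heckeDiagMatrix p) (fun j ↦ heckeMatrix p j.val)

@[simp] theorem heckeRep_infty : heckeRep p ∞ = heckeDiagMatrix p := rfl

@[simp] theorem heckeRep_coe (j : ZMod p) : heckeRep p j = heckeMatrix p j.val := rfl

/-- The weight `w(∞) = 1`, `w(j) = p` keeping track of the lower right entry modulo `N`. -/
def wt (N p : ℕ) (x : OnePoint (ZMod p)) : ZMod N :=
  x.elim 1 (fun _ ↦ (p : ZMod N))

@[simp] theorem wt_infty (N : ℕ) : wt N p ∞ = 1 := rfl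

@[simp] theorem wt_coe (N : ℕ) (j : ZMod p) : wt N p j = (p : ZMod N) := rfl

theorem sum_range_eq_sum_zmod [NeZero p] {M : Type*} [AddCommMonoid M] (F : ℕ → M) :
    ∑ j ∈ Finset.range p, F j = ∑ x : ZMod p, F x.val := by
  refine Finset.sum_nbij' (fun j : ℕ ↦ (j : ZMod p)) (fun x : ZMod p ↦ x.val)
    (fun _ _ ↦ Finset.mem_univ _)
    (fun x _ ↦ Finset.mem_range.mpr x.val_lt) (fun j hj ↦ ?_) (fun x _ ↦ ?_) (fun j hj ↦ ?_)
  · exact ZMod.val_cast_of_lt (Finset.mem_range.mp hj)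
  · exact ZMod.natCast_zmod_val x
  · rw [ZMod.val_cast_of_lt (Finset.mem_range.mp hj)]

theorem heckeU_eq_sum_zmod [NeZero p] (k : ℤ) (f : ℍ → ℂ) :
    heckeU k p f = ∑ x : ZMod p, f ∣[k] heckeMatrix p x.val := by
  rw [heckeU_def]
  exact sum_range_eq_sum_zmod _

variable [Fact p.Prime]

variable (p) in
/-- The reduction mod `p` of `g`, twisted so that `β_x g = g' β_{redMatrix g • x}`. -/
def redMatrix (g : SL(2, ℤ)) : GL (Fin 2) (ZMod p) :=
  Matrix.GeneralLinearGroup.mkOfDetNeZero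
    !![((g 1 1 : ℤ) : ZMod p), ((g 0 1 : ℤ) : ZMod p); ((g 1 0 : ℤ) : ZMod p),
      ((g 0 0 : ℤ) : ZMod p)]
    (by
      have := congrArg (Int.cast : ℤ → ZMod p) (det_eq' g)
      push_cast at this
      rw [Matrix.det_fin_two_of,
        show ((g 1 1 : ℤ) : ZMod p) * ((g 0 0 : ℤ) : ZMod p)
            - ((g 0 1 : ℤ) : ZMod p) * ((g 1 0 : ℤ) : ZMod p) = 1 by linear_combination this]
      exact one_ne_zero)

@[simp] theorem redMatrix_apply_zero_zero (g : SL(2, ℤ)) :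
    redMatrix p g 0 0 = ((g 1 1 : ℤ) : ZMod p) := by
  simp [redMatrix]

@[simp] theorem redMatrix_apply_zero_one (g : SL(2, ℤ)) :
    redMatrix p g 0 1 = ((g 0 1 : ℤ) : ZMod p) := by
  simp [redMatrix]

@[simp] theorem redMatrix_apply_one_zero (g : SL(2, ℤ)) :
    redMatrix p g 1 0 = ((g 1 0 : ℤ) : ZMod p) := by
  simp [redMatrix]

@[simp] theorem redMatrix_apply_one_one (g : SL(2, ℤ)) :
    redMatrix p g 1 1 = ((g 0 0 : ℤ) : ZMod p) := by
  simp [redMatrix]

/-- `β_x g = g' β_{x'}` with `x' = redMatrix g • x`, `N ∣ g' 1 0` and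
`g' 1 1 * w(x') = g 1 1 * w(x)` modulo `N`. -/
theorem heckeRep_mul {N : ℕ} (hpN : ¬ p ∣ N) (g : SL(2, ℤ)) (hg : (N : ℤ) ∣ g 1 0)
    (x : OnePoint (ZMod p)) :
    ∃ g' : SL(2, ℤ), (N : ℤ) ∣ g' 1 0 ∧
      ((g' 1 1 : ℤ) : ZMod N) * wt N p (redMatrix p g • x) = ((g 1 1 : ℤ) : ZMod N) * wt N p x ∧
      heckeRep p x * mapGL ℝ g = mapGL ℝ g' * heckeRep p (redMatrix p g • x) := by
  have hp : p ≠ 0 := (Fact.out : p.Prime).ne_zero
  have : NeZero p := ⟨hp⟩
  have hg0 : ((g 1 0 : ℤ) : ZMod N) = 0 := (ZMod.intCast_zmod_eq_zero_iff_dvd _ _).mpr hg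
  induction x using OnePoint.rec with
  | infty =>
    rw [OnePoint.smul_infty_eq_ite]
    by_cases hc : ((g 1 0 : ℤ) : ZMod p) = 0
    · rw [if_pos (by simpa using hc), heckeRep_infty]
      obtain ⟨e, he⟩ := (ZMod.intCast_zmod_eq_zero_iff_dvd _ _).mp hc
      obtain ⟨g', hg', hg'1, hmul⟩ := heckeDiagMatrix_mul_of_eq' hp g e he
      refine ⟨g', ?_, ?_, hmul⟩
      · rw [hg']
        have hcop : IsCoprime (N : ℤ) (p : ℤ) :=
          Nat.isCoprime_iff_coprime.mpr ((Nat.Prime.coprime_iff_not_dvd Fact.out).mpr hpN).symm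
        exact hcop.dvd_of_dvd_mul_left (he ▸ hg)
      · rw [hg'1]
    · rw [if_neg (by simpa using hc), heckeRep_infty, heckeRep_coe]
      set y : ZMod p := redMatrix p g 0 0 / redMatrix p g 1 0 with hy
      obtain ⟨e, he⟩ : (p : ℤ) ∣ g 1 1 - g 1 0 * y.val := by
        rw [← ZMod.intCast_zmod_eq_zero_iff_dvd]
        push_cast
        rw [ZMod.natCast_zmod_val, hy, redMatrix_apply_zero_zero, redMatrix_apply_one_zero,
          mul_div_cancel₀ _ hc, sub_self]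
      obtain ⟨g', hg', hg'1, hmul⟩ :=
        heckeDiagMatrix_mul_of_eq hp g y.val e (by linear_combination he)
      refine ⟨g', hg' ▸ hg, ?_, hmul⟩
      rw [wt_coe, wt_infty, hg'1, mul_one]
      have := congrArg (Int.cast : ℤ → ZMod N) he
      push_cast at this
      rw [hg0, zero_mul, sub_zero] at this
      rw [this, mul_comm]
  | coe j =>
    rw [OnePoint.smul_some_eq_ite]
    by_cases h : redMatrix p g 1 0 * j + redMatrix p g 1 1 = 0
    · rw [if_pos h, heckeRep_infty, heckeRep_coe]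
      rw [redMatrix_apply_one_zero, redMatrix_apply_one_one] at h
      obtain ⟨e, he⟩ : (p : ℤ) ∣ g 0 0 + j.val * g 1 0 := by
        rw [← ZMod.intCast_zmod_eq_zero_iff_dvd]
        push_cast
        rw [ZMod.natCast_zmod_val]
        linear_combination h
      obtain ⟨g', hg', hg'1, hmul⟩ := heckeMatrix_mul_of_eq' hp g j.val e he
      refine ⟨g', hg' ▸ hg, ?_, hmul⟩
      rw [wt_coe, wt_infty, hg'1, mul_one]
      push_cast
      ring
    · rw [if_neg h, heckeRep_coe, heckeRep_coe]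
      set y : ZMod p := (redMatrix p g 0 0 * j + redMatrix p g 0 1) /
        (redMatrix p g 1 0 * j + redMatrix p g 1 1) with hy
      obtain ⟨e, he⟩ : (p : ℤ) ∣ g 0 1 + j.val * g 1 1 - y.val * (g 0 0 + j.val * g 1 0) := by
        rw [← ZMod.intCast_zmod_eq_zero_iff_dvd]
        push_cast
        rw [ZMod.natCast_zmod_val, ZMod.natCast_zmod_val,
          show ((g 0 0 : ℤ) : ZMod p) + j * ((g 1 0 : ℤ) : ZMod p)
            = redMatrix p g 1 0 * j + redMatrix p g 1 1 by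
              rw [redMatrix_apply_one_zero, redMatrix_apply_one_one]; ring,
          hy, div_mul_cancel₀ _ h, redMatrix_apply_zero_zero, redMatrix_apply_zero_one]
        ring
      obtain ⟨g', hg', hg'1, hmul⟩ :=
        heckeMatrix_mul_of_eq hp g j.val y.val e (by linear_combination he)
      refine ⟨g', hg' ▸ dvd_mul_of_dvd_right hg _, ?_, hmul⟩
      rw [wt_coe, wt_coe, hg'1]
      push_cast
      rw [hg0, zero_mul, sub_zero]

end onePoint

end Fermat.Agent.S48.H548
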