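import Mathlib
import Fermat.Prelude.Def_ModularForm_HeckeOperator
import Fermat.Prelude.Def_FLTPrelim_Modularity
import Fermat.Prelude.Thm_UpperHalfPlane_qCoeff_heckeU

/-!
# S48 / P0 (helper548): `q`-series of functions on the upper half plane

`HasQ F c` : `F τ = ∑ c n q^n` for all `τ` (`q = exp(2πiτ)`).  Nice functions (periodic,
holomorphic, bounded at `i∞`) have the `q`-series `qCoeff F`; `U_p` and `V_p = ∣ diag(p,1)` act
on `q`-series in the classical way (Prelude); a function is determined by its `q`-series.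
-/

set_option autoImplicit false

noncomputable section

namespace Fermat.Agent.S48.H548

open UpperHalfPlane ModularForm ModularFormClass Function
open scoped MatrixGroups ModularForm Manifold
open P2MW.S_UpperHalfPlane_qCoeff_heckeU

/-- `F` has the `q`-series `c`. -/
def HasQ (F : ℍ → ℂ) (c : ℕ → ℂ) : Prop :=
  ∀ τ : ℍ, HasSum (fun n : ℕ ↦ c n • Periodic.qParam 1 τ ^ n) (F τ)

/-- Periodic, holomorphic and bounded at `i∞`. -/
structure Nice (F : ℍ → ℂ) : Prop where
  per : Periodic (F ∘ ofComplex) 1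
  hol : MDiff F
  bdd : IsBoundedAtImInfty F

variable {F G : ℍ → ℂ} {c d : ℕ → ℂ}

theorem HasQ.add (hF : HasQ F c) (hG : HasQ G d) : HasQ (F + G) (fun n ↦ c n + d n) := by
  intro τ
  have := (hF τ).add (hG τ)
  simp only [← add_smul] at this
  exact this

theorem HasQ.sub (hF : HasQ F c) (hG : HasQ G d) : HasQ (F - G) (fun n ↦ c n - d n) := by
  intro τ
  have := (hF τ).sub (hG τ)
  simp only [← sub_smul] at this
  exact this

theorem HasQ.smul (a : ℂ) (hF : HasQ F c) : HasQ (a • F) (fun n ↦ a * c n) := by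
  intro τ
  simpa [mul_smul, smul_eq_mul, mul_assoc] using (hF τ).mul_left a

theorem HasQ.congr (hF : HasQ F c) (h : ∀ n, c n = d n) : HasQ F d := by
  have : c = d := funext h
  rwa [← this]

theorem HasQ.unique (hF : HasQ F c) (hG : HasQ G c) : F = G :=
  funext fun τ ↦ (hF τ).unique (hG τ)

theorem HasQ.eq_zero (hF : HasQ F c) (h : ∀ n, c n = 0) : F = 0 := by
  funext τ
  have := hF τ
  simp only [h, zero_smul] at this
  exact this.unique hasSum_zero

theorem Nice.hasQ (hF : Nice F) : HasQ F (qCoeff F) := fun τ ↦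
  hasSum_qExpansion one_pos hF.per hF.hol hF.bdd τ

theorem Nice.analyticAt (hF : Nice F) : AnalyticAt ℂ (cuspFunction 1 F) 0 :=
  analyticAt_cuspFunction_zero one_pos hF.per hF.hol hF.bdd

/-- The `q`-series of a nice function is unique. -/
theorem Nice.qCoeff_eq (hF : Nice F) (h : HasQ F c) (n : ℕ) : qCoeff F n = c n :=
  (M4cP1W2.qExpansion_coeff_unique' hF.hol.continuous hF.analyticAt h n).symm

theorem Nice.eq_zero_of_qCoeff (hF : Nice F) (h : ∀ n, qCoeff F n = 0) : F = 0 :=
  hF.hasQ.eq_zero h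

section Hecke

variable {p : ℕ} (hp : p ≠ 0) (k : ℤ)
include hp

theorem Nice.hasQ_heckeU (hF : Nice F) :
    HasQ (heckeU k p F) (fun n ↦ qCoeff F (n * p)) := fun τ ↦
  M4cP1W2.hasSum_heckeU hp hF.per hF.hol hF.bdd k τ

theorem Nice.hasQ_diag (hF : Nice F) :
    HasQ (F ∣[k] heckeDiagMatrix p)
      (fun n ↦ if p ∣ n then (p : ℂ) ^ (k - 1) * qCoeff F (n / p) else 0) := by
  intro τ
  rw [slash_heckeDiagMatrix_apply k hp]
  convert M4cP1W2.hasSum_diag hp hF.per hF.hol hF.bdd k τ using 2 with n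
  by_cases h : p ∣ n
  · simp only [if_pos h, smul_eq_mul]
  · simp only [if_neg h, zero_smul]

end Hecke

end Fermat.Agent.S48.H548
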