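import Fermat.Agent.S48.H548.Invariance
import Fermat.Agent.S48.H548.QSeries
import Fermat.Prelude.Def_ModularForm_HeckeOperatorForms

/-!
# S48 / P0 (helper548): diamond operators and `T_p` on `S_k(Γ₁(N))` (bundled)

* `mkCusp` : bundle a function into `CuspForm (Gamma1 N) k`;
* `dia a f` : `f ∣ a` for `a ∈ Γ₀(N)` (diamond operator);
* `Tp σ f` : `U_p f + (f ∣ σ) ∣ diag(p,1)` (Hecke operator, `σ ∈ Γ₀(N)` of class `p`).
-/

set_option autoImplicit false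

noncomputable section

namespace Fermat.Agent.S48.H548

open Matrix.SpecialLinearGroup UpperHalfPlane ModularForm CongruenceSubgroup ModularFormClass
open scoped MatrixGroups ModularForm OnePoint Manifold

variable {N : ℕ} {k : ℤ}

theorem one_mem_strictPeriods_Gamma1 (N : ℕ) :
    (1 : ℝ) ∈ ((Gamma1 N).map (mapGL ℝ)).strictPeriods := by
  simp [CongruenceSubgroup.strictPeriods_Gamma1]

theorem coe_inv1 (f : CuspForm (Gamma1 N) k) : Inv1 N k ⇑f := fun γ hγ ↦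
  SlashInvariantFormClass.slash_action_eq f _ (Subgroup.mem_map_of_mem (mapGL ℝ) hγ)

theorem coe_nice [NeZero N] (f : CuspForm (Gamma1 N) k) : Nice (⇑f : ℍ → ℂ) where
  per := SlashInvariantFormClass.periodic_comp_ofComplex f (one_mem_strictPeriods_Gamma1 N)
  hol := ModularFormClass.holo f
  bdd := ModularFormClass.bdd_at_infty f

theorem coe_qCoeff_zero [NeZero N] (f : CuspForm (Gamma1 N) k) : qCoeff (⇑f : ℍ → ℂ) 0 = 0 :=
  CuspFormClass.qExpansion_coeff_zero f one_pos (one_mem_strictPeriods_Gamma1 N)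

/-- Bundle a `Γ₁(N)`-invariant holomorphic function vanishing at the cusps. -/
def mkCusp (F : ℍ → ℂ) (hinv : Inv1 N k F) (hhol : MDiff F)
    (hzero : ∀ {c : OnePoint ℝ}, IsCusp c ((Gamma1 N).map (mapGL ℝ)) → c.IsZeroAt F k) :
    CuspForm (Gamma1 N) k where
  toFun := F
  slash_action_eq' := by
    rintro γ ⟨g, hg, rfl⟩
    exact hinv g hg
  holo' := hhol
  zero_at_cusps' := hzero

@[simp] theorem coe_mkCusp (F : ℍ → ℂ) (hinv : Inv1 N k F) (hhol : MDiff F)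
    (hzero : ∀ {c : OnePoint ℝ}, IsCusp c ((Gamma1 N).map (mapGL ℝ)) → c.IsZeroAt F k) :
    (⇑(mkCusp F hinv hhol hzero) : ℍ → ℂ) = F := rfl

theorem isZeroAt_sub {c : OnePoint ℝ} {F G : ℍ → ℂ} (hF : c.IsZeroAt F k)
    (hG : c.IsZeroAt G k) : c.IsZeroAt (F - G) k := by
  intro g hg
  rw [sub_eq_add_neg, SlashAction.add_slash, SlashAction.neg_slash]
  exact (hF g hg).add (hG g hg).neg

theorem isCusp_smul_mapGL [NeZero N] {c : OnePoint ℝ}
    (hc : IsCusp c ((Gamma1 N).map (mapGL ℝ))) (a : SL(2, ℤ)) :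
    IsCusp (mapGL ℝ a • c) ((Gamma1 N).map (mapGL ℝ)) := by
  rw [Subgroup.IsArithmetic.isCusp_iff_isCusp_SL2Z] at hc ⊢
  exact hc.smul_of_mem ⟨a, rfl⟩

/-- The diamond operator `f ↦ f ∣ a`, `a ∈ Γ₀(N)`. -/
def dia [NeZero N] (a : SL(2, ℤ)) (ha : a ∈ Gamma0 N) (f : CuspForm (Gamma1 N) k) :
    CuspForm (Gamma1 N) k :=
  mkCusp (⇑f ∣[k] mapGL ℝ a) ((coe_inv1 f).slash a ha) ((ModularFormClass.holo f).slash k _)
    (fun {_} hc ↦ OnePoint.IsZeroAt.smul_iff.mp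
      (CuspFormClass.zero_at_cusps f (isCusp_smul_mapGL hc a)))

@[simp] theorem coe_dia [NeZero N] (a : SL(2, ℤ)) (ha : a ∈ Gamma0 N)
    (f : CuspForm (Gamma1 N) k) : (⇑(dia a ha f) : ℍ → ℂ) = ⇑f ∣[k] mapGL ℝ a := rfl

section Tp

variable {p : ℕ} [Fact p.Prime] [NeZero N]

theorem diag_eq_heckeT_sub (k : ℤ) (p : ℕ) (F : ℍ → ℂ) :
    F ∣[k] heckeDiagMatrix p = heckeT k p F - heckeU k p F := by
  rw [heckeT_eq_heckeU_add, add_sub_cancel_left]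

/-- The Hecke operator `T_p` on `S_k(Γ₁(N))`, `p ∤ N`. -/
def Tp (hpN : ¬ p ∣ N) (σ : SL(2, ℤ)) (hσ : σ ∈ Gamma0 N)
    (hσp : ((σ 1 1 : ℤ) : ZMod N) = (p : ZMod N)) (f : CuspForm (Gamma1 N) k) :
    CuspForm (Gamma1 N) k :=
  mkCusp (heckeU k p ⇑f + (⇑f ∣[k] mapGL ℝ σ) ∣[k] heckeDiagMatrix p)
    ((coe_inv1 f).heckeT1 hpN σ hσ hσp)
    ((mdifferentiable_heckeU (ModularFormClass.holo f) k p).add
      (((ModularFormClass.holo f).slash k _).slash k _))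
    (fun {c} hc ↦ by
      refine (CuspFormClass.isZeroAt_heckeU f p hc).add ?_
      rw [← coe_dia σ hσ f, diag_eq_heckeT_sub]
      exact isZeroAt_sub (CuspFormClass.isZeroAt_heckeT (dia σ hσ f) p hc)
        (CuspFormClass.isZeroAt_heckeU (dia σ hσ f) p hc))

@[simp] theorem coe_Tp (hpN : ¬ p ∣ N) (σ : SL(2, ℤ)) (hσ : σ ∈ Gamma0 N)
    (hσp : ((σ 1 1 : ℤ) : ZMod N) = (p : ZMod N)) (f : CuspForm (Gamma1 N) k) :
    (⇑(Tp hpN σ hσ hσp f) : ℍ → ℂ) =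
      heckeU k p ⇑f + (⇑f ∣[k] mapGL ℝ σ) ∣[k] heckeDiagMatrix p := rfl

end Tp

end Fermat.Agent.S48.H548
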