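import Fermat.Agent.S29.H149.HCoh
import Fermat.Agent.S48.H548.Per1Transfer
import Fermat.Prelude.Def_ModularCurve_PeriodMap

/-!
# S48 / RES, node HCoh1 (helper548): `T_p` and `⟨a⟩` preserve parabolic homs on `Γ₁(M)`

`heckeHom1 p hpM A` (transfer) and `diaHom1 a ha A` (conjugation) map
`IsParabolicHom (Gamma1 M)` into itself, and preserve vanishing on elements of finite order.
(Port of S29 piece `HCoh` to `Γ₁(M)`; the generic factor-system lemmas are those of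
`S29/H149/HCoh.lean`.)
-/

set_option autoImplicit false
set_option linter.unusedSectionVars false

noncomputable section

namespace Fermat.Agent.S48.H548

open CongruenceSubgroup Matrix.SpecialLinearGroup ModularCurve.Period
open scoped MatrixGroups OnePoint

variable {M : ℕ} [NeZero M] {p : ℕ} [Fact p.Prime]

/-- The factor system of `T_p` on `Γ₁(M)`. -/
def fac1 (hpM : ¬ p ∣ M) (γ : Gamma1 M) (x : OnePoint (ZMod p)) :
    OnePoint (ZMod p) × Gamma1 M :=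
  (redMatrix p (γ : SL(2, ℤ)) • x, trf1 hpM γ x)

theorem isFactorSystem_fac1 (hpM : ¬ p ∣ M) :
    Fermat.Agent.S29.H149.HCoh_IsFactorSystem (fac1 (M := M) hpM) where
  one := fun x ↦ by
    simp [fac1, redMatrix_one548, trf1_one]
  mul := fun γ δ x ↦ by
    simp only [fac1, trf1_mul, Subgroup.coe_mul, redMatrix_mul548, mul_smul]

/-- Conjugate elements of `SL₂(ℤ)` (conjugate inside `GL₂(ℝ)`) have the same trace. -/
theorem trace_eq_of_mapGL_conj (g t : SL(2, ℤ)) (B : GL (Fin 2) ℝ)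
    (h : B * mapGL ℝ g = mapGL ℝ t * B) :
    (g : Matrix (Fin 2) (Fin 2) ℤ).trace = (t : Matrix (Fin 2) (Fin 2) ℤ).trace := by
  have h1 : mapGL ℝ t = B * mapGL ℝ g * B⁻¹ := by
    rw [h]; group
  have h2 : ((mapGL ℝ t : GL (Fin 2) ℝ) : Matrix (Fin 2) (Fin 2) ℝ).trace
      = ((mapGL ℝ g : GL (Fin 2) ℝ) : Matrix (Fin 2) (Fin 2) ℝ).trace := by
    rw [h1, Matrix.GeneralLinearGroup.coe_mul, Matrix.GeneralLinearGroup.coe_mul,
      Matrix.trace_mul_comm, ← Matrix.mul_assoc, ← Matrix.GeneralLinearGroup.coe_mul,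
      inv_mul_cancel, Matrix.GeneralLinearGroup.coe_one, Matrix.one_mul]
  have h3 : ∀ s : SL(2, ℤ), ((mapGL ℝ s : GL (Fin 2) ℝ) : Matrix (Fin 2) (Fin 2) ℝ).trace
      = (((s : Matrix (Fin 2) (Fin 2) ℤ).trace : ℤ) : ℝ) := by
    intro s
    simp [Matrix.trace_fin_two]
  rw [h3, h3] at h2
  exact_mod_cast h2.symm

theorem trace_sq_iff548 (t : ℤ) : t ^ 2 = 4 ↔ (t = 2 ∨ t = -2) := by
  constructor
  · intro h
    have h1 : (t - 2) * (t + 2) = 0 := by ring_nf; linarith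
    rcases mul_eq_zero.mp h1 with h2 | h2
    · left; linarith
    · right; linarith
  · rintro (h | h) <;> rw [h] <;> norm_num

theorem coe_pow548 (γ : Gamma1 M) (r : ℕ) :
    (((γ ^ r : Gamma1 M) : SL(2, ℤ)) : Matrix (Fin 2) (Fin 2) ℤ)
      = ((γ : SL(2, ℤ)) : Matrix (Fin 2) (Fin 2) ℤ) ^ r := by
  rw [Subgroup.coe_pow, Matrix.SpecialLinearGroup.coe_pow]

/-- **HCoh1 (Hecke).** `T_p` preserves parabolic homs on `Γ₁(M)`. -/
theorem isParabolicHom_heckeHom1 (hpM : ¬ p ∣ M) {A : Type*} [AddCommGroup A]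
    (c : Additive (Gamma1 M) →+ A) (hc : IsParabolicHom (Gamma1 M) c) :
    IsParabolicHom (Gamma1 M) (heckeHom1 p hpM A c) := by
  intro γ hγ
  rw [heckeHom1_apply]
  have hf := isFactorSystem_fac1 (M := M) hpM
  refine Fermat.Agent.S29.H149.HCoh_transfer_eq_zero hf
    (c := fun γ : Gamma1 M ↦ c (Additive.ofMul γ)) (fun γ δ ↦ by simp)
    (fun γ : Gamma1 M ↦ ((γ : SL(2, ℤ)) : Matrix (Fin 2) (Fin 2) ℤ).trace ^ 2 = 4)
    (fun γ h ↦ hc γ h) ?_ γ hγ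
  intro γ hγ r _ x hx
  have h1 := trf1_spec hpM (γ ^ r) x
  have hx' : redMatrix p ((γ ^ r : Gamma1 M) : SL(2, ℤ)) • x = x := hx
  rw [hx'] at h1
  have h2 := trace_eq_of_mapGL_conj _ _ _ h1
  show (((trf1 hpM (γ ^ r) x : Gamma1 M) : SL(2, ℤ)) : Matrix (Fin 2) (Fin 2) ℤ).trace ^ 2 = 4
  rw [← h2, coe_pow548, trace_sq_iff548]
  exact Fermat.Agent.S29.H149.HCoh_trace_pow (γ : SL(2, ℤ)).2 ((trace_sq_iff548 _).mp hγ) r

/-- **HCoh1 (Hecke, finite order).** `T_p` preserves vanishing on elements of finite order. -/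
theorem heckeHom1_finOrder (hpM : ¬ p ∣ M) {A : Type*} [AddCommGroup A]
    (c : Additive (Gamma1 M) →+ A)
    (hc : ∀ γ : Gamma1 M, IsOfFinOrder γ → c (Additive.ofMul γ) = 0)
    (γ : Gamma1 M) (hγ : IsOfFinOrder γ) :
    heckeHom1 p hpM A c (Additive.ofMul γ) = 0 := by
  rw [heckeHom1_apply]
  have hf := isFactorSystem_fac1 (M := M) hpM
  refine Fermat.Agent.S29.H149.HCoh_transfer_eq_zero hf
    (c := fun γ : Gamma1 M ↦ c (Additive.ofMul γ)) (fun γ δ ↦ by simp)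
    (fun γ : Gamma1 M ↦ IsOfFinOrder γ) hc ?_ γ hγ
  intro γ hγ r _ x hx
  obtain ⟨n, hn, hγn⟩ := isOfFinOrder_iff_pow_eq_one.mp hγ
  exact isOfFinOrder_iff_pow_eq_one.mpr
    ⟨n, hn, Fermat.Agent.S29.H149.HCoh_finite_order_closed hf γ n hγn r x hx⟩

/-- **HCoh1 (diamond).** `⟨a⟩` preserves parabolic homs on `Γ₁(M)`. -/
theorem isParabolicHom_diaHom1 (a : SL(2, ℤ)) (ha : a ∈ Gamma0 M) {A : Type*} [AddCommGroup A]
    (c : Additive (Gamma1 M) →+ A) (hc : IsParabolicHom (Gamma1 M) c) :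
    IsParabolicHom (Gamma1 M) (diaHom1 a ha A c) := by
  intro γ hγ
  rw [diaHom1_apply]
  apply hc
  rw [coe_conj1]
  have h : (a * (γ : SL(2, ℤ)) * a⁻¹ : SL(2, ℤ)).1.trace
      = ((γ : SL(2, ℤ)) : Matrix (Fin 2) (Fin 2) ℤ).trace := by
    have h1 : ((a * (γ : SL(2, ℤ)) * a⁻¹ : SL(2, ℤ)) : Matrix (Fin 2) (Fin 2) ℤ)
        = (a : Matrix (Fin 2) (Fin 2) ℤ) * ((γ : SL(2, ℤ)) : Matrix (Fin 2) (Fin 2) ℤ)
          * ((a⁻¹ : SL(2, ℤ)) : Matrix (Fin 2) (Fin 2) ℤ) := by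
      simp only [Matrix.SpecialLinearGroup.coe_mul]
    rw [h1, Matrix.trace_mul_comm, ← Matrix.mul_assoc, ← Matrix.SpecialLinearGroup.coe_mul,
      inv_mul_cancel, Matrix.SpecialLinearGroup.coe_one, Matrix.one_mul]
  rw [h]
  exact hγ

/-- **HCoh1 (diamond, finite order).** -/
theorem diaHom1_finOrder (a : SL(2, ℤ)) (ha : a ∈ Gamma0 M) {A : Type*} [AddCommGroup A]
    (c : Additive (Gamma1 M) →+ A)
    (hc : ∀ γ : Gamma1 M, IsOfFinOrder γ → c (Additive.ofMul γ) = 0)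
    (γ : Gamma1 M) (hγ : IsOfFinOrder γ) :
    diaHom1 a ha A c (Additive.ofMul γ) = 0 := by
  rw [diaHom1_apply]
  exact hc _ ((conj1 a ha).isOfFinOrder hγ)

end Fermat.Agent.S48.H548
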