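import Fermat.Agent.S48.H548.Per1Transfer

/-!
# S48 / RES (helper548): `T_p` and the diamond operators commute on `Hom(Γ₁(M), A)`

`heckeHom1_diaHom1_comm : diaHom1 a (heckeHom1 p φ) = heckeHom1 p (diaHom1 a φ)` for every
`a ∈ Γ₀(M)`, every prime `p ∤ M` and every coefficient group `A`.  Pure group theory:
`heckeRep1 x * a = w_x * heckeRep1 (a • x)` with `w_x ∈ Γ₀(M)`, `(w_x)₁₁ ≡ a₁₁` (`trf0`), hence
`trf1 (a γ a⁻¹) x = w_x * trf1 γ (a • x) * w_{(aγa⁻¹) • x}⁻¹`, and the `w`'s telescope.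
-/

set_option autoImplicit false
set_option linter.unusedSectionVars false

noncomputable section

namespace Fermat.Agent.S48.H548

open CongruenceSubgroup Matrix.SpecialLinearGroup UpperHalfPlane ModularForm
open scoped MatrixGroups OnePoint

variable {M : ℕ} [NeZero M] {p : ℕ} [Fact p.Prime]

/-- `heckeRep1 x * a = w * heckeRep1 (a • x)` with `w ∈ Γ₀(M)`, `w₁₁ ≡ a₁₁`. -/
theorem exists_trf0 (hpM : ¬ p ∣ M) (a : SL(2, ℤ)) (ha : a ∈ Gamma0 M) (x : OnePoint (ZMod p)) :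
    ∃ w : SL(2, ℤ), w ∈ Gamma0 M ∧ ((w 1 1 : ℤ) : ZMod M) = ((a 1 1 : ℤ) : ZMod M) ∧
      heckeRep1 hpM x * mapGL ℝ a = mapGL ℝ w * heckeRep1 hpM (redMatrix p a • x) := by
  have haN : (M : ℤ) ∣ a 1 0 := (ZMod.intCast_zmod_eq_zero_iff_dvd _ _).mp (Gamma0_mem.mp ha)
  obtain ⟨g', hg'N, hw, hmul⟩ := heckeRep_mul hpM a haN x
  have hg'0 : g' ∈ Gamma0 M := Gamma0_mem.mpr ((ZMod.intCast_zmod_eq_zero_iff_dvd _ _).mpr hg'N)
  set x' := redMatrix p a • x with hx'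
  have hmem0 : sigTw hpM x * g' * (sigTw hpM x')⁻¹ ∈ Gamma0 M :=
    (Gamma0 M).mul_mem ((Gamma0 M).mul_mem (sigTw_mem hpM x) hg'0)
      ((Gamma0 M).inv_mem (sigTw_mem hpM x'))
  refine ⟨sigTw hpM x * g' * (sigTw hpM x')⁻¹, hmem0, ?_, ?_⟩
  · rw [lower_right_mul _ _ ((Gamma0 M).mul_mem (sigTw_mem hpM x) hg'0),
      lower_right_mul _ _ (sigTw_mem hpM x), lower_right_inv]
    have h1 := sigTw_lower_mul_wt hpM x
    have h2 := sigTw_lower_mul_wt hpM x'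
    have h3 := lower_right_isUnit (sigTw hpM x') (sigTw_mem hpM x')
    have hu := wt_isUnit hpM x
    have hu' := wt_isUnit hpM x'
    have hs' : IsUnit (((sigTw hpM x') 1 1 : ℤ) : ZMod M) :=
      IsUnit.of_mul_eq_one _ (by rw [mul_comm]; exact h3)
    apply ((hu.mul hu').mul hs').mul_left_injective
    show _ * (wt M p x * wt M p x' * (((sigTw hpM x') 1 1 : ℤ) : ZMod M))
      = _ * (wt M p x * wt M p x' * (((sigTw hpM x') 1 1 : ℤ) : ZMod M))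
    calc (((sigTw hpM x) 1 1 : ℤ) : ZMod M) * ((g' 1 1 : ℤ) : ZMod M)
            * (((sigTw hpM x') 0 0 : ℤ) : ZMod M)
            * (wt M p x * wt M p x' * (((sigTw hpM x') 1 1 : ℤ) : ZMod M))
        = ((((sigTw hpM x) 1 1 : ℤ) : ZMod M) * wt M p x)
            * (((g' 1 1 : ℤ) : ZMod M) * wt M p x')
            * ((((sigTw hpM x') 0 0 : ℤ) : ZMod M) * (((sigTw hpM x') 1 1 : ℤ) : ZMod M)) := by
          ring
      _ = (p : ZMod M) * (((a 1 1 : ℤ) : ZMod M) * wt M p x) := by rw [h1, hw, h3, mul_one]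
      _ = ((a 1 1 : ℤ) : ZMod M) * wt M p x
            * ((((sigTw hpM x') 1 1 : ℤ) : ZMod M) * wt M p x') := by rw [h2]; ring
      _ = _ := by ring
  · show mapGL ℝ (sigTw hpM x) * heckeRep p x * mapGL ℝ a =
      mapGL ℝ (sigTw hpM x * g' * (sigTw hpM x')⁻¹) * (mapGL ℝ (sigTw hpM x') * heckeRep p x')
    rw [mul_assoc, hmul, map_mul, map_mul, map_inv]
    group

/-- The `Γ₀(M)`-transfer element: `heckeRep1 x * a = trf0 a x * heckeRep1 (a • x)`. -/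
def trf0 (hpM : ¬ p ∣ M) (a : SL(2, ℤ)) (ha : a ∈ Gamma0 M) (x : OnePoint (ZMod p)) : SL(2, ℤ) :=
  (exists_trf0 hpM a ha x).choose

theorem trf0_mem (hpM : ¬ p ∣ M) (a : SL(2, ℤ)) (ha : a ∈ Gamma0 M) (x : OnePoint (ZMod p)) :
    trf0 hpM a ha x ∈ Gamma0 M := (exists_trf0 hpM a ha x).choose_spec.1

theorem trf0_lower (hpM : ¬ p ∣ M) (a : SL(2, ℤ)) (ha : a ∈ Gamma0 M) (x : OnePoint (ZMod p)) :
    (((trf0 hpM a ha x) 1 1 : ℤ) : ZMod M) = ((a 1 1 : ℤ) : ZMod M) :=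
  (exists_trf0 hpM a ha x).choose_spec.2.1

theorem trf0_spec (hpM : ¬ p ∣ M) (a : SL(2, ℤ)) (ha : a ∈ Gamma0 M) (x : OnePoint (ZMod p)) :
    heckeRep1 hpM x * mapGL ℝ a = mapGL ℝ (trf0 hpM a ha x) * heckeRep1 hpM (redMatrix p a • x) :=
  (exists_trf0 hpM a ha x).choose_spec.2.2

/-- `u_x = a⁻¹ w_x ∈ Γ₁(M)`. -/
def trfU (hpM : ¬ p ∣ M) (a : SL(2, ℤ)) (ha : a ∈ Gamma0 M) (x : OnePoint (ZMod p)) : Gamma1 M :=
  ⟨a⁻¹ * trf0 hpM a ha x, by
    have h := mul_inv_mem_Gamma1 (trf0 hpM a ha x)⁻¹ a⁻¹ ((Gamma0 M).inv_mem (trf0_mem hpM a ha x))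
      ((Gamma0 M).inv_mem ha)
      (by rw [lower_right_inv, lower_right_inv]
          have h1 := lower_right_isUnit a ha
          have h2 := lower_right_isUnit _ (trf0_mem hpM a ha x)
          rw [trf0_lower] at h2
          have hu : IsUnit (((a 1 1 : ℤ) : ZMod M)) :=
            IsUnit.of_mul_eq_one _ (by rw [mul_comm]; exact h1)
          exact hu.mul_left_injective (h2.trans h1.symm))
    rw [inv_inv] at h
    have h' := (Gamma1 M).inv_mem h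
    simpa [mul_inv_rev] using h'⟩

@[simp] theorem coe_trfU (hpM : ¬ p ∣ M) (a : SL(2, ℤ)) (ha : a ∈ Gamma0 M)
    (x : OnePoint (ZMod p)) :
    ((trfU hpM a ha x : Gamma1 M) : SL(2, ℤ)) = a⁻¹ * trf0 hpM a ha x := rfl

theorem redMatrix_conj548 (a g : SL(2, ℤ)) (x : OnePoint (ZMod p)) :
    redMatrix p a • redMatrix p (a * g * a⁻¹) • x = redMatrix p g • redMatrix p a • x := by
  rw [← mul_smul, ← mul_smul, redMatrix_mul548, redMatrix_mul548, ← mul_assoc, ← mul_assoc,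
    ← redMatrix_mul548, inv_mul_cancel, redMatrix_one548, one_mul]

/-- The transfer of a conjugate: `trf1 (a γ a⁻¹) x = a (u_x · trf1 γ (a • x) · u_{x'}⁻¹) a⁻¹`,
`x' = (a γ a⁻¹) • x`. -/
theorem trf1_conj1 (hpM : ¬ p ∣ M) (a : SL(2, ℤ)) (ha : a ∈ Gamma0 M) (γ : Gamma1 M)
    (x : OnePoint (ZMod p)) :
    trf1 hpM (conj1 a ha γ) x
      = conj1 a ha (trfU hpM a ha x * trf1 hpM γ (redMatrix p a • x)
          * (trfU hpM a ha (redMatrix p ((conj1 a ha γ : Gamma1 M) : SL(2, ℤ)) • x))⁻¹) := by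
  symm
  apply trf1_unique
  set x' := redMatrix p ((conj1 a ha γ : Gamma1 M) : SL(2, ℤ)) • x with hx'
  have h1 := trf0_spec hpM a ha x
  have h2 := trf1_spec hpM γ (redMatrix p a • x)
  have h3 := trf0_spec hpM a ha x'
  have h4 : redMatrix p a • x' = redMatrix p (γ : SL(2, ℤ)) • redMatrix p a • x := by
    rw [hx', coe_conj1]
    exact redMatrix_conj548 a (γ : SL(2, ℤ)) x
  rw [h4] at h3
  -- `heckeRep1 (γ • a • x) = w_{x'}⁻¹ * heckeRep1 x' * a`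
  have h5 : heckeRep1 hpM (redMatrix p (γ : SL(2, ℤ)) • redMatrix p a • x)
      = (mapGL ℝ (trf0 hpM a ha x'))⁻¹ * heckeRep1 hpM x' * mapGL ℝ a := by
    rw [mul_assoc, h3]
    group
  have hco : ((conj1 a ha (trfU hpM a ha x * trf1 hpM γ (redMatrix p a • x)
      * (trfU hpM a ha x')⁻¹) : Gamma1 M) : SL(2, ℤ))
      = trf0 hpM a ha x * ((trf1 hpM γ (redMatrix p a • x) : Gamma1 M) : SL(2, ℤ))
          * (trf0 hpM a ha x')⁻¹ := by
    rw [coe_conj1]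
    simp only [Subgroup.coe_mul, Subgroup.coe_inv, coe_trfU]
    group
  rw [hco, coe_conj1]
  calc heckeRep1 hpM x * mapGL ℝ (a * (γ : SL(2, ℤ)) * a⁻¹)
      = (heckeRep1 hpM x * mapGL ℝ a) * mapGL ℝ (γ : SL(2, ℤ)) * (mapGL ℝ a)⁻¹ := by
        rw [map_mul, map_mul, map_inv]
        group
    _ = mapGL ℝ (trf0 hpM a ha x) * (heckeRep1 hpM (redMatrix p a • x) * mapGL ℝ (γ : SL(2, ℤ)))
          * (mapGL ℝ a)⁻¹ := by
        rw [h1]
        group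
    _ = mapGL ℝ (trf0 hpM a ha x)
          * (mapGL ℝ ((trf1 hpM γ (redMatrix p a • x) : Gamma1 M) : SL(2, ℤ))
            * ((mapGL ℝ (trf0 hpM a ha x'))⁻¹ * heckeRep1 hpM x' * mapGL ℝ a))
          * (mapGL ℝ a)⁻¹ := by
        rw [h2, h5]
    _ = _ := by
        rw [map_mul, map_mul, map_inv]
        group

/-- **`T_p` commutes with the diamond operators** on `Hom(Γ₁(M), A)`. -/
theorem heckeHom1_diaHom1_comm (hpM : ¬ p ∣ M) (a : SL(2, ℤ)) (ha : a ∈ Gamma0 M)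
    {A : Type*} [AddCommGroup A] (φ : Additive (Gamma1 M) →+ A) :
    diaHom1 a ha A (heckeHom1 p hpM A φ) = heckeHom1 p hpM A (diaHom1 a ha A φ) := by
  refine AddMonoidHom.ext fun γ ↦ ?_
  obtain ⟨γ, rfl⟩ : ∃ γ' : Gamma1 M, Additive.ofMul γ' = γ := ⟨Additive.toMul γ, rfl⟩
  rw [diaHom1_apply, heckeHom1_apply, heckeHom1_apply]
  set ψ := diaHom1 a ha A φ with hψ
  have key : ∀ x : OnePoint (ZMod p), φ (Additive.ofMul (trf1 hpM (conj1 a ha γ) x))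
      = ψ (Additive.ofMul (trfU hpM a ha x))
        + ψ (Additive.ofMul (trf1 hpM γ (redMatrix p a • x)))
        - ψ (Additive.ofMul (trfU hpM a ha (permOf1 (conj1 a ha γ) x))) := by
    intro x
    rw [trf1_conj1 hpM a ha γ x, ← diaHom1_apply a ha φ, ← hψ]
    rw [ofMul_mul, ofMul_mul, ofMul_inv, map_add, map_add, map_neg, ← sub_eq_add_neg]
    rfl
  simp only [key, Finset.sum_add_distrib, Finset.sum_sub_distrib]
  rw [Equiv.sum_comp (permOf1 (conj1 a ha γ)) (fun y ↦ ψ (Additive.ofMul (trfU hpM a ha y)))]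
  have hperm : ∑ x : OnePoint (ZMod p), ψ (Additive.ofMul (trf1 hpM γ (redMatrix p a • x)))
      = ∑ y : OnePoint (ZMod p), ψ (Additive.ofMul (trf1 hpM γ y)) :=
    Equiv.sum_comp (MulAction.toPerm (redMatrix p a))
      (fun y ↦ ψ (Additive.ofMul (trf1 hpM γ y)))
  rw [hperm]
  abel

/-! ### Elementary properties of the diamond operators on `Hom(Γ₁(M), A)` -/

/-- Inner automorphisms act trivially on `Hom(Γ₁(M), A)`. -/
theorem diaHom1_of_mem_Gamma1 (u : SL(2, ℤ)) (hu : u ∈ Gamma1 M) {A : Type*} [AddCommGroup A]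
    (φ : Additive (Gamma1 M) →+ A) :
    diaHom1 u (Gamma1_le_Gamma0' M hu) A φ = φ := by
  refine AddMonoidHom.ext fun γ ↦ ?_
  obtain ⟨γ, rfl⟩ : ∃ γ' : Gamma1 M, Additive.ofMul γ' = γ := ⟨Additive.toMul γ, rfl⟩
  rw [diaHom1_apply]
  have h : conj1 u (Gamma1_le_Gamma0' M hu) γ = (⟨u, hu⟩ : Gamma1 M) * γ * (⟨u, hu⟩ : Gamma1 M)⁻¹ :=
    Subtype.ext rfl
  rw [h, ofMul_mul, ofMul_mul, ofMul_inv, map_add, map_add, map_neg]
  abel

theorem diaHom1_mul (a b : SL(2, ℤ)) (ha : a ∈ Gamma0 M) (hb : b ∈ Gamma0 M)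
    {A : Type*} [AddCommGroup A] (φ : Additive (Gamma1 M) →+ A) :
    diaHom1 (a * b) ((Gamma0 M).mul_mem ha hb) A φ = diaHom1 b hb A (diaHom1 a ha A φ) := by
  refine AddMonoidHom.ext fun γ ↦ ?_
  obtain ⟨γ, rfl⟩ : ∃ γ' : Gamma1 M, Additive.ofMul γ' = γ := ⟨Additive.toMul γ, rfl⟩
  rw [diaHom1_apply, diaHom1_apply, diaHom1_apply]
  congr 2
  apply Subtype.ext
  simp only [coe_conj1]
  group

/-- `diaHom1 a` only depends on the lower right entry of `a` modulo `M`. -/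
theorem diaHom1_congr (a b : SL(2, ℤ)) (ha : a ∈ Gamma0 M) (hb : b ∈ Gamma0 M)
    (h : ((a 1 1 : ℤ) : ZMod M) = ((b 1 1 : ℤ) : ZMod M))
    {A : Type*} [AddCommGroup A] (φ : Additive (Gamma1 M) →+ A) :
    diaHom1 a ha A φ = diaHom1 b hb A φ := by
  have hu : a * b⁻¹ ∈ Gamma1 M := mul_inv_mem_Gamma1 a b ha hb h
  have h1 := diaHom1_mul (a * b⁻¹) b (Gamma1_le_Gamma0' M hu) hb φ
  rw [diaHom1_of_mem_Gamma1 _ hu φ] at h1
  rw [← h1]
  congr 1
  group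

/-- The diamond operators commute with each other. -/
theorem diaHom1_comm (a b : SL(2, ℤ)) (ha : a ∈ Gamma0 M) (hb : b ∈ Gamma0 M)
    {A : Type*} [AddCommGroup A] (φ : Additive (Gamma1 M) →+ A) :
    diaHom1 a ha A (diaHom1 b hb A φ) = diaHom1 b hb A (diaHom1 a ha A φ) := by
  rw [← diaHom1_mul b a hb ha φ, ← diaHom1_mul a b ha hb φ]
  apply diaHom1_congr
  rw [lower_right_mul _ _ hb, lower_right_mul _ _ ha, mul_comm]

/-- `diaHom1 a⁻¹` is inverse to `diaHom1 a`. -/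
theorem diaHom1_inv_apply (a : SL(2, ℤ)) (ha : a ∈ Gamma0 M)
    {A : Type*} [AddCommGroup A] (φ : Additive (Gamma1 M) →+ A) :
    diaHom1 a⁻¹ ((Gamma0 M).inv_mem ha) A (diaHom1 a ha A φ) = φ := by
  rw [← diaHom1_mul a a⁻¹ ha ((Gamma0 M).inv_mem ha) φ]
  have h := diaHom1_of_mem_Gamma1 (M := M) (a * a⁻¹) (by rw [mul_inv_cancel]; exact (Gamma1 M).one_mem) φ
  exact h

end Fermat.Agent.S48.H548
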