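import Fermat.Agent.S48.H548.Forms
import Fermat.Prelude.Thm_ModularForm_sturm_bound_of_isArithmetic

/-!
# S48 / P0 (helper548): `V_p`-injectivity modulo `S_k(Γ₁(N))`

If `h ∈ S_k(Γ₁(N))`, `p ∤ N` prime, and `V_p h = h ∣ diag(p,1)` is again in `S_k(Γ₁(N))`,
then `h = 0`.

Proof: the set `W` of such `h` is stable under `h ↦ V_p h` (uses `T_p` and the diamond
operators), so `V_p^m h ∈ S_k(Γ₁(N))` for all `m`; its `q`-expansion has order `≥ p^m`, which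
exceeds the Sturm bound for `m` large.
-/

set_option autoImplicit false
set_option linter.unusedSectionVars false
set_option linter.deprecated false

noncomputable section

namespace Fermat.Agent.S48.H548

open Matrix.SpecialLinearGroup UpperHalfPlane ModularForm CongruenceSubgroup ModularFormClass
open scoped MatrixGroups ModularForm OnePoint Manifold

variable {N : ℕ} [NeZero N] {k : ℤ} {p : ℕ} [Fact p.Prime]

/-- `q`-coefficients of `g = V_p h`. -/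
theorem qCoeff_of_coe_eq_diag (h g : CuspForm (Gamma1 N) k)
    (hg : (⇑g : ℍ → ℂ) = ⇑h ∣[k] heckeDiagMatrix p) (n : ℕ) :
    qCoeff (⇑g : ℍ → ℂ) n =
      if p ∣ n then (p : ℂ) ^ (k - 1) * qCoeff (⇑h : ℍ → ℂ) (n / p) else 0 := by
  have hp : p ≠ 0 := (Fact.out : p.Prime).ne_zero
  refine (coe_nice g).qCoeff_eq
    (c := fun n ↦ if p ∣ n then (p : ℂ) ^ (k - 1) * qCoeff (⇑h : ℍ → ℂ) (n / p) else 0) ?_ n
  rw [hg]
  exact (coe_nice h).hasQ_diag hp k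

theorem zpow_ne_zero' (k : ℤ) : ((p : ℂ) ^ (k - 1)) ≠ 0 :=
  zpow_ne_zero _ (by exact_mod_cast (Fact.out : p.Prime).ne_zero)

/-- `U_p V_p = p^{k-1}`. -/
theorem heckeU_of_coe_eq_diag (h g : CuspForm (Gamma1 N) k)
    (hg : (⇑g : ℍ → ℂ) = ⇑h ∣[k] heckeDiagMatrix p) :
    heckeU k p (⇑g : ℍ → ℂ) = ((p : ℂ) ^ (k - 1)) • (⇑h : ℍ → ℂ) := by
  have hp : p ≠ 0 := (Fact.out : p.Prime).ne_zero
  refine HasQ.unique ((coe_nice g).hasQ_heckeU hp k) (((coe_nice h).hasQ.smul _).congr ?_)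
  intro n
  rw [qCoeff_of_coe_eq_diag h g hg, if_pos (dvd_mul_left p n),
    Nat.mul_div_cancel n (Fact.out : p.Prime).pos]

/-- (★) if `g = V_p h` then `V_p (⟨p⟩ g)` is a cusp form on `Γ₁(N)`. -/
theorem exists_coe_eq_diag_dia (hpN : ¬ p ∣ N) (h g : CuspForm (Gamma1 N) k)
    (hg : (⇑g : ℍ → ℂ) = ⇑h ∣[k] heckeDiagMatrix p) (σ : SL(2, ℤ)) (hσ : σ ∈ Gamma0 N)
    (hσp : ((σ 1 1 : ℤ) : ZMod N) = (p : ZMod N)) :
    ∃ g' : CuspForm (Gamma1 N) k,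
      (⇑g' : ℍ → ℂ) = (⇑g ∣[k] mapGL ℝ σ) ∣[k] heckeDiagMatrix p := by
  refine ⟨Tp hpN σ hσ hσp g - ((p : ℂ) ^ (k - 1)) • h, ?_⟩
  rw [CuspForm.coe_sub, coe_Tp, CuspForm.IsGLPos.coe_smul, heckeU_of_coe_eq_diag h g hg]
  abel

/-- `diag(p,1)` commutes with `τ ∈ Γ₀(N)`, `p ∣ τ 1 0`, up to an element of `Γ₀(N)`. -/
theorem exists_diag_comm (hpN : ¬ p ∣ N) (τ : SL(2, ℤ)) (hτ : τ ∈ Gamma0 N)
    (hτp : (p : ℤ) ∣ τ 1 0) :
    ∃ τ' : SL(2, ℤ), τ' ∈ Gamma0 N ∧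
      heckeDiagMatrix p * mapGL ℝ τ = mapGL ℝ τ' * heckeDiagMatrix p := by
  have hp : p ≠ 0 := (Fact.out : p.Prime).ne_zero
  obtain ⟨e, he⟩ := hτp
  obtain ⟨τ', hτ'0, -, hmul⟩ := heckeDiagMatrix_mul_of_eq' hp τ e he
  refine ⟨τ', Gamma0_mem.mpr ((ZMod.intCast_zmod_eq_zero_iff_dvd _ _).mpr ?_), hmul⟩
  rw [hτ'0]
  have hτN : (N : ℤ) ∣ τ 1 0 := (ZMod.intCast_zmod_eq_zero_iff_dvd _ _).mp (Gamma0_mem.mp hτ)
  have hcop : IsCoprime (N : ℤ) (p : ℤ) :=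
    Nat.isCoprime_iff_coprime.mpr ((Nat.Prime.coprime_iff_not_dvd Fact.out).mpr hpN).symm
  exact hcop.dvd_of_dvd_mul_left (he ▸ hτN)

/-- Existence of `τ ∈ Γ₀(N)` with `p ∣ τ 1 0` and `τ 1 1 * p ≡ 1 mod N`. -/
theorem exists_inv_rep (hpN : ¬ p ∣ N) :
    ∃ τ : SL(2, ℤ), τ ∈ Gamma0 N ∧ (p : ℤ) ∣ τ 1 0 ∧
      ((τ 1 1 : ℤ) : ZMod N) * (p : ZMod N) = 1 := by
  have hpu : IsUnit ((p : ℕ) : ZMod N) :=
    (ZMod.isUnit_iff_coprime p N).mpr ((Nat.Prime.coprime_iff_not_dvd Fact.out).mpr hpN)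
  obtain ⟨u, hu⟩ := hpu
  obtain ⟨q, hq, hqp, hqu⟩ := Nat.forall_exists_prime_gt_and_eq_mod (q := N)
    (a := ((u⁻¹ : (ZMod N)ˣ) : ZMod N)) (Units.isUnit _) (max N p)
  have hqN : Nat.Coprime q N := by
    rw [← ZMod.isUnit_iff_coprime, hqu]
    exact Units.isUnit _
  have hqp' : Nat.Coprime q p := by
    rw [Nat.coprime_primes hqp Fact.out]
    have := le_max_right N p
    omega
  obtain ⟨τ, hτ, hτ0, hτ1⟩ := exists_Gamma0_lower_dvd N p q (Nat.Coprime.mul_right hqN hqp')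
  refine ⟨τ, hτ, ⟨N, by rw [hτ0]; ring⟩, ?_⟩
  rw [hτ1, Int.cast_natCast, hqu, ← hu, Units.inv_mul]

/-- The set of `h` with `V_p h ∈ S_k(Γ₁(N))` is stable under `V_p`. -/
theorem exists_coe_eq_diag_diag (hpN : ¬ p ∣ N) (h g : CuspForm (Gamma1 N) k)
    (hg : (⇑g : ℍ → ℂ) = ⇑h ∣[k] heckeDiagMatrix p) :
    ∃ g' : CuspForm (Gamma1 N) k, (⇑g' : ℍ → ℂ) = ⇑g ∣[k] heckeDiagMatrix p := by
  obtain ⟨σ, hσ, -, hσ1⟩ := exists_Gamma0_lower N p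
    ((Nat.Prime.coprime_iff_not_dvd Fact.out).mpr hpN)
  have hσp : ((σ 1 1 : ℤ) : ZMod N) = (p : ZMod N) := by rw [hσ1]; simp
  obtain ⟨τ, hτ, hτp, hτ1⟩ := exists_inv_rep (p := p) hpN
  obtain ⟨τ', hτ', hcomm⟩ := exists_diag_comm hpN τ hτ hτp
  -- `g ∣ τ = V_p (h ∣ τ')`
  have h1 : (⇑(dia τ hτ g) : ℍ → ℂ) = ⇑(dia τ' hτ' h) ∣[k] heckeDiagMatrix p := by
    rw [coe_dia, coe_dia, hg, ← SlashAction.slash_mul, hcomm, SlashAction.slash_mul]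
  obtain ⟨g', hg'⟩ := exists_coe_eq_diag_dia hpN (dia τ' hτ' h) (dia τ hτ g) h1 σ hσ hσp
  refine ⟨g', ?_⟩
  rw [hg', coe_dia, ← slash_mapGL_mul]
  congr 1
  refine coe_inv1 g _ (mem_Gamma1_of_lower _ (Gamma0_mem.mp ((Gamma0 N).mul_mem hτ hσ)) ?_)
  rw [lower_right_mul τ σ hτ, hσp, hτ1]

/-- **`V_p`-injectivity.** -/
theorem eq_zero_of_coe_eq_diag (hpN : ¬ p ∣ N) (h g : CuspForm (Gamma1 N) k)
    (hg : (⇑g : ℍ → ℂ) = ⇑h ∣[k] heckeDiagMatrix p) : h = 0 := by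
  have hp : p.Prime := Fact.out
  -- the chain `g_m = V_p^m h`
  have chain : ∀ m : ℕ, ∃ a b : CuspForm (Gamma1 N) k,
      (⇑b : ℍ → ℂ) = ⇑a ∣[k] heckeDiagMatrix p ∧
      (∀ n < p ^ m, qCoeff (⇑a : ℍ → ℂ) n = 0) ∧ (a = 0 → h = 0) := by
    intro m
    induction m with
    | zero =>
      refine ⟨h, g, hg, fun n hn ↦ ?_, id⟩
      have : n = 0 := by simpa using hn
      rw [this]
      exact coe_qCoeff_zero h
    | succ m ih =>
      obtain ⟨a, b, hab, hvan, hzero⟩ := ih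
      obtain ⟨c, hc⟩ := exists_coe_eq_diag_diag hpN a b hab
      refine ⟨b, c, hc, fun n hn ↦ ?_, fun hb ↦ hzero ?_⟩
      · rw [qCoeff_of_coe_eq_diag a b hab]
        split_ifs with hdiv
        · obtain ⟨n', rfl⟩ := hdiv
          rw [Nat.mul_div_cancel_left n' hp.pos, hvan n' ?_, mul_zero]
          rw [pow_succ'] at hn
          exact Nat.lt_of_mul_lt_mul_left hn
        · rfl
      · -- `b = 0 → a = 0`
        apply DFunLike.coe_injective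
        rw [CuspForm.coe_zero]
        refine (coe_nice a).eq_zero_of_qCoeff fun n ↦ ?_
        have h1 := qCoeff_of_coe_eq_diag a b hab (p * n)
        rw [if_pos (dvd_mul_right p n), Nat.mul_div_cancel_left n hp.pos, hb,
          CuspForm.coe_zero] at h1
        have h2 : qCoeff (0 : ℍ → ℂ) (p * n) = 0 := by
          simp [qCoeff, UpperHalfPlane.qExpansion_zero]
        rw [h2] at h1
        exact (mul_eq_zero.mp h1.symm).resolve_left (zpow_ne_zero' k)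
  -- Sturm
  set B : ℕ := (k * ((((Gamma1 N).map (mapGL ℝ)).relIndex
    (mapGL ℝ : SL(2, ℤ) →* GL (Fin 2) ℝ).range : ℕ) : ℤ)).toNat / 12 with hB
  obtain ⟨a, -, -, hvan, hzero⟩ := chain (B + 1)
  apply hzero
  apply CuspForm.toModularFormₗ_injective
  rw [map_zero]
  refine ModularForm.sturm_bound_of_isArithmetic (one_mem_strictPeriods_Gamma1 N) ?_
  have hle : ((B + 1 : ℕ) : ℕ∞) ≤ (qExpansion 1 (⇑(CuspForm.toModularFormₗ a))).order := by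
    refine PowerSeries.nat_le_order _ _ fun i hi ↦ ?_
    exact hvan i (lt_of_lt_of_le hi (Nat.lt_pow_self hp.one_lt).le)
  refine lt_of_lt_of_le ?_ hle
  exact_mod_cast Nat.lt_succ_self B

end Fermat.Agent.S48.H548
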