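import Fermat.Agent.S48.H548.Coset

/-!
# S48 / P0 (helper548): `T_p` on `Γ₁(N)`-invariant functions

For a `Γ₁(N)`-invariant function `f` (weight `k`) and a prime `p ∤ N`, with `f' = ⟨p⟩ f`
(`= f ∣ σ` for any `σ ∈ Γ₀(N)` with lower right entry `≡ p mod N`), the function
`T_p f = U_p f + f' ∣ diag(p, 1)` is again `Γ₁(N)`-invariant.
-/

set_option autoImplicit false

noncomputable section

namespace Fermat.Agent.S48.H548

open Matrix.SpecialLinearGroup UpperHalfPlane ModularForm CongruenceSubgroup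
open scoped MatrixGroups ModularForm OnePoint

/-- `Γ₁(N)`-invariance of weight `k`, at the level of functions. -/
def Inv1 (N : ℕ) (k : ℤ) (f : ℍ → ℂ) : Prop :=
  ∀ γ ∈ Gamma1 N, f ∣[k] mapGL ℝ γ = f

variable {N : ℕ} {k : ℤ} {f : ℍ → ℂ}

theorem slash_mapGL_mul (k : ℤ) (f : ℍ → ℂ) (a b : SL(2, ℤ)) :
    f ∣[k] mapGL ℝ (a * b) = (f ∣[k] mapGL ℝ a) ∣[k] mapGL ℝ b := by
  rw [map_mul, SlashAction.slash_mul]

/-- The slash by `σ ∈ Γ₀(N)` of a `Γ₁(N)`-invariant function only depends on the lower right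
entry of `σ` modulo `N`. -/
theorem Inv1.slash_eq_of_lower_eq (hf : Inv1 N k f) (a b : SL(2, ℤ)) (ha : a ∈ Gamma0 N)
    (hb : b ∈ Gamma0 N) (h : ((a 1 1 : ℤ) : ZMod N) = ((b 1 1 : ℤ) : ZMod N)) :
    f ∣[k] mapGL ℝ a = f ∣[k] mapGL ℝ b := by
  have h1 : a = (a * b⁻¹) * b := by group
  conv_lhs => rw [h1]
  rw [slash_mapGL_mul, hf _ (mul_inv_mem_Gamma1 a b ha hb h)]

/-- The slash by `σ ∈ Γ₀(N)` of a `Γ₁(N)`-invariant function is `Γ₁(N)`-invariant. -/
theorem Inv1.slash (hf : Inv1 N k f) (a : SL(2, ℤ)) (ha : a ∈ Gamma0 N) :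
    Inv1 N k (f ∣[k] mapGL ℝ a) := by
  intro γ hγ
  rw [← slash_mapGL_mul]
  refine hf.slash_eq_of_lower_eq _ _ ((Gamma0 N).mul_mem ha (Gamma1_le_Gamma0' N hγ)) ha ?_
  rw [lower_right_mul a γ ha, ((Gamma1_mem N γ).mp hγ).2.1, mul_one]

theorem Inv1.add {g : ℍ → ℂ} (hf : Inv1 N k f) (hg : Inv1 N k g) : Inv1 N k (f + g) := by
  intro γ hγ
  rw [SlashAction.add_slash, hf γ hγ, hg γ hγ]

theorem smul_slash_mapGL (k : ℤ) (c : ℂ) (f : ℍ → ℂ) (a : SL(2, ℤ)) :
    (c • f) ∣[k] mapGL ℝ a = c • (f ∣[k] mapGL ℝ a) := by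
  have := ModularForm.SL_smul_slash k a f c
  rwa [ModularForm.SL_slash, ModularForm.SL_slash] at this

theorem Inv1.smul (c : ℂ) (hf : Inv1 N k f) : Inv1 N k (c • f) := by
  intro γ hγ
  rw [smul_slash_mapGL, hf γ hγ]

section Tp

variable {p : ℕ} [Fact p.Prime]

theorem heckeT1_eq_sum (k : ℤ) (f f' : ℍ → ℂ) :
    heckeU k p f + f' ∣[k] heckeDiagMatrix p =
      ∑ x : OnePoint (ZMod p), (x.elim f' (fun _ ↦ f)) ∣[k] heckeRep p x := by
  have : NeZero p := ⟨(Fact.out : p.Prime).ne_zero⟩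
  rw [heckeU_eq_sum_zmod, add_comm]
  exact (Fintype.sum_option
    (fun x : OnePoint (ZMod p) ↦ (x.elim f' (fun _ ↦ f)) ∣[k] heckeRep p x)).symm

/-- `T_p f = U_p f + (⟨p⟩ f) ∣ diag(p,1)` is `Γ₁(N)`-invariant. -/
theorem Inv1.heckeT1 (hpN : ¬ p ∣ N) (hf : Inv1 N k f) (σ : SL(2, ℤ)) (hσ : σ ∈ Gamma0 N)
    (hσp : ((σ 1 1 : ℤ) : ZMod N) = (p : ZMod N)) :
    Inv1 N k (heckeU k p f + (f ∣[k] mapGL ℝ σ) ∣[k] heckeDiagMatrix p) := by
  intro g hg
  have hpu : IsUnit ((p : ℕ) : ZMod N) :=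
    (ZMod.isUnit_iff_coprime p N).mpr ((Nat.Prime.coprime_iff_not_dvd Fact.out).mpr hpN)
  have hg10 : ((g 1 0 : ℤ) : ZMod N) = 0 := ((Gamma1_mem N g).mp hg).2.2
  have hg11 : ((g 1 1 : ℤ) : ZMod N) = 1 := ((Gamma1_mem N g).mp hg).2.1
  have hgN : (N : ℤ) ∣ g 1 0 := (ZMod.intCast_zmod_eq_zero_iff_dvd _ _).mp hg10
  rw [heckeT1_eq_sum, SlashAction.sum_slash]
  calc ∑ x : OnePoint (ZMod p),
        ((x.elim (f ∣[k] mapGL ℝ σ) (fun _ ↦ f)) ∣[k] heckeRep p x) ∣[k] mapGL ℝ g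
      = ∑ x : OnePoint (ZMod p),
          ((redMatrix p g • x).elim (f ∣[k] mapGL ℝ σ) (fun _ ↦ f))
            ∣[k] heckeRep p (redMatrix p g • x) := by
        refine Finset.sum_congr rfl fun x _ ↦ ?_
        obtain ⟨g', hg'N, hw, hmul⟩ := heckeRep_mul hpN g hgN x
        have hg'0 : g' ∈ Gamma0 N :=
          Gamma0_mem.mpr ((ZMod.intCast_zmod_eq_zero_iff_dvd _ _).mpr hg'N)
        rw [← SlashAction.slash_mul, hmul, SlashAction.slash_mul]
        congr 1
        rw [hg11, one_mul] at hw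
        -- `hw : g' 1 1 * w(x') = w(x)`
        generalize redMatrix p g • x = x' at hw ⊢
        induction x using OnePoint.rec with
        | infty =>
          induction x' using OnePoint.rec with
          | infty =>
            simp only [wt_infty, mul_one] at hw
            simp only [OnePoint.elim_infty]
            rw [← slash_mapGL_mul]
            refine hf.slash_eq_of_lower_eq _ _ ((Gamma0 N).mul_mem hσ hg'0) hσ ?_
            rw [lower_right_mul σ g' hσ, hw, mul_one]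
          | coe j' =>
            simp only [wt_infty, wt_coe] at hw
            simp only [OnePoint.elim_infty, OnePoint.elim_some]
            rw [← slash_mapGL_mul]
            refine hf _ (mem_Gamma1_of_lower _
              (Gamma0_mem.mp ((Gamma0 N).mul_mem hσ hg'0)) ?_)
            rw [lower_right_mul σ g' hσ, hσp, mul_comm, hw]
        | coe j =>
          induction x' using OnePoint.rec with
          | infty =>
            simp only [wt_infty, wt_coe, mul_one] at hw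
            simp only [OnePoint.elim_infty, OnePoint.elim_some]
            exact hf.slash_eq_of_lower_eq _ _ hg'0 hσ (hw.trans hσp.symm)
          | coe j' =>
            simp only [wt_coe] at hw
            simp only [OnePoint.elim_some]
            refine hf _ (mem_Gamma1_of_lower _ (Gamma0_mem.mp hg'0) ?_)
            exact hpu.mul_left_injective (show _ * _ = _ * _ by rw [hw, one_mul])
    _ = ∑ x : OnePoint (ZMod p),
          (x.elim (f ∣[k] mapGL ℝ σ) (fun _ ↦ f)) ∣[k] heckeRep p x :=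
        Equiv.sum_comp (MulAction.toPerm (redMatrix p g))
          (fun x ↦ (x.elim (f ∣[k] mapGL ℝ σ) (fun _ ↦ f)) ∣[k] heckeRep p x)

end Tp

end Fermat.Agent.S48.H548
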