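import Fermat.Agent.S48.H548.Per1Hecke
import Fermat.Agent.S48.H548.HCoh1
import Fermat.Agent.S29.M4b.H822.HeckeProd

/-!
# S48 / RES, Kum1 (helper548): analytic core of K4-HECKE / K4-DIAMOND on `Γ₁(M)`

For a function `U : ℍ → ℂ` with a character `χ` on `Γ₁(M)` (`U (γ τ) = χ(γ) U(τ)`):

* `heckeProd1 hpM U = ∏ₓ U ∘ heckeRep1 x` has character `trfChar1 hpM χ = (γ ↦ ∏ₓ χ(trf1 γ x))`
  (`heckeProd1_smul`); for `χ = ζ ^ c`, `c : Γ₁(M) → ℤ/m`, this is `ζ ^ (heckeHom1 c)`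
  (`heckeProd1_smul_zmod`);
* `U ∘ a`, `a ∈ Γ₀(M)`, has character `χ ∘ conj1 a` (`compSL_smul_conj1`), i.e. `ζ ^ (diaHom1 a c)`;
* holomorphy (`mdiff_heckeProd1`), growth at all cusps (`heckeProd1_mem_holN`: `holN M → holN (M p)`),
  non-vanishing (`heckeProd1_ne_zero`), invariance (`heckeProd1_invariant`).
-/

set_option autoImplicit false
set_option linter.unusedSectionVars false
set_option linter.deprecated false

noncomputable section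

namespace Fermat.Agent.S48.H548

open CongruenceSubgroup ModularCurve UpperHalfPlane Matrix.SpecialLinearGroup ModularForm
open Fermat.Agent.S24 Fermat.Agent.S24.H997 Fermat.Agent.S24.H624
open scoped Manifold MatrixGroups OnePoint

variable {M : ℕ} [NeZero M] {p : ℕ} [Fact p.Prime]

/-! ### The action identity -/

/-- `α_x (γ τ) = t_x (α_{γ x} τ)`. -/
theorem heckeRep1_smul_smul (hpM : ¬ p ∣ M) (γ : Gamma1 M) (x : OnePoint (ZMod p)) (τ : ℍ) :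
    heckeRep1 hpM x • ((γ : SL(2, ℤ)) • τ)
      = ((trf1 hpM γ x : Gamma1 M) : SL(2, ℤ)) • (heckeRep1 hpM (permOf1 γ x) • τ) := by
  rw [SL_smul_eq_mapGL_smul548, SL_smul_eq_mapGL_smul548, ← mul_smul, ← mul_smul,
    trf1_spec hpM γ x]
  rfl

/-! ### The transfer of a character -/

/-- The (multiplicative) transfer of a character of `Γ₁(M)`: `γ ↦ ∏ₓ χ (trf1 γ x)`. -/
def trfChar1 (hpM : ¬ p ∣ M) {A : Type*} [CommGroup A] (χ : Gamma1 M →* A) : Gamma1 M →* A where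
  toFun γ := ∏ x : OnePoint (ZMod p), χ (trf1 hpM γ x)
  map_one' := by simp [trf1_one]
  map_mul' γ γ' := by
    simp only [trf1_mul, map_mul, Finset.prod_mul_distrib]
    congr 1
    exact Equiv.prod_comp (permOf1 γ) (fun y ↦ χ (trf1 hpM γ' y))

theorem trfChar1_apply (hpM : ¬ p ∣ M) {A : Type*} [CommGroup A] (χ : Gamma1 M →* A)
    (γ : Gamma1 M) : trfChar1 hpM χ γ = ∏ x : OnePoint (ZMod p), χ (trf1 hpM γ x) := rfl

/-! ### The Hecke product -/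

/-- The Hecke product `τ ↦ ∏ₓ U (α_x τ)`, `α_x = heckeRep1 x`. -/
def heckeProd1 (hpM : ¬ p ∣ M) (U : ℍ → ℂ) : ℍ → ℂ :=
  fun τ ↦ ∏ x : OnePoint (ZMod p), U (heckeRep1 hpM x • τ)

theorem heckeProd1_apply (hpM : ¬ p ∣ M) (U : ℍ → ℂ) (τ : ℍ) :
    heckeProd1 hpM U τ = ∏ x : OnePoint (ZMod p), U (heckeRep1 hpM x • τ) := rfl

theorem heckeProd1_pow (hpM : ¬ p ∣ M) (U : ℍ → ℂ) (n : ℕ) :
    heckeProd1 hpM (fun τ ↦ U τ ^ n) = fun τ ↦ heckeProd1 hpM U τ ^ n := by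
  funext τ
  simp only [heckeProd1_apply]
  rw [Finset.prod_pow]

theorem heckeProd1_mul (hpM : ¬ p ∣ M) (U V : ℍ → ℂ) :
    heckeProd1 hpM (fun τ ↦ U τ * V τ) = fun τ ↦ heckeProd1 hpM U τ * heckeProd1 hpM V τ := by
  funext τ
  simp only [heckeProd1_apply]
  rw [Finset.prod_mul_distrib]

theorem heckeProd1_one (hpM : ¬ p ∣ M) : heckeProd1 (M := M) hpM (fun _ ↦ (1 : ℂ)) = fun _ ↦ 1 := by
  funext τ
  simp [heckeProd1_apply]

/-- **Character of the Hecke product** (general character `χ : Γ₁(M) → ℂˣ`). -/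
theorem heckeProd1_smul (hpM : ¬ p ∣ M) (χ : Gamma1 M →* ℂˣ) {U : ℍ → ℂ}
    (hU : ∀ (γ : Gamma1 M) (τ : ℍ), U ((γ : SL(2, ℤ)) • τ) = (χ γ : ℂ) * U τ)
    (γ : Gamma1 M) (τ : ℍ) :
    heckeProd1 hpM U ((γ : SL(2, ℤ)) • τ) = (trfChar1 hpM χ γ : ℂ) * heckeProd1 hpM U τ := by
  rw [heckeProd1_apply, heckeProd1_apply, trfChar1_apply, Units.coe_prod]
  have h1 : ∀ x : OnePoint (ZMod p), U (heckeRep1 hpM x • ((γ : SL(2, ℤ)) • τ))
      = (χ (trf1 hpM γ x) : ℂ) * U (heckeRep1 hpM (permOf1 γ x) • τ) := by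
    intro x
    rw [heckeRep1_smul_smul hpM γ x τ]
    exact hU _ _
  rw [Finset.prod_congr rfl fun x _ ↦ h1 x, Finset.prod_mul_distrib]
  congr 1
  exact Equiv.prod_comp (permOf1 γ) (fun y ↦ U (heckeRep1 hpM y • τ))

/-- Invariance of the Hecke product of a `Γ₁(M)`-invariant function. -/
theorem heckeProd1_invariant (hpM : ¬ p ∣ M) {G : ℍ → ℂ}
    (hG : ∀ (γ : Gamma1 M) (τ : ℍ), G ((γ : SL(2, ℤ)) • τ) = G τ)
    (γ : Gamma1 M) (τ : ℍ) :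
    heckeProd1 hpM G ((γ : SL(2, ℤ)) • τ) = heckeProd1 hpM G τ := by
  have h := heckeProd1_smul hpM (1 : Gamma1 M →* ℂˣ) (U := G)
    (fun γ τ ↦ by rw [hG γ τ]; simp) γ τ
  rw [h, trfChar1_apply]
  simp

/-! ### Characters `ζ ^ c`, `c : Γ₁(M) → ℤ/m` -/

theorem pow_val_add548 {m : ℕ} [NeZero m] {ζ : ℂ} (hζ : ζ ^ m = 1) (a b : ZMod m) :
    ζ ^ (a + b).val = ζ ^ a.val * ζ ^ b.val := by
  have key : ∀ n : ℕ, ζ ^ (n % m) = ζ ^ n := fun n ↦ by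
    conv_rhs => rw [← Nat.mod_add_div n m, pow_add, pow_mul, hζ, one_pow, mul_one]
  rw [ZMod.val_add, key, pow_add]

theorem pow_val_sum548 {m : ℕ} [NeZero m] {ζ : ℂ} (hζ : ζ ^ m = 1) {ι : Type*} (s : Finset ι)
    (a : ι → ZMod m) : ζ ^ (∑ i ∈ s, a i).val = ∏ i ∈ s, ζ ^ (a i).val := by
  classical
  induction s using Finset.induction_on with
  | empty => simp
  | insert x s hx ih => rw [Finset.sum_insert hx, Finset.prod_insert hx, pow_val_add548 hζ, ih]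

/-- **Character of the Hecke product**, characters `ζ ^ c`: if `U` has character `ζ ^ c` then
the Hecke product has character `ζ ^ (T_p c)`, `T_p = heckeHom1`. -/
theorem heckeProd1_smul_zmod (hpM : ¬ p ∣ M) {m : ℕ} [NeZero m] {ζ : ℂ} (hζ : ζ ^ m = 1)
    (c : Additive (Gamma1 M) →+ ZMod m) {U : ℍ → ℂ}
    (hU : ∀ (γ : Gamma1 M) (τ : ℍ),
      U ((γ : SL(2, ℤ)) • τ) = ζ ^ (c (Additive.ofMul γ)).val * U τ)
    (γ : Gamma1 M) (τ : ℍ) :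
    heckeProd1 hpM U ((γ : SL(2, ℤ)) • τ)
      = ζ ^ (heckeHom1 p hpM (ZMod m) c (Additive.ofMul γ)).val * heckeProd1 hpM U τ := by
  rw [heckeProd1_apply, heckeProd1_apply, heckeHom1_apply, pow_val_sum548 hζ]
  have h1 : ∀ x : OnePoint (ZMod p), U (heckeRep1 hpM x • ((γ : SL(2, ℤ)) • τ))
      = ζ ^ (c (Additive.ofMul (trf1 hpM γ x))).val * U (heckeRep1 hpM (permOf1 γ x) • τ) := by
    intro x
    rw [heckeRep1_smul_smul hpM γ x τ]
    exact hU _ _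
  rw [Finset.prod_congr rfl fun x _ ↦ h1 x, Finset.prod_mul_distrib]
  congr 1
  exact Equiv.prod_comp (permOf1 γ) (fun y ↦ U (heckeRep1 hpM y • τ))

/-! ### Diamond twists -/

/-- **Character of a diamond twist** (general character). -/
theorem compSL_smul_conj1 (a : SL(2, ℤ)) (ha : a ∈ Gamma0 M) {A : Type*} (χ : Gamma1 M → A)
    (mulA : A → ℂ → ℂ) {U : ℍ → ℂ}
    (hU : ∀ (γ : Gamma1 M) (τ : ℍ), U ((γ : SL(2, ℤ)) • τ) = mulA (χ γ) (U τ))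
    (γ : Gamma1 M) (τ : ℍ) :
    compSL a U ((γ : SL(2, ℤ)) • τ) = mulA (χ (conj1 a ha γ)) (compSL a U τ) := by
  show U (a • ((γ : SL(2, ℤ)) • τ)) = mulA (χ (conj1 a ha γ)) (U (a • τ))
  rw [← hU (conj1 a ha γ) (a • τ), coe_conj1, ← mul_smul, ← mul_smul]
  congr 2
  group

/-- **Character of a diamond twist**, characters `ζ ^ c`: `U ∘ a` has character
`ζ ^ (⟨a⟩ c)`, `⟨a⟩ = diaHom1 a`. -/
theorem compSL_smul_zmod (a : SL(2, ℤ)) (ha : a ∈ Gamma0 M) {m : ℕ} {ζ : ℂ}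
    (c : Additive (Gamma1 M) →+ ZMod m) {U : ℍ → ℂ}
    (hU : ∀ (γ : Gamma1 M) (τ : ℍ),
      U ((γ : SL(2, ℤ)) • τ) = ζ ^ (c (Additive.ofMul γ)).val * U τ)
    (γ : Gamma1 M) (τ : ℍ) :
    compSL a U ((γ : SL(2, ℤ)) • τ)
      = ζ ^ (diaHom1 a ha (ZMod m) c (Additive.ofMul γ)).val * compSL a U τ := by
  rw [diaHom1_apply]
  exact compSL_smul_conj1 a ha (fun γ ↦ c (Additive.ofMul γ)) (fun z w ↦ ζ ^ z.val * w) hU γ τ

/-! ### Holomorphy and growth -/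

/-- The Möbius map of `heckeRep p x` as an affine substitution. -/
theorem heckeRep_smul_eq_infAff (x : OnePoint (ZMod p)) :
    ∃ (a : ℕ) (b : ℤ) (d : ℕ), 0 < a ∧ 0 < d ∧ ((a = p ∧ b = 0 ∧ d = 1) ∨ (a = 1 ∧ d = p)) ∧
      ∀ τ : ℍ, heckeRep p x • τ = infAff a b d τ := by
  have hp : 0 < p := (Fact.out : p.Prime).pos
  have hp0 : p ≠ 0 := hp.ne'
  induction x using OnePoint.rec with
  | infty =>
    refine ⟨p, 0, 1, hp, one_pos, Or.inl ⟨rfl, rfl, rfl⟩, fun τ ↦ ?_⟩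
    apply UpperHalfPlane.ext
    show ((ModularForm.heckeDiagMatrix p • τ : ℍ) : ℂ) = ((infAff p 0 1 τ : ℍ) : ℂ)
    rw [ModularForm.coe_heckeDiagMatrix_smul hp0, infAff_coe hp one_pos]
    simp
  | coe j =>
    refine ⟨1, (j.val : ℤ), p, one_pos, hp, Or.inr ⟨rfl, rfl⟩, fun τ ↦ ?_⟩
    apply UpperHalfPlane.ext
    show ((ModularForm.heckeMatrix p j.val • τ : ℍ) : ℂ) = ((infAff 1 (j.val : ℤ) p τ : ℍ) : ℂ)
    rw [ModularForm.coe_heckeMatrix_smul hp0, infAff_coe one_pos hp]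
    simp

theorem heckeRep1_smul (hpM : ¬ p ∣ M) (x : OnePoint (ZMod p)) (τ : ℍ) :
    heckeRep1 hpM x • τ = sigTw hpM x • (heckeRep p x • τ) := by
  unfold heckeRep1
  rw [mul_smul]
  rfl

theorem mdiff_comp_heckeRep1 (hpM : ¬ p ∣ M) {U : ℍ → ℂ} (hU : MDifferentiable 𝓘(ℂ) 𝓘(ℂ) U)
    (x : OnePoint (ZMod p)) :
    MDifferentiable 𝓘(ℂ) 𝓘(ℂ) (fun τ ↦ U (heckeRep1 hpM x • τ)) := by
  obtain ⟨a, b, d, ha, hd, -, h⟩ := heckeRep_smul_eq_infAff (p := p) x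
  have h1 : MDifferentiable 𝓘(ℂ) 𝓘(ℂ) (compSL (sigTw hpM x) U) := (precompSL _ ⟨U, hU⟩).2
  have h2 : (fun τ ↦ U (heckeRep1 hpM x • τ)) = fun τ ↦ compSL (sigTw hpM x) U (infAff a b d τ) := by
    funext τ
    rw [heckeRep1_smul, h τ]
    rfl
  rw [h2]
  exact H564.mdiff_comp_infAff h1 ha hd b

theorem mdiff_heckeProd1 (hpM : ¬ p ∣ M) {U : ℍ → ℂ} (hU : MDifferentiable 𝓘(ℂ) 𝓘(ℂ) U) :
    MDifferentiable 𝓘(ℂ) 𝓘(ℂ) (heckeProd1 hpM U) := by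
  have h : heckeProd1 hpM U = ∏ x : OnePoint (ZMod p), (fun τ ↦ U (heckeRep1 hpM x • τ)) := by
    funext τ
    rw [heckeProd1_apply, Finset.prod_apply]
  rw [h]
  exact MDifferentiable.prod fun x _ ↦ mdiff_comp_heckeRep1 hpM hU x

theorem comp_heckeRep1_mem_holN (hpM : ¬ p ∣ M) [NeZero (M * p)] {U : ℍ → ℂ} (hU : U ∈ holN M)
    (x : OnePoint (ZMod p)) : (fun τ ↦ U (heckeRep1 hpM x • τ)) ∈ holN (M * p) := by
  have : NeZero p := ⟨(Fact.out : p.Prime).ne_zero⟩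
  obtain ⟨a, b, d, ha, hd, hcase, h⟩ := heckeRep_smul_eq_infAff (p := p) x
  have h1 : compSL (sigTw hpM x) U ∈ holN M := comp_mem_holN M _ U hU
  have h2 : (fun τ ↦ U (heckeRep1 hpM x • τ)) = fun τ ↦ compSL (sigTw hpM x) U (infAff a b d τ) := by
    funext τ
    rw [heckeRep1_smul, h τ]
    rfl
  rw [h2]
  rcases hcase with ⟨rfl, rfl, rfl⟩ | ⟨rfl, rfl⟩
  · exact Fermat.Agent.S29.M4b.H822.comp_infAff_mem_holN h1
  · exact Fermat.Agent.S29.M4b.H822.comp_infAff_mem_holN' h1 b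

/-- **Growth of the Hecke product**: `holN M → holN (M p)`. -/
theorem heckeProd1_mem_holN (hpM : ¬ p ∣ M) [NeZero (M * p)] {U : ℍ → ℂ} (hU : U ∈ holN M) :
    heckeProd1 hpM U ∈ holN (M * p) := by
  have h : heckeProd1 hpM U = ∏ x : OnePoint (ZMod p), (fun τ ↦ U (heckeRep1 hpM x • τ)) := by
    funext τ
    rw [heckeProd1_apply, Finset.prod_apply]
  rw [h]
  exact prod_mem fun x _ ↦ comp_heckeRep1_mem_holN hpM hU x

/-- All `SL₂(ℤ)`-translates of the Hecke product of an element of `holN M` have at most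
exponential growth. -/
theorem heckeProd1_expGrowth (hpM : ¬ p ∣ M) {U : ℍ → ℂ} (hU : U ∈ holN M) (g : SL(2, ℤ)) :
    Fermat.Agent.S24.H648.ExpGrowth (fun τ ↦ heckeProd1 hpM U (g • τ)) := by
  have : NeZero (M * p) := ⟨Nat.mul_ne_zero (NeZero.ne M) (Fact.out : p.Prime).ne_zero⟩
  obtain ⟨φ, hφ⟩ := (heckeProd1_mem_holN hpM hU).2 g
  exact Fermat.Agent.S29.H332.expGrowth_of_infExp hφ

/-! ### Non-vanishing -/

theorem heckeProd1_ne_zero (hpM : ¬ p ∣ M) {U : ℍ → ℂ} (hU : MDifferentiable 𝓘(ℂ) 𝓘(ℂ) U)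
    (h0 : ∃ τ : ℍ, U τ ≠ 0) : ∃ τ : ℍ, heckeProd1 hpM U τ ≠ 0 := by
  by_contra hcon
  simp only [not_exists, not_not] at hcon
  let f : OnePoint (ZMod p) → holoRing := fun x ↦
    ⟨fun τ ↦ U (heckeRep1 hpM x • τ), mdiff_comp_heckeRep1 hpM hU x⟩
  have hprod : ∏ x : OnePoint (ZMod p), f x = 0 := by
    apply Subtype.ext
    funext τ
    rw [SubmonoidClass.coe_finset_prod, Finset.prod_apply]
    exact hcon τ
  obtain ⟨x, -, hx⟩ := Finset.prod_eq_zero_iff.mp hprod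
  obtain ⟨τ, hτ⟩ := h0
  apply hτ
  have h1 : ∀ τ' : ℍ, U (heckeRep1 hpM x • τ') = 0 := fun τ' ↦
    congrFun (congrArg Subtype.val hx) τ'
  have h2 := h1 ((heckeRep1 hpM x)⁻¹ • τ)
  rwa [smul_inv_smul] at h2

end Fermat.Agent.S48.H548
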