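import Fermat.Agent.S48.H548.Inj

/-!
# S48 / P0 (helper548): the nebentypus from the formal Hecke relations

Let `f ∈ S_1(Γ₁(N))` satisfy the `q`-coefficient relations `hT` of the frozen statement S48
(for a Dirichlet character `ε` mod `N`).  Then (no normalisation `a_1 = 1` is needed):

* `heckeU_add_smul_diag_eq` : `U_p f + ε(p) • V_p f = a_p • f` for primes `p ∤ N`;
* `slash_prime_eq` : `f ∣ σ = ε(p) • f` for `σ ∈ Γ₀(N)` with lower right entry `≡ p`;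
* `slash_Gamma0_eq` : `f ∣ γ = ε(γ₁₁) • f` for all `γ ∈ Γ₀(N)` (nebentypus `ε`);
* `Tp_eq_smul` : `T_p f = a_p • f` for the genuine Hecke operator `T_p = U_p + ⟨p⟩ V_p`;
* `eps_neg_one` : `ε(-1) = -1` if `f ≠ 0` (so `ε` is odd).
-/

set_option autoImplicit false
set_option linter.unusedSectionVars false
set_option linter.deprecated false

noncomputable section

namespace Fermat.Agent.S48.H548

open Matrix.SpecialLinearGroup UpperHalfPlane ModularForm CongruenceSubgroup ModularFormClass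
open scoped MatrixGroups ModularForm OnePoint Manifold

variable {N : ℕ} [NeZero N]

theorem smul_slash_diag (k : ℤ) (p : ℕ) (c : ℂ) (F : ℍ → ℂ) :
    (c • F) ∣[k] heckeDiagMatrix p = c • (F ∣[k] heckeDiagMatrix p) := by
  rw [ModularForm.smul_slash, σ_heckeDiagMatrix]
  rfl

/-- **Step A.** `U_p f + ε(p) V_p f = a_p f`, from the formal Hecke relations. -/
theorem heckeU_add_smul_diag_eq (ε : DirichletCharacter ℂ N) (f : CuspForm (Gamma1 N) 1)
    (hT : ∀ p : ℕ, p.Prime → ¬ p ∣ N → ∀ n : ℕ,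
        ModularFormClass.qCoeff f (p * n) +
            ε (p : ZMod N) * (if p ∣ n then ModularFormClass.qCoeff f (n / p) else 0) =
          ModularFormClass.qCoeff f p * ModularFormClass.qCoeff f n)
    (p : ℕ) (hp : p.Prime) (hpN : ¬ p ∣ N) :
    heckeU 1 p (⇑f : ℍ → ℂ) + ε (p : ZMod N) • ((⇑f : ℍ → ℂ) ∣[(1 : ℤ)] heckeDiagMatrix p) =
      ModularFormClass.qCoeff f p • (⇑f : ℍ → ℂ) := by
  have h1 := ((coe_nice f).hasQ_heckeU hp.ne_zero 1).add
    (((coe_nice f).hasQ_diag hp.ne_zero 1).smul (ε (p : ZMod N)))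
  refine HasQ.unique (h1.congr fun n ↦ ?_) ((coe_nice f).hasQ.smul _)
  rw [← hT p hp hpN n, mul_comm n p]
  congr 2
  split_ifs <;> simp

/-- **Step B.** `f ∣ σ = ε(p) f` for `σ ∈ Γ₀(N)` with `σ₁₁ ≡ p`, `p ∤ N` prime. -/
theorem dia_prime_eq (ε : DirichletCharacter ℂ N) (f : CuspForm (Gamma1 N) 1)
    (hT : ∀ p : ℕ, p.Prime → ¬ p ∣ N → ∀ n : ℕ,
        ModularFormClass.qCoeff f (p * n) +
            ε (p : ZMod N) * (if p ∣ n then ModularFormClass.qCoeff f (n / p) else 0) =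
          ModularFormClass.qCoeff f p * ModularFormClass.qCoeff f n)
    (p : ℕ) (hp : p.Prime) (hpN : ¬ p ∣ N) (σ : SL(2, ℤ)) (hσ : σ ∈ Gamma0 N)
    (hσp : ((σ 1 1 : ℤ) : ZMod N) = (p : ZMod N)) :
    dia σ hσ f = ε (p : ZMod N) • f := by
  have : Fact p.Prime := ⟨hp⟩
  rw [← sub_eq_zero]
  refine eq_zero_of_coe_eq_diag (p := p) hpN (dia σ hσ f - ε (p : ZMod N) • f)
    (Tp hpN σ hσ hσp f - ModularFormClass.qCoeff f p • f) ?_
  rw [CuspForm.coe_sub, CuspForm.coe_sub, coe_Tp, coe_dia, CuspForm.IsGLPos.coe_smul,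
    CuspForm.IsGLPos.coe_smul, ← heckeU_add_smul_diag_eq ε f hT p hp hpN, sub_eq_add_neg,
    sub_eq_add_neg, SlashAction.add_slash, SlashAction.neg_slash, smul_slash_diag]
  abel

theorem slash_prime_eq (ε : DirichletCharacter ℂ N) (f : CuspForm (Gamma1 N) 1)
    (hT : ∀ p : ℕ, p.Prime → ¬ p ∣ N → ∀ n : ℕ,
        ModularFormClass.qCoeff f (p * n) +
            ε (p : ZMod N) * (if p ∣ n then ModularFormClass.qCoeff f (n / p) else 0) =
          ModularFormClass.qCoeff f p * ModularFormClass.qCoeff f n)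
    (p : ℕ) (hp : p.Prime) (hpN : ¬ p ∣ N) (σ : SL(2, ℤ)) (hσ : σ ∈ Gamma0 N)
    (hσp : ((σ 1 1 : ℤ) : ZMod N) = (p : ZMod N)) :
    (⇑f : ℍ → ℂ) ∣[(1 : ℤ)] mapGL ℝ σ = ε (p : ZMod N) • (⇑f : ℍ → ℂ) := by
  rw [← coe_dia σ hσ f, dia_prime_eq ε f hT p hp hpN σ hσ hσp, CuspForm.IsGLPos.coe_smul]

/-- **Nebentypus.** `f ∣ γ = ε(γ₁₁) f` for all `γ ∈ Γ₀(N)`. -/
theorem slash_Gamma0_eq (ε : DirichletCharacter ℂ N) (f : CuspForm (Gamma1 N) 1)
    (hT : ∀ p : ℕ, p.Prime → ¬ p ∣ N → ∀ n : ℕ,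
        ModularFormClass.qCoeff f (p * n) +
            ε (p : ZMod N) * (if p ∣ n then ModularFormClass.qCoeff f (n / p) else 0) =
          ModularFormClass.qCoeff f p * ModularFormClass.qCoeff f n)
    (γ : SL(2, ℤ)) (hγ : γ ∈ Gamma0 N) :
    (⇑f : ℍ → ℂ) ∣[(1 : ℤ)] mapGL ℝ γ = ε ((γ 1 1 : ℤ) : ZMod N) • (⇑f : ℍ → ℂ) := by
  have hu : IsUnit (((γ 1 1 : ℤ)) : ZMod N) :=
    IsUnit.of_mul_eq_one _ (by rw [mul_comm]; exact lower_right_isUnit γ hγ)
  obtain ⟨q, -, hq, hqu⟩ := Nat.forall_exists_prime_gt_and_eq_mod (q := N)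
    (a := ((γ 1 1 : ℤ) : ZMod N)) hu 0
  have hqN : Nat.Coprime q N := by
    rw [← ZMod.isUnit_iff_coprime, hqu]
    exact hu
  have hqN' : ¬ q ∣ N := (Nat.Prime.coprime_iff_not_dvd hq).mp hqN
  obtain ⟨σ, hσ, -, hσ1⟩ := exists_Gamma0_lower N q hqN
  have hσq : ((σ 1 1 : ℤ) : ZMod N) = (q : ZMod N) := by rw [hσ1]; simp
  rw [(coe_inv1 f).slash_eq_of_lower_eq γ σ hγ hσ (by rw [hσq, hqu]),
    slash_prime_eq ε f hT q hq hqN' σ hσ hσq, hqu]

/-- `SL(2, ℤ)`-slash form of the nebentypus statement. -/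
theorem SL_slash_Gamma0_eq (ε : DirichletCharacter ℂ N) (f : CuspForm (Gamma1 N) 1)
    (hT : ∀ p : ℕ, p.Prime → ¬ p ∣ N → ∀ n : ℕ,
        ModularFormClass.qCoeff f (p * n) +
            ε (p : ZMod N) * (if p ∣ n then ModularFormClass.qCoeff f (n / p) else 0) =
          ModularFormClass.qCoeff f p * ModularFormClass.qCoeff f n)
    (γ : SL(2, ℤ)) (hγ : γ ∈ Gamma0 N) :
    (⇑f : ℍ → ℂ) ∣[(1 : ℤ)] γ = ε ((γ 1 1 : ℤ) : ZMod N) • (⇑f : ℍ → ℂ) := by
  rw [ModularForm.SL_slash]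
  exact slash_Gamma0_eq ε f hT γ hγ

/-- bundled form: the diamond operators act through `ε`. -/
theorem dia_eq_smul (ε : DirichletCharacter ℂ N) (f : CuspForm (Gamma1 N) 1)
    (hT : ∀ p : ℕ, p.Prime → ¬ p ∣ N → ∀ n : ℕ,
        ModularFormClass.qCoeff f (p * n) +
            ε (p : ZMod N) * (if p ∣ n then ModularFormClass.qCoeff f (n / p) else 0) =
          ModularFormClass.qCoeff f p * ModularFormClass.qCoeff f n)
    (γ : SL(2, ℤ)) (hγ : γ ∈ Gamma0 N) :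
    dia γ hγ f = ε ((γ 1 1 : ℤ) : ZMod N) • f := by
  apply DFunLike.coe_injective
  rw [coe_dia, CuspForm.IsGLPos.coe_smul]
  exact slash_Gamma0_eq ε f hT γ hγ

/-- `f` is an eigenvector of the genuine Hecke operator `T_p`, with eigenvalue `a_p`. -/
theorem Tp_eq_smul (ε : DirichletCharacter ℂ N) (f : CuspForm (Gamma1 N) 1)
    (hT : ∀ p : ℕ, p.Prime → ¬ p ∣ N → ∀ n : ℕ,
        ModularFormClass.qCoeff f (p * n) +
            ε (p : ZMod N) * (if p ∣ n then ModularFormClass.qCoeff f (n / p) else 0) =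
          ModularFormClass.qCoeff f p * ModularFormClass.qCoeff f n)
    (p : ℕ) [Fact p.Prime] (hpN : ¬ p ∣ N) (σ : SL(2, ℤ)) (hσ : σ ∈ Gamma0 N)
    (hσp : ((σ 1 1 : ℤ) : ZMod N) = (p : ZMod N)) :
    Tp hpN σ hσ hσp f = ModularFormClass.qCoeff f p • f := by
  apply DFunLike.coe_injective
  rw [coe_Tp, CuspForm.IsGLPos.coe_smul, slash_Gamma0_eq ε f hT σ hσ, hσp, smul_slash_diag]
  exact heckeU_add_smul_diag_eq ε f hT p Fact.out hpN

theorem slash_mapGL_neg_one (F : ℍ → ℂ) :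
    F ∣[(1 : ℤ)] mapGL ℝ (-1 : SL(2, ℤ)) = -F := by
  ext τ
  have h := ModularForm.SL_slash_apply (k := 1) F (-1 : SL(2, ℤ)) τ
  rw [ModularForm.SL_slash] at h
  refine h.trans ?_
  have h1 : ((-1 : SL(2, ℤ)) • τ) = τ := by
    simp
  rw [h1]
  simp [UpperHalfPlane.denom]

/-- `ε` is odd if `f ≠ 0`. -/
theorem eps_neg_one (ε : DirichletCharacter ℂ N) (f : CuspForm (Gamma1 N) 1)
    (hT : ∀ p : ℕ, p.Prime → ¬ p ∣ N → ∀ n : ℕ,
        ModularFormClass.qCoeff f (p * n) +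
            ε (p : ZMod N) * (if p ∣ n then ModularFormClass.qCoeff f (n / p) else 0) =
          ModularFormClass.qCoeff f p * ModularFormClass.qCoeff f n)
    (hf : f ≠ 0) : ε (-1) = -1 := by
  have hmem : (-1 : SL(2, ℤ)) ∈ Gamma0 N := by
    rw [Gamma0_mem]
    simp
  have h1 := slash_Gamma0_eq ε f hT (-1) hmem
  rw [slash_mapGL_neg_one] at h1
  have h2 : (((-1 : SL(2, ℤ)) 1 1 : ℤ) : ZMod N) = -1 := by simp
  rw [h2] at h1
  by_contra hne
  apply hf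
  apply DFunLike.coe_injective
  rw [CuspForm.coe_zero]
  funext τ
  have h3 := congrFun h1 τ
  simp only [Pi.neg_apply, Pi.smul_apply, smul_eq_mul, Pi.zero_apply] at h3 ⊢
  have h4 : (ε (-1) + 1) * f τ = 0 := by rw [add_mul, ← h3]; ring
  rcases mul_eq_zero.mp h4 with h5 | h5
  · exact absurd (eq_neg_of_add_eq_zero_left h5) hne
  · exact h5

end Fermat.Agent.S48.H548
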