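import Fermat.Agent.S48.H548.NormGood
import Fermat.Agent.S48.H548.NormCoset1

/-!
# S48 / RES, Kum leaf `norm`, input N2a (helper548): goodness of `G ∘ diag(p,1)`

`isGood_comp_heckeDiag : IsGood (Γ₁(M)) G → IsGood (Γ₁(M) ⊓ Γ₀(p)) (fun τ => G (diag(p,1) • τ))`
(`p ∤ M` prime): holomorphy, invariance (`diag(p,1) γ = γ' diag(p,1)` with `γ' ∈ Γ₁(M)` for
`γ ∈ Γ₁(M) ∩ Γ₀(p)`), exponential growth of all translates (`holN M → holN (M p)`).
Also the hypothesis `hA` of `Kum.normAn_of_embeddings` for `γ = rep1γ`, `A = repA`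
(`comp_heckeDiag_rep1γ`).
-/

set_option autoImplicit false
set_option linter.unusedSectionVars false

noncomputable section

namespace Fermat.Agent.S48.H548

open CongruenceSubgroup ModularCurve UpperHalfPlane Matrix.SpecialLinearGroup ModularForm
open Fermat.Agent.S24 Fermat.Agent.S24.H997 Fermat.Agent.S24.H624 Fermat.Agent.S24.H648
  Fermat.Agent.S48.Kum
open scoped Manifold MatrixGroups OnePoint

variable {M : ℕ} [NeZero M] {p : ℕ} [Fact p.Prime]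

theorem heckeDiag_smul_eq_infAff (τ : ℍ) : heckeDiagMatrix p • τ = infAff p 0 1 τ := by
  have hp : 0 < p := (Fact.out : p.Prime).pos
  apply UpperHalfPlane.ext
  rw [ModularForm.coe_heckeDiagMatrix_smul hp.ne', infAff_coe hp one_pos]
  simp

/-- `diag(p,1) γ = γ' diag(p,1)` with `γ' ∈ Γ₁(M)` for `γ ∈ Γ₁(M) ∩ Γ₀(p)`. -/
theorem exists_conj_heckeDiag (hpM : ¬ p ∣ M) (γ : SL(2, ℤ)) (hγ : γ ∈ Gamma1 M ⊓ Gamma0 p) :
    ∃ γ' : SL(2, ℤ), γ' ∈ Gamma1 M ∧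
      heckeDiagMatrix p * mapGL ℝ γ = mapGL ℝ γ' * heckeDiagMatrix p := by
  have hp : p.Prime := Fact.out
  obtain ⟨h1, h0⟩ := hγ
  obtain ⟨e, he⟩ : (p : ℤ) ∣ γ 1 0 :=
    (ZMod.intCast_zmod_eq_zero_iff_dvd _ _).mp (Gamma0_mem.mp h0)
  obtain ⟨γ', hγ'10, hγ'11, hmul⟩ := heckeDiagMatrix_mul_of_eq' hp.ne_zero γ e he
  refine ⟨γ', ?_, hmul⟩
  have hγ1 := (Gamma1_mem M γ).mp h1
  apply mem_Gamma1_of_lower
  · rw [hγ'10]
    have hM : (M : ℤ) ∣ γ 1 0 := (ZMod.intCast_zmod_eq_zero_iff_dvd _ _).mp hγ1.2.2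
    rw [he] at hM
    have hcop : IsCoprime (M : ℤ) (p : ℤ) :=
      Nat.isCoprime_iff_coprime.mpr ((Nat.Prime.coprime_iff_not_dvd hp).mpr hpM).symm
    exact (ZMod.intCast_zmod_eq_zero_iff_dvd _ _).mpr (hcop.dvd_of_dvd_mul_left hM)
  · rw [hγ'11]
    exact hγ1.2.1

/-- **N2a.** `G` good for `Γ₁(M)` ⟹ `G ∘ diag(p,1)` good for `Γ₁(M) ∩ Γ₀(p)`. -/
theorem isGood_comp_heckeDiag (hpM : ¬ p ∣ M) {G : ℍ → ℂ} (hG : IsGood (Gamma1 M) G) :
    IsGood (Gamma1 M ⊓ Gamma0 p) (fun τ => G (heckeDiagMatrix p • τ)) := by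
  have hp : p.Prime := Fact.out
  have hp0 : 0 < p := hp.pos
  have : NeZero p := ⟨hp.ne_zero⟩
  have : NeZero (M * p) := ⟨Nat.mul_ne_zero (NeZero.ne M) hp.ne_zero⟩
  have hfun : (fun τ => G (heckeDiagMatrix p • τ)) = fun τ => G (infAff p 0 1 τ) := by
    funext τ
    rw [heckeDiag_smul_eq_infAff]
  have hmem : G ∈ holN M := mem_holN_of_isGood (Fermat.Agent.S48.H332.hasLevel_Gamma1 M) hG
  have hmem' : (fun τ => G (infAff p 0 1 τ)) ∈ holN (M * p) :=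
    Fermat.Agent.S29.M4b.H822.comp_infAff_mem_holN hmem
  refine ⟨?_, fun γ hγ τ => ?_, fun g => ?_⟩
  · rw [hfun]
    exact hmem'.1
  · obtain ⟨γ', hγ', hmul⟩ := exists_conj_heckeDiag hpM γ hγ
    show G (heckeDiagMatrix p • (γ • τ)) = G (heckeDiagMatrix p • τ)
    have h1 : heckeDiagMatrix p • (γ • τ) = γ' • (heckeDiagMatrix p • τ) := by
      rw [SL_smul_eq_mapGL_smul548, SL_smul_eq_mapGL_smul548, ← mul_smul, ← mul_smul, hmul]
    rw [h1]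
    exact hG.2.1 γ' hγ' _
  · rw [hfun]
    exact Fermat.Agent.S48.H332.expGrowth_of_mem_holN hmem' g

/-- Hypothesis `hA` of `Kum.normAn_of_embeddings` for `γ = rep1γ`, `A = repA`, `B = diag(p,1)`. -/
theorem comp_heckeDiag_rep1γ (hpM : ¬ p ∣ M) (x : OnePoint (ZMod p)) {G : ℍ → ℂ}
    (hG : IsGood (Gamma1 M) G) (τ : ℍ) :
    G (heckeDiagMatrix p • (rep1γ hpM x • τ)) = G (repA hpM x • τ) := by
  rw [heckeDiag_smul_rep1γ]
  exact hG.2.1 _ (rep1δ_mem hpM x) _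

end Fermat.Agent.S48.H548
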