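import Fermat.Agent.S48.Kum.M4b1
import Fermat.Agent.S48.H548.KumHP
import Fermat.Agent.S48.H332.KumGen
import Fermat.Agent.S29.H642.K2

/-!
# S48 / RES, Kum leaf `norm` (helper548): the GOODNESS half of `NormAn1`

* `mem_holN_of_isGood` : a good function for a group `Γ` of level `M` (`H332.HasLevel Γ M`, e.g.
  `Γ₁(M)`) lies in the S24 ring `holN M` (expansions in `exp(2πiτ/M)` at ALL cusps);
* `prod_repA_eq_heckeProd1` : `∏ₓ G ∘ repA x = heckeProd1 (G ∘ σ_p⁻¹)`;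
* `isGood_prod_repA` : if `G` is good for `Γ₁(M)` then so is `τ ↦ ∏ₓ G (repA x • τ)`
  (`repA x = σ_p⁻¹ · heckeRep1 x` the representatives of `Kum/M4b1.lean`);
* `realises_prod_repA_of_qexp` : hence `NormAn1` is reduced to the equality of `q`-expansions.
-/

set_option autoImplicit false
set_option linter.unusedSectionVars false

noncomputable section

namespace Fermat.Agent.S48.H548

open CongruenceSubgroup ModularCurve UpperHalfPlane Matrix.SpecialLinearGroup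
open Fermat.Agent.S24 Fermat.Agent.S24.H997 Fermat.Agent.S24.H624 Fermat.Agent.S24.H648
  Fermat.Agent.S24.H708 Fermat.Agent.S48.Kum Fermat.Agent.S48.F1
open scoped Manifold MatrixGroups OnePoint

/-- A good function for a group of level `M` lies in `holN M`. -/
theorem mem_holN_of_isGood {Γ : Subgroup SL(2, ℤ)} {M : ℕ} [NeZero M]
    (hΓ : Fermat.Agent.S48.H332.HasLevel Γ M) {G : ℍ → ℂ} (hG : IsGood Γ G) : G ∈ holN M := by
  have hchar : Fermat.Agent.S48.H332.GHasChar (1 : Γ →* ℂˣ) G := by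
    intro γ τ
    rw [hG.2.1 γ γ.2 τ]
    simp
  have hpar : Fermat.Agent.S48.H332.GParTriv (1 : Γ →* ℂˣ) := fun _ _ => rfl
  refine ⟨hG.1, fun g => ?_⟩
  have hol : MDifferentiable 𝓘(ℂ) 𝓘(ℂ) (compSL g G) := mdifferentiable_comp_smul hG.1 g
  have hper : Function.Periodic (compSL g G ∘ ofComplex) (M : ℝ) :=
    hchar.periodic hpar g M (hΓ.conj_T_pow g)
  have hgr : ExpGrowth (compSL g G) := hG.2.2 g
  have hmer : IsMerInf M (compSL g G) :=
    ⟨hol, hper, Fermat.Agent.S29.H642.K2_isBounded_mul_qh_pow hgr⟩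
  exact ⟨qexpFun M (compSL g G), fun τ => (HasQExp.of_isMerInf hmer).hasSum τ⟩

variable {M : ℕ} [NeZero M] {p : ℕ} [Fact p.Prime]

theorem repA_smul (hpM : ¬ p ∣ M) (x : OnePoint (ZMod p)) (τ : ℍ) :
    repA hpM x • τ = (sigmaP M p hpM)⁻¹ • (heckeRep1 hpM x • τ) := by
  unfold repA
  rw [mul_smul]
  rfl

/-- `∏ₓ G ∘ repA x = heckeProd1 (G ∘ σ_p⁻¹)`. -/
theorem prod_repA_eq_heckeProd1 (hpM : ¬ p ∣ M) (G : ℍ → ℂ) :
    (fun τ => ∏ x, G (repA hpM x • τ)) = heckeProd1 hpM (compSL (sigmaP M p hpM)⁻¹ G) := by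
  funext τ
  rw [heckeProd1_apply]
  exact Finset.prod_congr rfl fun x _ => by rw [repA_smul]; rfl

/-- Composition with an element of `Γ₀(M)` preserves goodness for `Γ₁(M)`. -/
theorem isGood_compSL (a : SL(2, ℤ)) (ha : a ∈ Gamma0 M) {G : ℍ → ℂ}
    (hG : IsGood (Gamma1 M) G) : IsGood (Gamma1 M) (compSL a G) := by
  refine ⟨mdifferentiable_comp_smul hG.1 a, fun γ hγ τ => ?_, fun g => ?_⟩
  · show G (a • (γ • τ)) = G (a • τ)
    have h1 : a • (γ • τ) = (a * γ * a⁻¹) • (a • τ) := by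
      rw [← mul_smul, ← mul_smul]
      congr 1
      group
    rw [h1]
    exact hG.2.1 _ (conj_mem_Gamma1 a ha ⟨γ, hγ⟩) _
  · have h := hG.2.2 (a * g)
    refine (funext fun τ => ?_ : (fun τ => compSL a G (g • τ)) = fun τ => G ((a * g) • τ)) ▸ h
    show G (a • (g • τ)) = G ((a * g) • τ)
    rw [mul_smul]

/-- **Goodness half of `NormAn1`.** -/
theorem isGood_prod_repA (hpM : ¬ p ∣ M) {G : ℍ → ℂ} (hG : IsGood (Gamma1 M) G) :
    IsGood (Gamma1 M) (fun τ => ∏ x, G (repA hpM x • τ)) := by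
  rw [prod_repA_eq_heckeProd1]
  have hs : (sigmaP M p hpM)⁻¹ ∈ Gamma0 M := (Gamma0 M).inv_mem (sigmaP_mem hpM)
  have hG' : IsGood (Gamma1 M) (compSL (sigmaP M p hpM)⁻¹ G) := isGood_compSL _ hs hG
  have hmem : compSL (sigmaP M p hpM)⁻¹ G ∈ holN M :=
    mem_holN_of_isGood (Fermat.Agent.S48.H332.hasLevel_Gamma1 M) hG'
  refine ⟨mdiff_heckeProd1 hpM hG'.1, fun γ hγ τ => ?_, fun g => ?_⟩
  · exact heckeProd1_invariant hpM (fun γ τ => hG'.2.1 γ γ.2 τ) ⟨γ, hγ⟩ τ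
  · exact heckeProd1_expGrowth hpM hmem g

/-- `NormAn1` reduced to the equality of `q`-expansions. -/
theorem realises_prod_repA_of_qexp (hpM : ¬ p ∣ M) {G : ℍ → ℂ} (hG : IsGood (Gamma1 M) G)
    (v : F1Bar M)
    (hq : qexpFun 1 (fun τ => ∏ x, G (repA hpM x • τ))
      = coeffMap Deg457.iotaC ((v : F1Bar M) : LaurentSeries Kbar)) :
    Realises (Gamma1 M) (F1Bar M) v (fun τ => ∏ x, G (repA hpM x • τ)) :=
  ⟨isGood_prod_repA hpM hG, hq⟩

end Fermat.Agent.S48.H548
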