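import Fermat.Agent.S48.H569.NormAn1
import Fermat.Agent.S48.H149.Mero1
import Fermat.Agent.S48.F1.RaiseF1

/-!
# S48 / RES, Kum leaf `norm` CLOSED (helper548, adapter)

`leafNorm : ∀ M p, p ∤ M → Kum.NormAn1 M p hpM`, VERBATIM the field `Kum.Leaves.norm`, from

* `H569.normAn1_of` (helper569: DictMero + FiniteAlong α + degree ≤ p+1 ⟹ NormAn1),
* `H149.dictMero1` (helper149: leaf mero),
* `F1.finiteAlong_alpha1_beta1`, `F1.finrankAlong_alpha1_le` (helper168: FF degree bound).
-/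

set_option autoImplicit false

noncomputable section

namespace Fermat.Agent.S48.H548

open CongruenceSubgroup

/-- **Kum leaf `norm`**, unconditional. -/
theorem leafNorm (M : ℕ) [NeZero M] (p : ℕ) [Fact p.Prime] (hpM : ¬ p ∣ M) :
    Fermat.Agent.S48.Kum.NormAn1 M p hpM := by
  have hp : p.Prime := Fact.out
  have : NeZero p := ⟨hp.ne_zero⟩
  exact Fermat.Agent.S48.H569.normAn1_of hpM (Fermat.Agent.S48.H149.dictMero1 M)
    (Fermat.Agent.S48.F1.finiteAlong_alpha1_beta1 M p (NeZero.ne M) hp hpM).1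
    (Fermat.Agent.S48.F1.finrankAlong_alpha1_le M p (NeZero.ne M) hp hpM)

/-- Check against the field of `Kum.Leaves`. -/
example : ∀ (M : ℕ) [NeZero M] (p : ℕ) [Fact p.Prime] (hpM : ¬ p ∣ M),
    Fermat.Agent.S48.Kum.NormAn1 M p hpM := fun M _ p _ hpM => leafNorm M p hpM

end Fermat.Agent.S48.H548
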