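import Fermat.Agent.S48.H548.NormBeta
import Fermat.Agent.S29.H452.NormAn

/-!
# S48 / RES, Kum leaf `norm`, inputs `hψ`, `hφ` of `Kum.normAn_of_embeddings` (helper548)

For `Γ = Γ₁(M)`, `Γ' = Γ₁(M) ⊓ Γ₀(p)`, `F = ℚ̄·F₁(M)`, `F' = ℚ̄·F₁(M; p)`, `p ∤ M` prime:

* `realises_alpha1` : `G` realises `u`  ⟹  `G` realises `α u` (for `Γ'`, `F'`);
* `realises_beta1`  : `G` realises `u`  ⟹  `G ∘ diag(p,1)` realises `β u`.
-/

set_option autoImplicit false
set_option linter.unusedSectionVars false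

noncomputable section

namespace Fermat.Agent.S48.H548

open CongruenceSubgroup ModularCurve UpperHalfPlane Matrix.SpecialLinearGroup ModularForm
open Fermat.Agent.S24 Fermat.Agent.S24.H708 Fermat.Agent.S48.Kum Fermat.Agent.S48.F1
open scoped Manifold MatrixGroups OnePoint

variable {M : ℕ} [NeZero M] {p : ℕ} [Fact p.Prime]

local notation "Qbar" => AlgebraicClosure ℚ

theorem T_mem_inf (M p : ℕ) : ModularGroup.T ∈ Gamma1 M ⊓ Gamma0 p := by
  refine Subgroup.mem_inf.mpr ⟨T_mem_Gamma1 M, ?_⟩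
  rw [Gamma0_mem]
  simp [ModularGroup.T]

/-- `hψ`: the inclusion `α` on realisations. -/
theorem realises_alpha1 (p : ℕ) [NeZero p] {u : F1Bar M} {G : ℍ → ℂ}
    (hu : Realises (Gamma1 M) (F1Bar M) u G) :
    Realises (Gamma1 M ⊓ Gamma0 p) (F1pL Qbar M p) (alpha1 Qbar M p u) G :=
  ⟨hu.1.mono inf_le_left, by rw [hu.2, coe_alpha1]⟩

/-- `hφ`: `β = (q ↦ q^p)` on realisations is composition with `diag(p, 1)`. -/
theorem realises_beta1 (hpM : ¬ p ∣ M) {u : F1Bar M} {G : ℍ → ℂ}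
    (hu : Realises (Gamma1 M) (F1Bar M) u G) :
    haveI : NeZero p := ⟨(Fact.out : p.Prime).ne_zero⟩
    Realises (Gamma1 M ⊓ Gamma0 p) (F1pL Qbar M p) (beta1 Qbar M p u)
      (fun τ => G (heckeDiagMatrix p • τ)) := by
  have hp : p.Prime := Fact.out
  have : NeZero p := ⟨hp.ne_zero⟩
  refine realises_of_hasQExp (isGood_comp_heckeDiag hpM hu.1) ?_
  have h1 := hu.hasQExp (T_mem_Gamma1 M)
  have h2 := h1.comp_affine (h' := 1) (a := p) (d := 1) hp.ne_zero one_ne_zero 0 p (by ring)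
    (fun τ => heckeDiagMatrix p • τ) (fun τ => by
      rw [ModularForm.coe_heckeDiagMatrix_smul hp.ne_zero]
      simp)
  have h3 : twistFactor 0 1 1 = 1 := by simp [twistFactor]
  have h4 : twist (twistFactor 0 1 1) (twistFactor_ne_zero 0 1 1)
      (coeffMap Deg457.iotaC ((u : F1Bar M) : LaurentSeries Kbar))
      = coeffMap Deg457.iotaC ((u : F1Bar M) : LaurentSeries Kbar) := by
    ext n; simp [h3]
  rw [h4] at h2
  rw [coe_beta1, Fermat.Agent.S29.H452.coeffMap_qExpand_aux]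
  exact h2

end Fermat.Agent.S48.H548
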