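import Fermat.Agent.S48.H548.Chi0Ops
import Fermat.Agent.S21.H381.Parabolic

/-!
# S48 / RES, node M4a1 input PER1 (helper548): periods of weight-2 cusp forms on `Γ₁(M)`

* `IsPrim f F` : `F` is a holomorphic primitive of `f` on `ℍ`;
* `per1 f : Additive (Gamma1 M) →+ ℂ` : the period homomorphism `γ ↦ F(γ z) - F(z)`;
* `per1L` : `per1` as a linear map; `per1_parabolic` : `per1 f` kills parabolic elements;
* `exists_cusp_limit` : a primitive has a limit at every cusp.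

Port of S21/H381 (level `Γ₀(N)`) to `Γ₁(M)`, reusing its generic lemmas.
-/

set_option autoImplicit false
set_option linter.unusedSectionVars false
set_option linter.deprecated false

noncomputable section

namespace Fermat.Agent.S48.H548

open CongruenceSubgroup ModularCurve ModularCurve.Period Filter Topology Function Complex
open UpperHalfPlane hiding I
open Matrix.SpecialLinearGroup
open scoped Manifold MatrixGroups ModularForm

/-- `F` is a primitive of `f` on the upper half plane. -/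
def IsPrim (f F : ℍ → ℂ) : Prop := ∀ τ : ℍ, HasDerivAt (F ∘ ofComplex) (f τ) ↑τ

theorem IsPrim.add {f g F G : ℍ → ℂ} (hF : IsPrim f F) (hG : IsPrim g G) :
    IsPrim (f + g) (F + G) := fun τ ↦ (hF τ).add (hG τ)

theorem IsPrim.smul {f F : ℍ → ℂ} (a : ℂ) (hF : IsPrim f F) : IsPrim (a • f) (a • F) :=
  fun τ ↦ (hF τ).const_smul a

theorem IsPrim.sub_const {f F G : ℍ → ℂ} (hF : IsPrim f F) (hG : IsPrim f G) (z w : ℍ) :
    F z - G z = F w - G w :=
  Fermat.Agent.S21.H381.sub_const_of_hasDerivAt hF hG z w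

theorem IsPrim.comp_smul {f F : ℍ → ℂ} (hF : IsPrim f F) (γ : SL(2, ℤ)) :
    IsPrim (f ∣[(2 : ℤ)] γ) (fun w : ℍ ↦ F (γ • w)) := fun τ ↦
  Fermat.Agent.S21.H381.hasDerivAt_comp_smul hF γ τ

variable {M : ℕ} [NeZero M]

theorem SL_slash_eq (f : ℍ → ℂ) (k : ℤ) (γ : SL(2, ℤ)) : f ∣[k] γ = f ∣[k] mapGL ℝ γ :=
  ModularForm.SL_slash f γ

/-- `f ∣[2] δ` as a cusp form on the conjugate group is holomorphic. -/
theorem mdiff_slash1 (f : CuspForm (Gamma1 M) 2) (δ : SL(2, ℤ)) :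
    MDiff ((f : ℍ → ℂ) ∣[(2 : ℤ)] δ) := by
  rw [SL_slash_eq]
  exact (ModularFormClass.holo f).slash 2 _

theorem isZeroAtImInfty_slash1 (f : CuspForm (Gamma1 M) 2) (δ : SL(2, ℤ)) :
    IsZeroAtImInfty ((f : ℍ → ℂ) ∣[(2 : ℤ)] δ) :=
  CuspFormClass.zero_at_infty_slash f δ

/-- There is a common positive integer period for all `f ∣[2] δ`. -/
theorem exists_period_slash1 (f : CuspForm (Gamma1 M) 2) :
    ∃ h : ℕ, 0 < h ∧
      ∀ δ : SL(2, ℤ), Periodic (((f : ℍ → ℂ) ∣[(2 : ℤ)] δ) ∘ ofComplex) (h : ℝ) := by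
  obtain ⟨h, hh, hper⟩ := Subgroup.IsArithmetic.exists_nat_mem_strictPeriods_conj
    ((Gamma1 M : Subgroup SL(2, ℤ)) : Subgroup (GL (Fin 2) ℝ))
  refine ⟨h, hh, fun δ ↦ ?_⟩
  have h1 := hper δ⁻¹
  rw [map_inv] at h1
  have h2 := SlashInvariantFormClass.periodic_comp_ofComplex
    (CuspForm.translate f (δ : GL (Fin 2) ℝ)) h1
  rw [CuspForm.coe_translate f δ] at h2
  exact_mod_cast h2

/-- Every slash translate of a weight-2 cusp form has a primitive tending to `0` at `i∞`. -/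
theorem exists_prim_slash (f : CuspForm (Gamma1 M) 2) (δ : SL(2, ℤ)) :
    ∃ G : ℍ → ℂ, IsPrim ((f : ℍ → ℂ) ∣[(2 : ℤ)] δ) G ∧ Tendsto G atImInfty (𝓝 0) := by
  obtain ⟨h, hh, hper⟩ := exists_period_slash1 f
  exact Fermat.Agent.S21.H381.exists_primitive_tendsto_zero (Nat.cast_pos.mpr hh) (hper δ)
    (mdiff_slash1 f δ) (isZeroAtImInfty_slash1 f δ)

theorem exists_isPrim (f : CuspForm (Gamma1 M) 2) : ∃ F : ℍ → ℂ, IsPrim (⇑f) F := by
  obtain ⟨G, hG, -⟩ := exists_prim_slash f 1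
  rw [SlashAction.slash_one] at hG
  exact ⟨G, hG⟩

/-- A primitive of a cusp form has a limit at every cusp. -/
theorem exists_cusp_limit (f : CuspForm (Gamma1 M) 2) {F : ℍ → ℂ} (hF : IsPrim (⇑f) F)
    (δ : SL(2, ℤ)) : ∃ L : ℂ, Tendsto (fun w : ℍ ↦ F (δ • w)) atImInfty (𝓝 L) := by
  obtain ⟨G, hGd, hG0⟩ := exists_prim_slash f δ
  have hδ := hF.comp_smul δ
  set c : ℂ := F (δ • UpperHalfPlane.I) - G UpperHalfPlane.I with hc
  refine ⟨c, ?_⟩
  have hEq : (fun w : ℍ ↦ F (δ • w)) = fun w ↦ G w + c := by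
    funext w
    have := hδ.sub_const hGd w UpperHalfPlane.I
    rw [hc, ← this]
    ring
  rw [hEq]
  simpa using hG0.add_const c

/-- A primitive of a cusp form on `Γ₁(M)` is equivariant. -/
theorem IsPrim.isEquivariant (f : CuspForm (Gamma1 M) 2) {F : ℍ → ℂ} (hF : IsPrim (⇑f) F) :
    IsEquivariantPrimitive (Gamma1 M) F := by
  intro γ
  refine ⟨F ((γ : SL(2, ℤ)) • UpperHalfPlane.I) - F UpperHalfPlane.I, fun z ↦ ?_⟩
  have hγ : IsPrim (⇑f) (fun w : ℍ ↦ F ((γ : SL(2, ℤ)) • w)) := by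
    have := hF.comp_smul (γ : SL(2, ℤ))
    rwa [SL_slash_eq, coe_inv1 f _ γ.2] at this
  exact hγ.sub_const hF z UpperHalfPlane.I

/-- The period homomorphism of a weight-2 cusp form on `Γ₁(M)`. -/
def per1 (f : CuspForm (Gamma1 M) 2) : Additive (Gamma1 M) →+ ℂ :=
  ((exists_isPrim f).choose_spec.isEquivariant f).periodHom

theorem per1_apply (f : CuspForm (Gamma1 M) 2) {F : ℍ → ℂ} (hF : IsPrim (⇑f) F)
    (γ : Gamma1 M) (z : ℍ) :
    per1 f (Additive.ofMul γ) = F ((γ : SL(2, ℤ)) • z) - F z := by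
  set F₀ := (exists_isPrim f).choose with hF₀def
  have hF₀ : IsPrim (⇑f) F₀ := (exists_isPrim f).choose_spec
  have h1 : per1 f (Additive.ofMul γ) = F₀ ((γ : SL(2, ℤ)) • z) - F₀ z := by
    show (hF₀.isEquivariant f).periodHom (Additive.ofMul γ) = _
    rw [IsEquivariantPrimitive.periodHom_apply, ← (hF₀.isEquivariant f).sub_eq_period γ z]
  rw [h1]
  have h2 := hF₀.sub_const hF ((γ : SL(2, ℤ)) • z) z
  linear_combination h2

theorem per1_add (f g : CuspForm (Gamma1 M) 2) : per1 (f + g) = per1 f + per1 g := by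
  obtain ⟨F, hF⟩ := exists_isPrim f
  obtain ⟨G, hG⟩ := exists_isPrim g
  refine AddMonoidHom.ext fun γ ↦ ?_
  obtain ⟨γ, rfl⟩ : ∃ γ' : Gamma1 M, Additive.ofMul γ' = γ := ⟨Additive.toMul γ, rfl⟩
  have hFG : IsPrim (⇑(f + g)) (F + G) := by
    rw [CuspForm.coe_add]
    exact hF.add hG
  rw [AddMonoidHom.add_apply, per1_apply (f + g) hFG γ UpperHalfPlane.I,
    per1_apply f hF γ UpperHalfPlane.I, per1_apply g hG γ UpperHalfPlane.I]
  simp only [Pi.add_apply]
  ring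

theorem per1_smul (a : ℂ) (f : CuspForm (Gamma1 M) 2) : per1 (a • f) = a • per1 f := by
  obtain ⟨F, hF⟩ := exists_isPrim f
  refine AddMonoidHom.ext fun γ ↦ ?_
  obtain ⟨γ, rfl⟩ : ∃ γ' : Gamma1 M, Additive.ofMul γ' = γ := ⟨Additive.toMul γ, rfl⟩
  have hFa : IsPrim (⇑(a • f)) (a • F) := by
    rw [CuspForm.IsGLPos.coe_smul]
    exact hF.smul a
  rw [AddMonoidHom.smul_apply, per1_apply (a • f) hFa γ UpperHalfPlane.I,
    per1_apply f hF γ UpperHalfPlane.I]
  simp only [Pi.smul_apply, smul_eq_mul]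
  ring

/-- The period map as a linear map. -/
def per1L (M : ℕ) [NeZero M] : CuspForm (Gamma1 M) 2 →ₗ[ℂ] (Additive (Gamma1 M) →+ ℂ) where
  toFun := per1
  map_add' := per1_add
  map_smul' := per1_smul

@[simp] theorem per1L_apply (f : CuspForm (Gamma1 M) 2) : per1L M f = per1 f := rfl

/-- Periods of cusp forms are parabolic homomorphisms. -/
theorem per1_parabolic (f : CuspForm (Gamma1 M) 2) : IsParabolicHom (Gamma1 M) (per1 f) := by
  intro γ hγ
  obtain ⟨F, hF⟩ := exists_isPrim f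
  obtain ⟨δ, n, hδ⟩ := Fermat.Agent.S21.H381.exists_conj_T_zpow (γ : SL(2, ℤ)) hγ
  obtain ⟨L, hL⟩ := exists_cusp_limit f hF δ
  have hconst : ∀ w : ℍ, per1 f (Additive.ofMul γ)
      = F (δ • (ModularGroup.T ^ n • w)) - F (δ • w) := by
    intro w
    rw [per1_apply f hF γ (δ • w), hδ w]
  have h1 : Tendsto (fun w : ℍ ↦ F (δ • (ModularGroup.T ^ n • w)) - F (δ • w)) atImInfty
      (𝓝 (L - L)) :=
    (hL.comp (Fermat.Agent.S21.H381.tendsto_T_zpow_smul_atImInfty n)).sub hL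
  have h2 : Tendsto (fun w : ℍ ↦ F (δ • (ModularGroup.T ^ n • w)) - F (δ • w)) atImInfty
      (𝓝 (per1 f (Additive.ofMul γ))) := by
    have : (fun w : ℍ ↦ F (δ • (ModularGroup.T ^ n • w)) - F (δ • w))
        = fun _ ↦ per1 f (Additive.ofMul γ) := funext fun w ↦ (hconst w).symm
    rw [this]
    exact tendsto_const_nhds
  have := tendsto_nhds_unique h2 h1
  rw [sub_self] at this
  exact this

end Fermat.Agent.S48.H548
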