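import Fermat.Agent.S48.H548.Per1Basic

/-!
# S48 / RES, node M4a1 input PER1 (helper548): the period map on `S_2(Γ₁(M))` is injective

If all periods of `f` vanish, a primitive `F` of `f` is a modular form of weight `0` on `Γ₁(M)`,
hence constant (Mathlib `ModularForm.eq_const_of_weight_zero`), so `f = F' = 0`.
-/

set_option autoImplicit false
set_option linter.unusedSectionVars false
set_option linter.deprecated false

noncomputable section

namespace Fermat.Agent.S48.H548

open CongruenceSubgroup ModularCurve ModularCurve.Period Filter Topology Function Complex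
open UpperHalfPlane hiding I
open Matrix.SpecialLinearGroup
open scoped Manifold MatrixGroups ModularForm

variable {M : ℕ} [NeZero M]

theorem IsPrim.mdiff {f F : ℍ → ℂ} (hF : IsPrim f F) : MDiff F := fun τ ↦
  UpperHalfPlane.mdifferentiableAt_iff.mpr (hF τ).differentiableAt

theorem slash_zero_mapGL (F : ℍ → ℂ) (γ : SL(2, ℤ)) :
    F ∣[(0 : ℤ)] mapGL ℝ γ = fun w : ℍ ↦ F (γ • w) := by
  funext w
  have h := ModularForm.SL_slash_apply (k := 0) F γ w
  rw [ModularForm.SL_slash, neg_zero, zpow_zero, mul_one] at h
  exact h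

/-- A primitive with vanishing periods, as a modular form of weight `0`. -/
def primForm (f : CuspForm (Gamma1 M) 2) (F : ℍ → ℂ) (hF : IsPrim (⇑f) F)
    (hper : per1 f = 0) : ModularForm (Gamma1 M) 0 where
  toFun := F
  slash_action_eq' := by
    rintro _ ⟨γ, hγ, rfl⟩
    rw [slash_zero_mapGL]
    funext w
    have h := per1_apply f hF ⟨γ, hγ⟩ w
    rw [hper, AddMonoidHom.zero_apply] at h
    exact (sub_eq_zero.mp h.symm)
  holo' := hF.mdiff
  bdd_at_cusps' := by
    intro c hc
    have hcSL : IsCusp c 𝒮ℒ := by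
      rwa [Subgroup.IsArithmetic.isCusp_iff_isCusp_SL2Z] at hc
    obtain ⟨δ, hδ⟩ := isCusp_SL2Z_iff'.mp hcSL
    rw [OnePoint.isBoundedAt_iff hδ.symm, slash_zero_mapGL]
    obtain ⟨L, hL⟩ := exists_cusp_limit f hF δ
    exact hL.isBigO_one ℝ

/-- The period map is injective. -/
theorem eq_zero_of_per1_eq_zero (f : CuspForm (Gamma1 M) 2) (hper : per1 f = 0) : f = 0 := by
  obtain ⟨F, hF⟩ := exists_isPrim f
  obtain ⟨c, hc⟩ := ModularForm.eq_const_of_weight_zero (primForm f F hF hper)
  have hFc : F = Function.const ℍ c := hc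
  apply DFunLike.coe_injective
  funext τ
  have h1 := hF τ
  have h2 : F ∘ ofComplex = fun _ ↦ c := by
    funext z
    rw [Function.comp_apply, hFc]
    rfl
  rw [h2] at h1
  exact h1.unique (hasDerivAt_const _ _)

theorem per1L_injective : Function.Injective (per1L M) := by
  intro f g h
  have h1 : per1L M (f - g) = 0 := by rw [map_sub, h, sub_self]
  exact sub_eq_zero.mp (eq_zero_of_per1_eq_zero (f - g) h1)

end Fermat.Agent.S48.H548
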